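/-
S40x / NodeRing / UFD  (helper4; scratch, Mathlib only)

(U)  A Noetherian domain `R` with a prime element `z` lying in the Jacobson radical such that
`R ⧸ (z)` is a principal ideal ring is a unique factorisation domain.
Proof: Kaplansky's criterion + Nakayama (no regularity, no dimension theory, no completion).
-/
import Mathlib

namespace Fermat.Agent.S40x.NodeRing

open Ideal

variable {R : Type*} [CommRing R]

/-- If `q` is a prime ideal not containing `z`, `g ∈ q` and the image of `q` in `R ⧸ (z)` is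
generated by the image of `g`, then `q ≤ (g) ⊔ (z) • q`. -/
theorem le_span_sup_smul_of_map_eq {z g : R} {q : Ideal R} [q.IsPrime] (hzq : z ∉ q)
    (hgq : g ∈ q)
    (hmap : q.map (Ideal.Quotient.mk (Ideal.span {z})) =
      Ideal.span {Ideal.Quotient.mk (Ideal.span {z}) g}) :
    q ≤ Ideal.span {g} ⊔ Ideal.span {z} • q := by
  intro h hh
  have h1 : Ideal.Quotient.mk (Ideal.span {z}) h ∈
      Ideal.span {Ideal.Quotient.mk (Ideal.span {z}) g} := by
    rw [← hmap]; exact Ideal.mem_map_of_mem _ hh
  obtain ⟨a', ha'⟩ := Ideal.mem_span_singleton'.mp h1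
  obtain ⟨a, rfl⟩ := Ideal.Quotient.mk_surjective a'
  have h2 : h - a * g ∈ Ideal.span {z} := by
    rw [← Ideal.Quotient.eq, map_mul]; exact ha'.symm
  obtain ⟨h1', hh1⟩ := Ideal.mem_span_singleton'.mp h2
  have h3 : h1' * z ∈ q := by
    rw [hh1]; exact q.sub_mem hh (q.mul_mem_left _ hgq)
  have h4 : h1' ∈ q := (‹q.IsPrime›.mem_or_mem h3).resolve_right hzq
  have h5 : h = a * g + z * h1' := by
    have : h - a * g = h1' * z := hh1.symm
    linear_combination this
  rw [h5]
  refine Submodule.add_mem_sup (Ideal.mem_span_singleton'.mpr ⟨a, rfl⟩) ?_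
  exact Ideal.mul_mem_mul (Ideal.mem_span_singleton_self z) h4

/-- **(U)** Kaplansky + Nakayama: a Noetherian domain with a prime element `z` in the Jacobson
radical such that `R ⧸ (z)` is a principal ideal ring is a UFD. -/
theorem ufd_of_prime_of_quotient_principal [IsDomain R] [IsNoetherianRing R] {z : R}
    (hz : Prime z) (hjac : z ∈ Ideal.jacobson (⊥ : Ideal R))
    (hpid : IsPrincipalIdealRing (R ⧸ Ideal.span {z})) :
    UniqueFactorizationMonoid R := by
  rw [UniqueFactorizationMonoid.iff_exists_prime_mem_of_isPrime]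
  intro q hq0 hqp
  by_cases hzq : z ∈ q
  · exact ⟨z, hzq, hz⟩
  -- the image of `q` is principal
  obtain ⟨gbar, hgbar⟩ := (hpid.principal (q.map (Ideal.Quotient.mk (Ideal.span {z})))).principal
  have hgmem : gbar ∈ q.map (Ideal.Quotient.mk (Ideal.span {z})) := by
    rw [hgbar]; exact Submodule.mem_span_singleton_self gbar
  rw [Ideal.mem_map_iff_of_surjective _ Ideal.Quotient.mk_surjective] at hgmem
  obtain ⟨g, hgq, rfl⟩ := hgmem
  have hle : q ≤ Ideal.span {g} ⊔ Ideal.span {z} • q :=
    le_span_sup_smul_of_map_eq hzq hgq hgbar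
  have hjac' : Ideal.span {z} ≤ Ideal.jacobson (⊥ : Ideal R) := by
    rw [Ideal.span_singleton_le_iff_mem]; exact hjac
  have hqle : q ≤ Ideal.span {g} :=
    Submodule.le_of_le_smul_of_le_jacobson_bot (IsNoetherian.noetherian q) hjac' hle
  have hqeq : q = Ideal.span {g} :=
    le_antisymm hqle ((Ideal.span_singleton_le_iff_mem _).mpr hgq)
  have hg0 : g ≠ 0 := by
    rintro rfl
    apply hq0
    rw [hqeq]; simp
  refine ⟨g, hgq, ?_⟩
  rw [← Ideal.span_singleton_prime hg0, ← hqeq]
  exact hqp

end Fermat.Agent.S40x.NodeRing
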