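/-
S40x / NodeRing / Basic  (helper4; scratch, Mathlib only)

A *node ring*: a Noetherian local domain `R` whose maximal ideal is generated by two
non-associated prime elements `z`, `z'` (the two branches through an ordinary double point of
an arithmetic surface; in the application `z * z' = p * unit`, "thickness one").

Main results:
* `IsNode.symm`
* `IsNode.quotient_isPrincipalIdealRing` : `R ⧸ (z)` is a PID (in fact a DVR with uniformiser `z'`)
* `IsNode.ufd` : `R` is a UFD
* `IsNode.ord` : the order function `R → ℕ∞` of the DVR `R ⧸ (z)`, with `ord_mul`, `ord_eq_top_iff`,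
  `ord_z'`, `ord_of_isUnit`.
-/
import Fermat.Agent.S40x.NodeRing.UFD

namespace Fermat.Agent.S40x.NodeRing

open IsLocalRing Ideal

variable {R : Type*} [CommRing R] [IsDomain R] [IsLocalRing R]

/-- `z, z'` are the two branch parameters of a node ring. -/
structure IsNode (z z' : R) : Prop where
  max_eq : maximalIdeal R = Ideal.span {z, z'}
  prime_z : Prime z
  prime_z' : Prime z'
  not_dvd : ¬ z ∣ z'

namespace IsNode

variable {z z' : R}

theorem z_mem (h : IsNode z z') : z ∈ maximalIdeal R := by
  rw [h.max_eq]; exact Ideal.subset_span (by simp)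

theorem z'_mem (h : IsNode z z') : z' ∈ maximalIdeal R := by
  rw [h.max_eq]; exact Ideal.subset_span (by simp)

theorem not_dvd' (h : IsNode z z') : ¬ z' ∣ z := by
  rintro ⟨c, hc⟩
  -- `z = z' * c`, `z` irreducible, `z'` not a unit, so `c` is a unit and `z ∣ z'`
  have hirr := h.prime_z.irreducible
  rcases hirr.isUnit_or_isUnit hc with hu | hu
  · exact h.prime_z'.not_isUnit hu
  · apply h.not_dvd
    obtain ⟨u, rfl⟩ := hu
    exact ⟨↑u⁻¹, by rw [hc, mul_assoc, Units.mul_inv, mul_one]⟩

theorem symm (h : IsNode z z') : IsNode z' z where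
  max_eq := by rw [h.max_eq, Set.pair_comm]
  prime_z := h.prime_z'
  prime_z' := h.prime_z
  not_dvd := h.not_dvd'

theorem not_associated (h : IsNode z z') : ¬ Associated z z' := fun ha => h.not_dvd ha.dvd

theorem span_z_isPrime (h : IsNode z z') : (Ideal.span {z}).IsPrime :=
  (Ideal.span_singleton_prime h.prime_z.ne_zero).mpr h.prime_z

theorem span_z_le (h : IsNode z z') : Ideal.span {z} ≤ maximalIdeal R :=
  (Ideal.span_singleton_le_iff_mem _).mpr h.z_mem

theorem span_z_ne_top (h : IsNode z z') : Ideal.span {z} ≠ ⊤ := fun e =>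
  (maximalIdeal.isMaximal R).ne_top (top_le_iff.mp (e ▸ h.span_z_le))

theorem z_mem_jacobson (h : IsNode z z') : z ∈ Ideal.jacobson (⊥ : Ideal R) := by
  rw [IsLocalRing.jacobson_eq_maximalIdeal ⊥ bot_ne_top]; exact h.z_mem

/-- The image of `z'` in `R ⧸ (z)`. -/
noncomputable abbrev zbar' (z z' : R) : R ⧸ Ideal.span {z} := Ideal.Quotient.mk (Ideal.span {z}) z'

theorem zbar'_ne_zero (h : IsNode z z') : zbar' z z' ≠ 0 := by
  intro h0
  rw [Ideal.Quotient.eq_zero_iff_mem, Ideal.mem_span_singleton] at h0
  exact h.not_dvd h0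

/-- elements of the maximal ideal become multiples of `zbar'` modulo `z`. -/
theorem zbar'_dvd_mk_of_mem (h : IsNode z z') {r : R} (hr : r ∈ maximalIdeal R) :
    zbar' z z' ∣ Ideal.Quotient.mk (Ideal.span {z}) r := by
  rw [h.max_eq, Ideal.mem_span_pair] at hr
  obtain ⟨a, b, rfl⟩ := hr
  refine ⟨Ideal.Quotient.mk _ b, ?_⟩
  have hz0 : Ideal.Quotient.mk (Ideal.span {z}) z = 0 :=
    Ideal.Quotient.eq_zero_iff_mem.mpr (Ideal.mem_span_singleton_self z)
  simp only [map_add, map_mul, hz0, mul_zero, zero_add]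
  ring

/-- every non-unit of `R ⧸ (z)` is divisible by the image of `z'`. -/
theorem zbar'_dvd_of_not_isUnit (h : IsNode z z') {a : R ⧸ Ideal.span {z}} (ha : ¬ IsUnit a) :
    zbar' z z' ∣ a := by
  obtain ⟨r, rfl⟩ := Ideal.Quotient.mk_surjective a
  apply h.zbar'_dvd_mk_of_mem
  by_contra hr
  exact ha ((IsLocalRing.notMem_maximalIdeal.mp hr).map _)

theorem not_isUnit_zbar' (h : IsNode z z') : ¬ IsUnit (zbar' z z') := by
  intro hu
  obtain ⟨b, hb⟩ := hu.exists_right_inv
  obtain ⟨s, rfl⟩ := Ideal.Quotient.mk_surjective b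
  have h3 : z' * s - 1 ∈ Ideal.span {z} := by
    rw [← Ideal.Quotient.eq, map_mul, map_one]; exact hb
  have h4 : z' * s - 1 ∈ maximalIdeal R := h.span_z_le h3
  have h5 : (1 : R) ∈ maximalIdeal R := by
    have := (maximalIdeal R).sub_mem ((maximalIdeal R).mul_mem_right s h.z'_mem) h4
    simpa using this
  exact (maximalIdeal.isMaximal R).ne_top ((Ideal.eq_top_iff_one _).mpr h5)

theorem prime_zbar' (h : IsNode z z') :
    haveI := h.span_z_isPrime
    Prime (zbar' z z') := by
  haveI := h.span_z_isPrime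
  refine ⟨h.zbar'_ne_zero, h.not_isUnit_zbar', ?_⟩
  intro a b hab
  by_contra hcon
  push_neg at hcon
  -- if `zbar'` divides neither, both are units, so `zbar'` is a unit
  have ha : IsUnit a := by
    by_contra hna; exact hcon.1 (h.zbar'_dvd_of_not_isUnit hna)
  have hb : IsUnit b := by
    by_contra hnb; exact hcon.2 (h.zbar'_dvd_of_not_isUnit hnb)
  exact h.not_isUnit_zbar' (isUnit_of_dvd_unit hab (ha.mul hb))

section Noetherian

variable [IsNoetherianRing R]

theorem quotient_isLocalRing (h : IsNode z z') : IsLocalRing (R ⧸ Ideal.span {z}) :=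
  haveI : Nontrivial (R ⧸ Ideal.span {z}) := Ideal.Quotient.nontrivial_iff.mpr h.span_z_ne_top
  IsLocalRing.of_surjective' (Ideal.Quotient.mk (Ideal.span {z})) Ideal.Quotient.mk_surjective

theorem quotient_maximalIdeal (h : IsNode z z') :
    haveI := h.quotient_isLocalRing
    maximalIdeal (R ⧸ Ideal.span {z}) = Ideal.span {zbar' z z'} := by
  haveI := h.quotient_isLocalRing
  apply le_antisymm
  · intro a ha
    rw [Ideal.mem_span_singleton]
    exact h.zbar'_dvd_of_not_isUnit ((IsLocalRing.mem_maximalIdeal a).mp ha)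
  · rw [Ideal.span_singleton_le_iff_mem, IsLocalRing.mem_maximalIdeal]
    exact h.not_isUnit_zbar'

/-- `R ⧸ (z)` is a principal ideal ring. -/
theorem quotient_isPrincipalIdealRing (h : IsNode z z') :
    IsPrincipalIdealRing (R ⧸ Ideal.span {z}) := by
  haveI := h.span_z_isPrime
  haveI := h.quotient_isLocalRing
  have hprin : (maximalIdeal (R ⧸ Ideal.span {z})).IsPrincipal :=
    ⟨⟨zbar' z z', h.quotient_maximalIdeal⟩⟩
  exact ((tfae_of_isNoetherianRing_of_isLocalRing_of_isDomain (R ⧸ Ideal.span {z})).out 4 0).mp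
    hprin

/-- **A node ring is a UFD.** -/
theorem ufd (h : IsNode z z') : UniqueFactorizationMonoid R :=
  ufd_of_prime_of_quotient_principal h.prime_z h.z_mem_jacobson h.quotient_isPrincipalIdealRing

/-! ### The order function of the branch `z = 0` at the node -/

/-- `ord z z' r` is the order of vanishing at the node of the restriction of `r` to the branch
`z = 0`, i.e. the `zbar'`-adic valuation of the image of `r` in the DVR `R ⧸ (z)`. -/
noncomputable def ord (z z' r : R) : ℕ∞ :=
  emultiplicity (zbar' z z') (Ideal.Quotient.mk (Ideal.span {z}) r)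

theorem ord_mul (h : IsNode z z') (r s : R) : ord z z' (r * s) = ord z z' r + ord z z' s := by
  haveI := h.span_z_isPrime
  unfold ord
  rw [map_mul, emultiplicity_mul h.prime_zbar']

theorem ord_pow (h : IsNode z z') (r : R) (n : ℕ) : ord z z' (r ^ n) = n • ord z z' r := by
  haveI := h.span_z_isPrime
  unfold ord
  rw [map_pow, emultiplicity_pow h.prime_zbar']
  simp

theorem ord_eq_top_iff (h : IsNode z z') (r : R) : ord z z' r = ⊤ ↔ z ∣ r := by
  haveI := h.span_z_isPrime
  unfold ord
  constructor
  · intro ht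
    by_contra hnd
    have hne : Ideal.Quotient.mk (Ideal.span {z}) r ≠ 0 := by
      rw [Ne, Ideal.Quotient.eq_zero_iff_mem, Ideal.mem_span_singleton]; exact hnd
    have hfin : FiniteMultiplicity (zbar' z z') (Ideal.Quotient.mk (Ideal.span {z}) r) :=
      FiniteMultiplicity.of_not_isUnit h.not_isUnit_zbar' hne
    exact (finiteMultiplicity_iff_emultiplicity_ne_top.mp hfin) ht
  · intro hd
    have h0 : Ideal.Quotient.mk (Ideal.span {z}) r = 0 := by
      rw [Ideal.Quotient.eq_zero_iff_mem, Ideal.mem_span_singleton]; exact hd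
    rw [h0, emultiplicity_zero]

theorem ord_z' (h : IsNode z z') : ord z z' z' = 1 := by
  haveI := h.span_z_isPrime
  unfold ord
  have hfin : FiniteMultiplicity (zbar' z z') (zbar' z z') :=
    FiniteMultiplicity.of_not_isUnit h.not_isUnit_zbar' h.zbar'_ne_zero
  rw [hfin.emultiplicity_self]

theorem ord_of_isUnit (h : IsNode z z') {u : R} (hu : IsUnit u) : ord z z' u = 0 := by
  unfold ord
  exact emultiplicity_of_isUnit_right h.not_isUnit_zbar' (hu.map _)

theorem ord_eq_zero_iff (h : IsNode z z') (r : R) : ord z z' r = 0 ↔ IsUnit r := by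
  constructor
  · intro h0
    unfold ord at h0
    rw [emultiplicity_eq_zero] at h0
    by_contra hr
    exact h0 (h.zbar'_dvd_mk_of_mem ((IsLocalRing.mem_maximalIdeal r).mpr hr))
  · exact h.ord_of_isUnit

end Noetherian

end IsNode

end Fermat.Agent.S40x.NodeRing
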