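/-
S40x / NodeRing / Frac  (helper4; Mathlib only)

`Frac R* = E` when `E = F0(θ₀)`, `F0 = Frac R` (in the application `E = FL_0`, `F0 = F_0`,
`[FL_0 : F_0] = p = deg (minpoly R θ₀)`).

* `exists_mul_eq_emb_of_mem_adjoin`: every element of `F0[θ₀]` is `s / b`, `s ∈ R[θ₀]`, `b ∈ R`, `b ≠ 0`;
* `adjoin_eq_top_of_finrank_eq`: `F0[θ₀] = E` if `finrank F0 E = deg (minpoly R θ₀)`;
* `isFractionRing_Rstar`: `IsFractionRing (Rstar hint hc) E`.
-/
import Mathlib
import Fermat.Agent.S40x.NodeRing.Embed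

set_option linter.style.haveILetI false
set_option linter.unusedSectionVars false

namespace Fermat.Agent.S40x.NodeRing

open Polynomial IsLocalRing

namespace Embed

section Frac

variable {R E : Type*} [CommRing R] [IsDomain R] [IsLocalRing R] [IsIntegrallyClosed R]
  [Field E] [Algebra R E] [FaithfulSMul R E] {θ₀ : E} {c : R}
  (F0 : Type*) [Field F0] [Algebra R F0] [IsFractionRing R F0] [Algebra F0 E] [IsScalarTower R F0 E]

/-- clearing denominators: every element of `F0[θ₀]` is `s / b` with `s ∈ R[θ₀]`, `0 ≠ b ∈ R`. -/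
theorem exists_mul_eq_emb_of_mem_adjoin {x : E} (hx : x ∈ Algebra.adjoin F0 {θ₀}) :
    ∃ (b : R) (s : AdjoinRoot (minpoly R θ₀)), b ≠ 0 ∧ emb θ₀ s = algebraMap R E b * x := by
  rw [Algebra.adjoin_singleton_eq_range_aeval] at hx
  obtain ⟨P, rfl⟩ := hx
  obtain ⟨b, hb₁, hb₂⟩ := IsLocalization.integerNormalization_spec (nonZeroDivisors R) P
  refine ⟨b, AdjoinRoot.mk _ (IsLocalization.integerNormalization (nonZeroDivisors R) P),
    nonZeroDivisors.ne_zero hb₁, ?_⟩
  rw [emb_mk, ← Polynomial.aeval_map_algebraMap F0, hb₂]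
  have e : b • P = (algebraMap R F0 b) • P := (algebraMap_smul F0 b P).symm
  rw [e, map_smul, Algebra.smul_def, ← IsScalarTower.algebraMap_apply]
  rfl

/-- `F0[θ₀] = E` when the degrees match. -/
theorem adjoin_eq_top_of_finrank_eq [FiniteDimensional F0 E] (hint : IsIntegral R θ₀)
    (hfin : Module.finrank F0 E = (minpoly R θ₀).natDegree) :
    Algebra.adjoin F0 {θ₀} = ⊤ := by
  have h1 : minpoly F0 θ₀ = (minpoly R θ₀).map (algebraMap R F0) :=
    minpoly.isIntegrallyClosed_eq_field_fractions' F0 hint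
  have h2 : (minpoly F0 θ₀).natDegree = Module.finrank F0 E := by
    rw [h1, (minpoly.monic hint).natDegree_map, hfin]
  have h3 := (Field.primitive_element_iff_minpoly_natDegree_eq F0 θ₀).mpr h2
  have h4 := IntermediateField.adjoin_simple_toSubalgebra_of_isAlgebraic
    (IsAlgebraic.of_finite F0 θ₀)
  rw [h3] at h4
  rw [← h4]
  rfl

/-- **`Frac R* = E`**. -/
theorem isFractionRing_Rstar [FiniteDimensional F0 E] (hint : IsIntegral R θ₀)
    (hc : (minpoly R θ₀).eval c ∈ maximalIdeal R)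
    (hfin : Module.finrank F0 E = (minpoly R θ₀).natDegree) :
    IsFractionRing (Rstar hint hc) E := by
  apply IsFractionRing.of_field
  intro x
  have hx : x ∈ Algebra.adjoin F0 {θ₀} := by
    rw [adjoin_eq_top_of_finrank_eq (R := R) F0 hint hfin]; exact Algebra.mem_top
  obtain ⟨b, s, hb, hs⟩ := exists_mul_eq_emb_of_mem_adjoin (R := R) F0 hx
  refine ⟨⟨emb θ₀ s, emb_mem_Rstar hint hc s⟩, ⟨algebraMap R E b, algebraMap_mem_Rstar hint hc b⟩, ?_⟩
  have hb' : algebraMap R E b ≠ 0 := by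
    intro h0
    exact hb ((FaithfulSMul.algebraMap_injective R E) (by rw [h0, map_zero]))
  change x = emb θ₀ s / algebraMap R E b
  rw [hs, mul_div_assoc, mul_comm, div_mul_cancel₀ _ hb']

end Frac

end Embed

end Fermat.Agent.S40x.NodeRing
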