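/-
S40x / NodeRing / Descent  (helper4; Mathlib only)

**K1 → K0 descent of the Artin–Schreier generator, without "Claim A".**

`R` a local ring with residue characteristic `p`, `R → E` a field, `σ` an `R`-endomorphism of `E`,
and a family `θ δ` (`δ` in an index set with `p - 1` elements; in the application the
`I/G1`-conjugates of `θ = (z/h - 1)/π`) of elements integral over `R` with
`σ (θ δ) = ζ δ * θ δ + 1`, `ζ δ` `p`-th roots of unity fixed by `σ`.
Put `θ₀ := - ∑ δ, θ δ`.

* `exists_mem_eq_iterate_sub`, `iterate_sub_mem_nonunits`: `σ^i θ₀ ≡ θ₀ + i` modulo every prime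
  ideal containing `p` of every ring containing the `θ δ`, `ζ δ`; in particular modulo the
  maximal ideal of every valuation subring `W` of `E` with `θ δ ∈ W`, `p ∈ nonunits W`.
* `separable_map_minpoly`: if `deg (minpoly R θ₀) ≤ p` then `deg = p` and the reduction of
  `minpoly R θ₀` modulo the maximal ideal of `R` is SEPARABLE: exactly the input of
  `Etale.isNode_loc` at every root.

The proof works in the residue field of an arbitrary valuation subring of `E` dominating `R`.
-/
import Mathlib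

set_option linter.style.haveILetI false

namespace Fermat.Agent.S40x.NodeRing

open IsLocalRing Polynomial

namespace Descent

theorem mem_valuationSubring_of_isIntegral {R E : Type*} [CommRing R] [Field E] [Algebra R E]
    (A : ValuationSubring E) (hA : ∀ r, algebraMap R E r ∈ A) {x : E} (hx : IsIntegral R x) :
    x ∈ A := by
  letI : Algebra R A := ((algebraMap R E).codRestrict A.toSubring hA).toAlgebra
  haveI : IsScalarTower R A E := IsScalarTower.of_algebraMap_eq (fun x => rfl)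
  have h1 : IsIntegral A x := hx.tower_top
  obtain ⟨y, hy⟩ := IsIntegrallyClosed.isIntegral_iff.mp h1
  rw [← hy]; exact y.2

theorem mem_valuationSubring_of_pow_eq_one {E : Type*} [Field E] (W : ValuationSubring E) {ζ : E}
    {n : ℕ} (hn : 0 < n) (h : ζ ^ n = 1) : ζ ∈ W := by
  have h1 : IsIntegral W ζ := IsIntegral.of_pow hn (by rw [h]; exact isIntegral_one)
  obtain ⟨y, hy⟩ := IsIntegrallyClosed.isIntegral_iff.mp h1
  rw [← hy]; exact y.2

/-- a `p`-th root of unity is `1` modulo every prime ideal containing `p`. -/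
theorem sub_one_mem_of_pow_eq_one {B : Type*} [CommRing B] (p : ℕ) (hp : p.Prime) (J : Ideal B)
    [J.IsPrime] (hpJ : (p : B) ∈ J) {ζ : B} (hζ : ζ ^ p = 1) : ζ - 1 ∈ J := by
  obtain ⟨r, hr⟩ := exists_add_pow_prime_eq hp 1 (ζ - 1)
  have h0 : (1 + (ζ - 1)) ^ p = 1 := by rw [add_sub_cancel, hζ]
  rw [h0, one_pow, mul_one] at hr
  have h1 : (ζ - 1) ^ p = - ((p : B) * (ζ - 1) * r) := by linear_combination -hr
  have h2 : (ζ - 1) ^ p ∈ J := by
    rw [h1]; exact neg_mem (Ideal.mul_mem_right _ _ (Ideal.mul_mem_right _ _ hpJ))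
  exact Ideal.IsPrime.mem_of_pow_mem inferInstance p h2

section

variable {B : Type*} [CommRing B]

/-- geometric sum `1 + ζ + ... + ζ^(i-1)` -/
def gs (ζ : B) (i : ℕ) : B := ∑ k ∈ Finset.range i, ζ ^ k

theorem gs_succ (ζ : B) (i : ℕ) : gs ζ (i + 1) = ζ ^ i + gs ζ i := by
  unfold gs; rw [Finset.sum_range_succ, add_comm]

theorem gs_one (i : ℕ) : gs (1 : B) i = i := by
  unfold gs; simp

theorem map_gs {B' : Type*} [CommRing B'] (φ : B →+* B') (ζ : B) (i : ℕ) :
    φ (gs ζ i) = gs (φ ζ) i := by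
  unfold gs; rw [map_sum]; exact Finset.sum_congr rfl fun k _ => map_pow _ _ _

/-- `σ^i θ = ζ^i θ + (1 + ζ + ... + ζ^(i-1))` when `σ θ = ζ θ + 1`, `σ ζ = ζ`. -/
theorem iterate_eq {σ : B →+* B} {θ ζ : B} (hσ : σ θ = ζ * θ + 1) (hζ : σ ζ = ζ) (i : ℕ) :
    (σ^[i]) θ = ζ ^ i * θ + gs ζ i := by
  induction i with
  | zero => simp [gs]
  | succ i ih =>
    rw [Function.iterate_succ_apply', ih, map_add, map_mul, map_pow, hζ, hσ, gs_succ, map_gs, hζ]
    ring

theorem iterate_neg_sum {ι : Type*} [Fintype ι] (σ : B →+* B) (θ ζ : ι → B)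
    (hsz : ∀ d, σ (ζ d) = ζ d) (hs : ∀ d, σ (θ d) = ζ d * θ d + 1) (i : ℕ) :
    (σ^[i]) (-∑ d, θ d) = -∑ d, (ζ d ^ i * θ d + gs (ζ d) i) := by
  have h : ∀ (i : ℕ) (x : ι → B), (σ^[i]) (-∑ d, x d) = -∑ d, (σ^[i]) (x d) := by
    intro i
    induction i with
    | zero => intro x; rfl
    | succ i ih =>
      intro x
      rw [Function.iterate_succ_apply', ih, map_neg, map_sum]
      simp only [Function.iterate_succ_apply']
  rw [h]
  congr 1
  exact Finset.sum_congr rfl fun d _ => iterate_eq (hs d) (hsz d) i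

end

/-- **Congruence** `σ^i θ₀ ≡ θ₀ + i`: the difference is the image of an element of `J`, for every
ring `B → E` containing (lifts of) the `θ δ`, `ζ δ` and every prime ideal `J ∋ p` of `B`. -/
theorem exists_mem_eq_iterate_sub {E B : Type*} [Field E] [CommRing B] (p : ℕ) (hp : p.Prime)
    (φ : B →+* E) (J : Ideal B) [J.IsPrime] (hpJ : (p : B) ∈ J) (σ : E →+* E)
    {ι : Type*} [Fintype ι] (hcard : Fintype.card ι + 1 = p) (θ ζ : ι → E) (θB ζB : ι → B)
    (hθ : ∀ d, φ (θB d) = θ d) (hζ : ∀ d, φ (ζB d) = ζ d) (hz : ∀ d, ζB d ^ p = 1)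
    (hsz : ∀ d, σ (ζ d) = ζ d) (hs : ∀ d, σ (θ d) = ζ d * θ d + 1) (i : ℕ) :
    ∃ x ∈ J, φ x = (σ^[i]) (-∑ d, θ d) - (-∑ d, θ d) - (i : E) := by
  refine ⟨-∑ d, ((ζB d ^ i - 1) * θB d + (gs (ζB d) i - (i : B))) - (p : B) * (i : B), ?_, ?_⟩
  · rw [← Ideal.Quotient.eq_zero_iff_mem]
    have h1 : ∀ d, Ideal.Quotient.mk J (ζB d) = 1 := by
      intro d
      have := sub_one_mem_of_pow_eq_one p hp J hpJ (hz d)
      rw [← Ideal.Quotient.eq_zero_iff_mem, map_sub, map_one, sub_eq_zero] at this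
      exact this
    have h2 : Ideal.Quotient.mk J (p : B) = 0 := Ideal.Quotient.eq_zero_iff_mem.mpr hpJ
    simp [map_gs, h1, h2, gs_one]
  · have hp' : (p : E) = (Fintype.card ι : E) + 1 := by rw [← hcard]; push_cast; ring
    simp only [map_sub, map_neg, map_sum, map_add, map_mul, map_pow, map_gs, map_natCast, map_one,
      hθ, hζ]
    rw [iterate_neg_sum σ θ ζ hsz hs i]
    simp only [Finset.sum_add_distrib, Finset.sum_sub_distrib, Finset.sum_const, Finset.card_univ,
      nsmul_eq_mul, sub_mul, one_mul]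
    rw [hp']; ring

/-- **Congruence, valuation form**: `σ^i θ₀ - θ₀ - i` is a non-unit of every valuation subring `W`
of `E` containing the `θ δ` in which `p` is a non-unit. -/
theorem iterate_sub_mem_nonunits {E : Type*} [Field E] (p : ℕ) (hp : p.Prime)
    (W : ValuationSubring E) (hpW : (p : E) ∈ W.nonunits) (σ : E →+* E)
    {ι : Type*} [Fintype ι] (hcard : Fintype.card ι + 1 = p) (θ ζ : ι → E)
    (hθW : ∀ d, θ d ∈ W) (hz : ∀ d, ζ d ^ p = 1)
    (hsz : ∀ d, σ (ζ d) = ζ d) (hs : ∀ d, σ (θ d) = ζ d * θ d + 1) (i : ℕ) :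
    (σ^[i]) (-∑ d, θ d) - (-∑ d, θ d) - (i : E) ∈ W.nonunits := by
  have hζW : ∀ d, ζ d ∈ W := fun d => mem_valuationSubring_of_pow_eq_one W hp.pos (hz d)
  obtain ⟨hpW', hpW''⟩ := (ValuationSubring.mem_nonunits_iff_exists_mem_maximalIdeal).mp hpW
  have hpJ : ((p : ℕ) : W) ∈ maximalIdeal W := by
    have e : ((p : ℕ) : W) = ⟨(p : E), hpW'⟩ := Subtype.ext (by push_cast; rfl)
    rw [e]; exact hpW''
  obtain ⟨x, hxJ, hx⟩ := exists_mem_eq_iterate_sub p hp W.subtype (maximalIdeal W) hpJ σ hcard θ ζ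
    (fun d => ⟨θ d, hθW d⟩) (fun d => ⟨ζ d, hζW d⟩) (fun d => rfl) (fun d => rfl)
    (fun d => Subtype.ext (by push_cast; exact hz d)) hsz hs i
  rw [← hx]
  exact (ValuationSubring.mem_nonunits_iff_exists_mem_maximalIdeal).mpr ⟨x.2, hxJ⟩

/-- integers `i - j`, `i ≠ j < p`, are units of `W` when `p` is not. -/
theorem valuation_natCast_sub_natCast {E : Type*} [Field E] (p : ℕ) (hp : p.Prime)
    (W : ValuationSubring E) (hpW : (p : E) ∈ W.nonunits) {i j : ℕ} (hi : i < p) (hj : j < p)
    (hij : i ≠ j) : W.valuation ((i : E) - (j : E)) = 1 := by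
  obtain ⟨hpW', hpW''⟩ := (ValuationSubring.mem_nonunits_iff_exists_mem_maximalIdeal).mp hpW
  have hpJ : ((p : ℕ) : W) ∈ maximalIdeal W := by
    have e : ((p : ℕ) : W) = ⟨(p : E), hpW'⟩ := Subtype.ext (by push_cast; rfl)
    rw [e]; exact hpW''
  have hpκ : ((p : ℕ) : ResidueField W) = 0 := by
    have := (residue_eq_zero_iff _).mpr hpJ
    rwa [map_natCast] at this
  haveI : CharP (ResidueField W) p := by
    have h1 := CharP.ringChar_of_prime_eq_zero hp hpκ
    have h2 := ringChar.charP (ResidueField W)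
    rwa [h1] at h2
  have hne : residue W (((i : ℕ) : W) - ((j : ℕ) : W)) ≠ 0 := by
    rw [map_sub, map_natCast, map_natCast, sub_ne_zero]
    intro h
    exact hij (CharP.natCast_injOn_Iio (ResidueField W) p hi hj h)
  have hu : IsUnit (((i : ℕ) : W) - ((j : ℕ) : W)) := by
    by_contra hu
    exact hne ((residue_eq_zero_iff _).mpr ((mem_maximalIdeal _).mpr hu))
  have h1 := (W.valuation_eq_one_iff _).mp hu
  have e : ((((i : ℕ) : W) - ((j : ℕ) : W) : W) : E) = (i : E) - (j : E) := by push_cast; rfl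
  rwa [e] at h1

/-- **the conjugates of `θ₀` are pairwise distinct modulo the maximal ideal of `W`**: the
differences `σ^i θ₀ - σ^j θ₀` (`i ≠ j < p`) are units of `W`. -/
theorem valuation_iterate_sub_iterate {E : Type*} [Field E] (p : ℕ) (hp : p.Prime)
    (W : ValuationSubring E) (hpW : (p : E) ∈ W.nonunits) (σ : E →+* E)
    {ι : Type*} [Fintype ι] (hcard : Fintype.card ι + 1 = p) (θ ζ : ι → E)
    (hθW : ∀ d, θ d ∈ W) (hz : ∀ d, ζ d ^ p = 1)
    (hsz : ∀ d, σ (ζ d) = ζ d) (hs : ∀ d, σ (θ d) = ζ d * θ d + 1) {i j : ℕ} (hi : i < p)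
    (hj : j < p) (hij : i ≠ j) :
    W.valuation ((σ^[i]) (-∑ d, θ d) - (σ^[j]) (-∑ d, θ d)) = 1 := by
  have ha := (ValuationSubring.mem_nonunits_iff W).mp
    (iterate_sub_mem_nonunits p hp W hpW σ hcard θ ζ hθW hz hsz hs i)
  have hb := (ValuationSubring.mem_nonunits_iff W).mp
    (iterate_sub_mem_nonunits p hp W hpW σ hcard θ ζ hθW hz hsz hs j)
  have h1 := valuation_natCast_sub_natCast p hp W hpW hi hj hij
  have e : (σ^[i]) (-∑ d, θ d) - (σ^[j]) (-∑ d, θ d) = ((i : E) - (j : E)) +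
      (((σ^[i]) (-∑ d, θ d) - (-∑ d, θ d) - (i : E)) -
        ((σ^[j]) (-∑ d, θ d) - (-∑ d, θ d) - (j : E))) := by ring
  rw [e, Valuation.map_add_eq_of_lt_left, h1]
  rw [h1]
  exact Valuation.map_sub_lt _ ha hb

/-- **Separability of the descended Artin–Schreier polynomial.** -/
theorem separable_map_minpoly {R E : Type*} [CommRing R] [IsLocalRing R] [Field E] [Algebra R E]
    (p : ℕ) [hp : Fact p.Prime] (hpm : (p : R) ∈ maximalIdeal R)
    (σ : E →ₐ[R] E) {ι : Type*} [Fintype ι] (hcard : Fintype.card ι + 1 = p)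
    (θ ζ : ι → E) (hint : ∀ d, IsIntegral R (θ d)) (hz : ∀ d, ζ d ^ p = 1)
    (hsz : ∀ d, σ (ζ d) = ζ d) (hs : ∀ d, σ (θ d) = ζ d * θ d + 1)
    (hdeg : (minpoly R (-∑ d, θ d)).natDegree ≤ p) :
    (minpoly R (-∑ d, θ d)).natDegree = p ∧
      ((minpoly R (-∑ d, θ d)).map (residue R)).Separable := by
  classical
  set θ₀ : E := -∑ d, θ d with hθ₀
  set Q := minpoly R θ₀ with hQ
  have hint0 : IsIntegral R θ₀ := (IsIntegral.sum _ fun d _ => hint d).neg
  have hQm : Q.Monic := minpoly.monic hint0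
  obtain ⟨A, hA, hloc⟩ := exists_factor_valuationRing (algebraMap R E)
  set f : R →+* A := (algebraMap R E).codRestrict A.toSubring hA with hf
  haveI hloc' : IsLocalHom f := hloc
  -- the conjugates
  have hαint : ∀ i : ℕ, IsIntegral R ((σ^[i]) θ₀) := by
    intro i
    induction i with
    | zero => exact hint0
    | succ i ih => rw [Function.iterate_succ_apply']; exact ih.map σ
  have hαA : ∀ i, (σ^[i]) θ₀ ∈ A := fun i => mem_valuationSubring_of_isIntegral A hA (hαint i)
  have hαroot : ∀ i : ℕ, Polynomial.aeval ((σ^[i]) θ₀) Q = 0 := by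
    intro i
    induction i with
    | zero => exact minpoly.aeval R θ₀
    | succ i ih => rw [Function.iterate_succ_apply', Polynomial.aeval_algHom_apply, ih, map_zero]
  -- the residue field of `A`
  have hpA : ((p : ℕ) : A) ∈ maximalIdeal A := by
    have e : ((p : ℕ) : A) = f (p : R) := (map_natCast f p).symm
    rw [e, mem_maximalIdeal, mem_nonunits_iff]
    intro hu
    exact ((mem_maximalIdeal _).mp hpm) (hloc'.map_nonunit _ hu)
  have hpκ : ((p : ℕ) : ResidueField A) = 0 := by
    have := (residue_eq_zero_iff _).mpr hpA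
    rwa [map_natCast] at this
  haveI : CharP (ResidueField A) p := by
    have h1 := CharP.ringChar_of_prime_eq_zero hp.out hpκ
    have h2 := ringChar.charP (ResidueField A)
    rwa [h1] at h2
  -- residues of the conjugates
  have hθA : ∀ d, θ d ∈ A := fun d => mem_valuationSubring_of_isIntegral A hA (hint d)
  have hζA : ∀ d, ζ d ∈ A := fun d => mem_valuationSubring_of_pow_eq_one A hp.out.pos (hz d)
  have hres : ∀ i : ℕ, residue A ⟨(σ^[i]) θ₀, hαA i⟩ = residue A ⟨θ₀, hαA 0⟩ + (i : ResidueField A) := by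
    intro i
    obtain ⟨x, hxJ, hx⟩ := exists_mem_eq_iterate_sub p hp.out A.subtype (maximalIdeal A) hpA
      (σ : E →+* E) hcard θ ζ (fun d => ⟨θ d, hθA d⟩) (fun d => ⟨ζ d, hζA d⟩)
      (fun d => rfl) (fun d => rfl) (fun d => Subtype.ext (by push_cast; exact hz d)) hsz hs i
    have e : (⟨(σ^[i]) θ₀, hαA i⟩ : A) = ⟨θ₀, hαA 0⟩ + ((i : ℕ) : A) + x := by
      apply Subtype.ext
      have hx' : (x : E) = (σ^[i]) θ₀ - θ₀ - (i : E) := hx
      push_cast
      rw [hx']; ring
    rw [e, map_add, map_add, map_natCast, (residue_eq_zero_iff _).mpr hxJ, add_zero]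
  -- the reduction of `Q` in the residue field of `A`
  set q : (ResidueField A)[X] := Q.map ((residue A).comp f) with hq
  have hqm : q.Monic := hQm.map _
  have hqdeg : q.natDegree = Q.natDegree := hQm.natDegree_map _
  have hroot : ∀ i : ℕ, q.IsRoot (residue A ⟨θ₀, hαA 0⟩ + (i : ResidueField A)) := by
    intro i
    have h0 : Polynomial.eval₂ f (⟨(σ^[i]) θ₀, hαA i⟩ : A) Q = 0 := by
      apply Subtype.ext
      have := Polynomial.hom_eval₂ Q f A.subtype ⟨(σ^[i]) θ₀, hαA i⟩
      exact this.trans (hαroot i)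
    rw [← hres i, IsRoot.def, hq, Polynomial.eval_map, ← Polynomial.hom_eval₂, h0, map_zero]
  set s : Finset (ResidueField A) :=
    (Finset.range p).image (fun i : ℕ => residue A ⟨θ₀, hαA 0⟩ + (i : ResidueField A)) with hs'
  have hscard : s.card = p := by
    rw [hs', Finset.card_image_of_injOn, Finset.card_range]
    intro i hi j hj hij
    have hij' : (i : ResidueField A) = (j : ResidueField A) := add_left_cancel hij
    exact CharP.natCast_injOn_Iio (ResidueField A) p (Finset.mem_range.mp hi)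
      (Finset.mem_range.mp hj) hij'
  have hq0 : q ≠ 0 := hqm.ne_zero
  have hsub : s.val ≤ q.roots := by
    rw [Multiset.le_iff_subset s.nodup]
    intro a ha
    obtain ⟨i, -, rfl⟩ := Finset.mem_image.mp (Finset.mem_val.mp ha)
    exact (Polynomial.mem_roots hq0).mpr (hroot i)
  have hc1 : p ≤ Multiset.card q.roots := by
    rw [← hscard]; exact Multiset.card_le_card hsub
  have hc2 : Multiset.card q.roots ≤ q.natDegree := Polynomial.card_roots' q
  have hnat : Q.natDegree = p := le_antisymm hdeg (by rw [← hqdeg]; exact hc1.trans hc2)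
  have hcard_eq : Multiset.card q.roots = q.natDegree :=
    le_antisymm hc2 (by rw [hqdeg, hnat]; exact hc1)
  have hsplit : q.Splits := Polynomial.splits_iff_card_roots.mpr hcard_eq
  have hroots : s.val = q.roots :=
    Multiset.eq_of_le_of_card_le hsub (by rw [hcard_eq, hqdeg, hnat]; exact hscard.ge)
  have hnodup : q.roots.Nodup := hroots ▸ s.nodup
  have hsep : q.Separable := (nodup_roots_iff_of_splits hq0 hsplit).mp hnodup
  refine ⟨hnat, ?_⟩
  have hcomp : (residue A).comp f = (ResidueField.map f).comp (residue R) := by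
    ext x
    simp [ResidueField.map_residue]
  rw [hq, hcomp, ← Polynomial.map_map] at hsep
  exact (Polynomial.separable_map _).mp hsep

end Descent

end Fermat.Agent.S40x.NodeRing
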