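/-
S40x / NodeRing / PowLemma  (helper4; scratch, Mathlib only)

In a UFD, a nonzero element all of whose prime multiplicities are divisible by `p` is a unit
times a `p`-th power.
-/
import Mathlib

namespace Fermat.Agent.S40x.NodeRing

variable {R : Type*} [CommRing R] [IsDomain R] [UniqueFactorizationMonoid R]

theorem mult_mul {q x y : R} (hq : Prime q) (hx : x ≠ 0) (hy : y ≠ 0) :
    multiplicity q (x * y) = multiplicity q x + multiplicity q y :=
  multiplicity_mul hq (FiniteMultiplicity.of_prime_left hq (mul_ne_zero hx hy))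

theorem mult_pow {q x : R} (hq : Prime q) (hx : x ≠ 0) (k : ℕ) :
    multiplicity q (x ^ k) = k * multiplicity q x :=
  (FiniteMultiplicity.of_prime_left hq hx).multiplicity_pow hq

theorem mult_unit {q : R} (hq : Prime q) {u : R} (hu : IsUnit u) : multiplicity q u = 0 :=
  multiplicity_of_isUnit_right hq.not_isUnit hu

/-- In a UFD, if `p ∣ multiplicity q x` for every prime `q`, then `x` is a unit times a
`p`-th power. -/
theorem exists_unit_mul_pow_of_forall_dvd_multiplicity (p : ℕ) (x : R) (hx : x ≠ 0)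
    (hdiv : ∀ q : R, Prime q → p ∣ multiplicity q x) :
    ∃ (u : Rˣ) (y : R), x = u * y ^ p := by
  revert hx hdiv
  refine UniqueFactorizationMonoid.induction_on_coprime
    (P := fun x => x ≠ 0 → (∀ q : R, Prime q → p ∣ multiplicity q x) →
      ∃ (u : Rˣ) (y : R), x = u * y ^ p) x ?_ ?_ ?_ ?_
  · intro h; exact absurd rfl h
  · intro x hu _ _
    exact ⟨hu.unit, 1, by simp⟩
  · intro q i hq _ hdiv
    have h1 : multiplicity q (q ^ i) = i := multiplicity_pow_self_of_prime hq i
    obtain ⟨j, hj⟩ := h1 ▸ hdiv q hq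
    exact ⟨1, q ^ j, by rw [← pow_mul, mul_comm j p, ← hj]; simp⟩
  · intro x y hxy hPx hPy hxy0 hdiv
    have hx0 : x ≠ 0 := left_ne_zero_of_mul hxy0
    have hy0 : y ≠ 0 := right_ne_zero_of_mul hxy0
    have hdx : ∀ q : R, Prime q → p ∣ multiplicity q x := by
      intro q hq
      by_cases hqx : q ∣ x
      · have hqy : ¬ q ∣ y := fun hqy => hq.not_isUnit (hxy hqx hqy)
        have := hdiv q hq
        rwa [mult_mul hq hx0 hy0, multiplicity_eq_zero.mpr hqy, add_zero] at this
      · rw [multiplicity_eq_zero.mpr hqx]; exact dvd_zero p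
    have hdy : ∀ q : R, Prime q → p ∣ multiplicity q y := by
      intro q hq
      by_cases hqy : q ∣ y
      · have hqx : ¬ q ∣ x := fun hqx => hq.not_isUnit (hxy hqx hqy)
        have := hdiv q hq
        rwa [mult_mul hq hx0 hy0, multiplicity_eq_zero.mpr hqx, zero_add] at this
      · rw [multiplicity_eq_zero.mpr hqy]; exact dvd_zero p
    obtain ⟨u, a, rfl⟩ := hPx hx0 hdx
    obtain ⟨v, b, rfl⟩ := hPy hy0 hdy
    exact ⟨u * v, a * b, by push_cast; ring⟩

end Fermat.Agent.S40x.NodeRing
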