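/-
S40x / NodeRing / Edge  (helper4; scratch, Mathlib only)

**EDGE LEMMA** at a node of thickness one.

`R` node ring with branch parameters `z, z'`, `z * z' = π * ε` (`ε` a unit; in the application
`π = p`).  Let `g = g₁ / g₂` (`g₁ g₂ ≠ 0` in `R`) be such that for every prime element `q` of `R`
not associated to `z`, `z'` (= every horizontal prime divisor through the node) the order
`ord_q g = mult_q g₁ - mult_q g₂` is divisible by `p`.  Put `a = ord_z g`, `b = ord_{z'} g`.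
Then `g = π ^ a * (r₁ / r₂)` with `r₁ r₂` prime to `z`, and the order at the node of the
restriction of `r₁ / r₂` to the branch `z = 0` is congruent to `b - a` modulo `p`:

  `ord_P (red_z (g / π ^ (v_z g))) ≡ v_{z'} g - v_z g  (mod p)`.
-/
import Fermat.Agent.S40x.NodeRing.Basic
import Fermat.Agent.S40x.NodeRing.PowLemma

namespace Fermat.Agent.S40x.NodeRing

open IsLocalRing Ideal

variable {R : Type*} [CommRing R] [IsDomain R] [IsLocalRing R] [IsNoetherianRing R]

namespace IsNode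

variable {z z' : R}

/-- ℕ-valued order along the branch `z = 0` (meaningful when `¬ z ∣ r`). -/
noncomputable def ordNat (z z' r : R) : ℕ :=
  multiplicity (zbar' z z') (Ideal.Quotient.mk (Ideal.span {z}) r)

theorem mk_ne_zero_of_not_dvd {r : R} (hr : ¬ z ∣ r) :
    Ideal.Quotient.mk (Ideal.span {z}) r ≠ 0 := by
  rw [Ne, Ideal.Quotient.eq_zero_iff_mem, Ideal.mem_span_singleton]; exact hr

theorem finite_of_not_dvd (h : IsNode z z') {r : R} (hr : ¬ z ∣ r) :
    have := h.span_z_isPrime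
    FiniteMultiplicity (zbar' z z') (Ideal.Quotient.mk (Ideal.span {z}) r) := by
  have := h.span_z_isPrime
  exact FiniteMultiplicity.of_not_isUnit h.not_isUnit_zbar' (mk_ne_zero_of_not_dvd hr)

theorem ord_eq_ordNat (h : IsNode z z') {r : R} (hr : ¬ z ∣ r) :
    ord z z' r = (ordNat z z' r : ℕ∞) := by
  have := h.span_z_isPrime
  exact (h.finite_of_not_dvd hr).emultiplicity_eq_multiplicity

theorem ordNat_mul (h : IsNode z z') {r s : R} (hr : ¬ z ∣ r) (hs : ¬ z ∣ s) :
    ordNat z z' (r * s) = ordNat z z' r + ordNat z z' s := by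
  have := h.span_z_isPrime
  unfold ordNat
  rw [map_mul]
  apply multiplicity_mul h.prime_zbar'
  rw [← map_mul]
  apply h.finite_of_not_dvd
  intro hd
  rcases h.prime_z.dvd_or_dvd hd with h1 | h1
  · exact hr h1
  · exact hs h1

theorem not_dvd_pow_z' (h : IsNode z z') (k : ℕ) : ¬ z ∣ z' ^ k := fun hd =>
  h.not_dvd (h.prime_z.dvd_of_dvd_pow hd)

theorem ordNat_pow (h : IsNode z z') {r : R} (hr : ¬ z ∣ r) (k : ℕ) :
    ordNat z z' (r ^ k) = k * ordNat z z' r := by
  have := h.span_z_isPrime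
  unfold ordNat
  rw [map_pow]
  exact (h.finite_of_not_dvd hr).multiplicity_pow h.prime_zbar'

theorem ordNat_z' (h : IsNode z z') : ordNat z z' z' = 1 := by
  have := h.span_z_isPrime
  unfold ordNat
  exact multiplicity_self

theorem ordNat_of_isUnit (h : IsNode z z') {u : R} (hu : IsUnit u) : ordNat z z' u = 0 := by
  unfold ordNat
  exact multiplicity_of_isUnit_right h.not_isUnit_zbar' (hu.map _)

theorem not_dvd_of_isUnit (h : IsNode z z') {u : R} (hu : IsUnit u) : ¬ z ∣ u := fun hd =>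
  h.prime_z.not_isUnit (isUnit_of_dvd_unit hd hu)

/-- Splitting off the `z`- and `z'`-parts of a nonzero element. -/
theorem exists_decomp (h : IsNode z z') {g : R} (hg : g ≠ 0) :
    ∃ g' : R, g = z ^ multiplicity z g * (z' ^ multiplicity z' g * g') ∧ ¬ z ∣ g' ∧ ¬ z' ∣ g' := by
  haveI := h.ufd
  obtain ⟨c, hc, hzc⟩ :=
    (FiniteMultiplicity.of_prime_left h.prime_z hg).exists_eq_pow_mul_and_not_dvd
  have hc0 : c ≠ 0 := by rintro rfl; exact hzc (dvd_zero _)
  obtain ⟨g', hg', hz'g'⟩ :=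
    (FiniteMultiplicity.of_prime_left h.prime_z' hc0).exists_eq_pow_mul_and_not_dvd
  have hmult : multiplicity z' g = multiplicity z' c := by
    conv_lhs => rw [hc]
    rw [mult_mul h.prime_z' (pow_ne_zero _ h.prime_z.ne_zero) hc0,
      mult_pow h.prime_z' h.prime_z.ne_zero, multiplicity_eq_zero.mpr h.not_dvd', mul_zero,
      zero_add]
  refine ⟨g', ?_, ?_, hz'g'⟩
  · rw [hmult, ← hg', ← hc]
  · intro hd
    apply hzc
    rw [hg']
    exact Dvd.dvd.mul_left hd _

/-- For a prime `q` not associated to `z`, `z'`, the multiplicity does not see the `z`, `z'`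
parts. -/
theorem mult_decomp (h : IsNode z z') {q : R} (hq : Prime q) (hqz : ¬ Associated q z)
    (hqz' : ¬ Associated q z') (a b : ℕ) {g' : R} (hg' : g' ≠ 0) :
    multiplicity q (z ^ a * (z' ^ b * g')) = multiplicity q g' := by
  haveI := h.ufd
  have h1 : ¬ q ∣ z := fun hd => hqz (hq.associated_of_dvd h.prime_z hd)
  have h2 : ¬ q ∣ z' := fun hd => hqz' (hq.associated_of_dvd h.prime_z' hd)
  rw [mult_mul hq (pow_ne_zero _ h.prime_z.ne_zero)
      (mul_ne_zero (pow_ne_zero _ h.prime_z'.ne_zero) hg'),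
    mult_mul hq (pow_ne_zero _ h.prime_z'.ne_zero) hg',
    mult_pow hq h.prime_z.ne_zero, mult_pow hq h.prime_z'.ne_zero,
    multiplicity_eq_zero.mpr h1, multiplicity_eq_zero.mpr h2]
  simp

/-- **Key congruence**: if `g₁'`, `g₂'` are prime to `z` and `z'` and their multiplicities at
every other prime are congruent mod `p`, then their orders along the branch `z = 0` are congruent
mod `p`. -/
theorem ordNat_congr (h : IsNode z z') {p : ℕ} (hp : 0 < p) {g₁' g₂' : R}
    (h1z : ¬ z ∣ g₁') (h1z' : ¬ z' ∣ g₁') (h2z : ¬ z ∣ g₂') (h2z' : ¬ z' ∣ g₂')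
    (hdiv : ∀ q : R, Prime q → ¬ Associated q z → ¬ Associated q z' →
      (multiplicity q g₁' : ℤ) ≡ multiplicity q g₂' [ZMOD p]) :
    (ordNat z z' g₁' : ℤ) ≡ ordNat z z' g₂' [ZMOD p] := by
  haveI := h.ufd
  have h10 : g₁' ≠ 0 := by rintro rfl; exact h1z (dvd_zero _)
  have h20 : g₂' ≠ 0 := by rintro rfl; exact h2z (dvd_zero _)
  set x := g₁' * g₂' ^ (p - 1) with hx
  have hx0 : x ≠ 0 := mul_ne_zero h10 (pow_ne_zero _ h20)
  have hmult : ∀ q : R, Prime q → p ∣ multiplicity q x := by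
    intro q hq
    rw [hx, mult_mul hq h10 (pow_ne_zero _ h20), mult_pow hq h20]
    by_cases hqz : Associated q z
    · rw [multiplicity_eq_of_associated_left hqz.symm, multiplicity_eq_of_associated_left hqz.symm,
        multiplicity_eq_zero.mpr h1z,
        multiplicity_eq_zero.mpr h2z]; simp
    by_cases hqz' : Associated q z'
    · rw [multiplicity_eq_of_associated_left hqz'.symm, multiplicity_eq_of_associated_left hqz'.symm,
        multiplicity_eq_zero.mpr h1z',
        multiplicity_eq_zero.mpr h2z']; simp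
    have hc := hdiv q hq hqz hqz'
    -- m₁ + (p-1) m₂ ≡ p m₂ ≡ 0
    have : ((multiplicity q g₁' + (p - 1) * multiplicity q g₂' : ℕ) : ℤ) ≡ 0 [ZMOD p] := by
      have hp1 : ((p - 1 : ℕ) : ℤ) = (p : ℤ) - 1 := by
        rw [Nat.cast_sub hp]; simp
      push_cast
      rw [hp1]
      have e : (multiplicity q g₁' : ℤ) + ((p : ℤ) - 1) * multiplicity q g₂' =
          ((multiplicity q g₁' : ℤ) - multiplicity q g₂') + p * multiplicity q g₂' := by ring
      rw [e]
      have h1 : ((multiplicity q g₁' : ℤ) - multiplicity q g₂') ≡ 0 [ZMOD p] := by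
        have := hc.sub_right (multiplicity q g₂' : ℤ)
        simpa using this
      have h2 : (p : ℤ) * multiplicity q g₂' ≡ 0 [ZMOD p] :=
        (Int.modEq_zero_iff_dvd).mpr (dvd_mul_right _ _)
      simpa using h1.add h2
    exact_mod_cast (Int.modEq_zero_iff_dvd.mp this)
  obtain ⟨u, y, hy⟩ := exists_unit_mul_pow_of_forall_dvd_multiplicity p x hx0 hmult
  -- `z ∤ y`
  have hzx : ¬ z ∣ x := by
    intro hd
    rcases h.prime_z.dvd_or_dvd hd with h' | h'
    · exact h1z h'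
    · exact h2z (h.prime_z.dvd_of_dvd_pow h')
  have hzy : ¬ z ∣ y := by
    intro hd
    apply hzx
    rw [hy]
    have hp' : p ≠ 0 := hp.ne'
    exact Dvd.dvd.mul_left (dvd_pow hd hp') _
  have e1 : ordNat z z' x = ordNat z z' g₁' + (p - 1) * ordNat z z' g₂' := by
    rw [hx, h.ordNat_mul h1z (fun hd => h2z (h.prime_z.dvd_of_dvd_pow hd)), h.ordNat_pow h2z]
  have e2 : ordNat z z' x = p * ordNat z z' y := by
    rw [hy, h.ordNat_mul (h.not_dvd_of_isUnit u.isUnit)
      (fun hd => hzy (h.prime_z.dvd_of_dvd_pow hd)),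
      h.ordNat_of_isUnit u.isUnit, h.ordNat_pow hzy, zero_add]
  have e3 : (ordNat z z' g₁' : ℤ) + ((p : ℤ) - 1) * ordNat z z' g₂' = p * ordNat z z' y := by
    have hp1 : ((p - 1 : ℕ) : ℤ) = (p : ℤ) - 1 := by
      rw [Nat.cast_sub hp]; simp
    have h12 : ordNat z z' g₁' + (p - 1) * ordNat z z' g₂' = p * ordNat z z' y :=
      e1.symm.trans e2
    have : ((ordNat z z' g₁' + (p - 1) * ordNat z z' g₂' : ℕ) : ℤ) = ((p * ordNat z z' y : ℕ) : ℤ) :=
      by rw [h12]
    push_cast at this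
    rw [hp1] at this
    exact this
  have e4 : (ordNat z z' g₁' : ℤ) - ordNat z z' g₂' = p * (ordNat z z' y - ordNat z z' g₂') := by
    linear_combination e3
  have : ((ordNat z z' g₁' : ℤ) - ordNat z z' g₂') ≡ 0 [ZMOD p] := by
    rw [e4]; exact (Int.modEq_zero_iff_dvd).mpr (dvd_mul_right _ _)
  have := this.add_right (ordNat z z' g₂' : ℤ)
  simpa using this

/-- **EDGE LEMMA** (thickness one).  See the header of this file. -/
theorem edge (h : IsNode z z') {π : R} (ε : Rˣ) (hrel : z * z' = π * ε) {p : ℕ} (hp : 0 < p)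
    {g₁ g₂ : R} (hg₁ : g₁ ≠ 0) (hg₂ : g₂ ≠ 0)
    (hdiv : ∀ q : R, Prime q → ¬ Associated q z → ¬ Associated q z' →
      (multiplicity q g₁ : ℤ) ≡ multiplicity q g₂ [ZMOD p]) :
    ∃ r₁ r₂ : R, ¬ z ∣ r₁ ∧ ¬ z ∣ r₂ ∧
      g₁ * π ^ multiplicity z g₂ * r₂ = g₂ * π ^ multiplicity z g₁ * r₁ ∧
      ((ordNat z z' r₁ : ℤ) - ordNat z z' r₂) ≡
        ((multiplicity z' g₁ : ℤ) - multiplicity z' g₂) -
          ((multiplicity z g₁ : ℤ) - multiplicity z g₂) [ZMOD p] := by
  obtain ⟨g₁', e₁, h1z, h1z'⟩ := h.exists_decomp hg₁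
  obtain ⟨g₂', e₂, h2z, h2z'⟩ := h.exists_decomp hg₂
  set a₁ := multiplicity z g₁
  set a₂ := multiplicity z g₂
  set b₁ := multiplicity z' g₁
  set b₂ := multiplicity z' g₂
  have h10 : g₁' ≠ 0 := by rintro rfl; exact h1z (dvd_zero _)
  have h20 : g₂' ≠ 0 := by rintro rfl; exact h2z (dvd_zero _)
  have hdiv' : ∀ q : R, Prime q → ¬ Associated q z → ¬ Associated q z' →
      (multiplicity q g₁' : ℤ) ≡ multiplicity q g₂' [ZMOD p] := by
    intro q hq hqz hqz'
    have := hdiv q hq hqz hqz'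
    rw [e₁, e₂, h.mult_decomp hq hqz hqz' a₁ b₁ h10, h.mult_decomp hq hqz hqz' a₂ b₂ h20] at this
    exact this
  have hcong := h.ordNat_congr hp h1z h1z' h2z h2z' hdiv'
  have hπ : ∀ n : ℕ, π ^ n * (ε : R) ^ n = (z * z') ^ n := by
    intro n; rw [← mul_pow, hrel]
  have hεu : ∀ n : ℕ, IsUnit ((ε : R) ^ n) := fun n => (ε.isUnit).pow n
  refine ⟨z' ^ (b₁ + a₂) * g₁' * (ε : R) ^ a₁, z' ^ (b₂ + a₁) * g₂' * (ε : R) ^ a₂, ?_, ?_, ?_, ?_⟩
  · intro hd
    rcases h.prime_z.dvd_or_dvd hd with h' | h'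
    · rcases h.prime_z.dvd_or_dvd h' with h'' | h''
      · exact h.not_dvd_pow_z' _ h''
      · exact h1z h''
    · exact h.not_dvd_of_isUnit (hεu a₁) h'
  · intro hd
    rcases h.prime_z.dvd_or_dvd hd with h' | h'
    · rcases h.prime_z.dvd_or_dvd h' with h'' | h''
      · exact h.not_dvd_pow_z' _ h''
      · exact h2z h''
    · exact h.not_dvd_of_isUnit (hεu a₂) h'
  · rw [e₁, e₂]
    linear_combination
      (z ^ a₁ * (z' ^ b₁ * g₁') * (z' ^ (b₂ + a₁) * g₂')) * hπ a₂ -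
      (z ^ a₂ * (z' ^ b₂ * g₂') * (z' ^ (b₁ + a₂) * g₁')) * hπ a₁
  · have hz'1 : ∀ k : ℕ, ordNat z z' (z' ^ k) = k := by
      intro k; rw [h.ordNat_pow h.not_dvd, h.ordNat_z', mul_one]
    have o1 : ordNat z z' (z' ^ (b₁ + a₂) * g₁' * (ε : R) ^ a₁) = (b₁ + a₂) + ordNat z z' g₁' := by
      rw [h.ordNat_mul _ (h.not_dvd_of_isUnit (hεu a₁)), h.ordNat_mul (h.not_dvd_pow_z' _) h1z,
        hz'1, h.ordNat_of_isUnit (hεu a₁), add_zero]
      intro hd
      rcases h.prime_z.dvd_or_dvd hd with h'' | h''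
      · exact h.not_dvd_pow_z' _ h''
      · exact h1z h''
    have o2 : ordNat z z' (z' ^ (b₂ + a₁) * g₂' * (ε : R) ^ a₂) = (b₂ + a₁) + ordNat z z' g₂' := by
      rw [h.ordNat_mul _ (h.not_dvd_of_isUnit (hεu a₂)), h.ordNat_mul (h.not_dvd_pow_z' _) h2z,
        hz'1, h.ordNat_of_isUnit (hεu a₂), add_zero]
      intro hd
      rcases h.prime_z.dvd_or_dvd hd with h'' | h''
      · exact h.not_dvd_pow_z' _ h''
      · exact h2z h''
    rw [o1, o2]
    push_cast
    have e : ((b₁ : ℤ) + a₂ + ordNat z z' g₁') - ((b₂ : ℤ) + a₁ + ordNat z z' g₂') =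
        (((b₁ : ℤ) - b₂) - ((a₁ : ℤ) - a₂)) + ((ordNat z z' g₁' : ℤ) - ordNat z z' g₂') := by ring
    rw [e]
    have h0 : ((ordNat z z' g₁' : ℤ) - ordNat z z' g₂') ≡ 0 [ZMOD p] := by
      have := hcong.sub_right (ordNat z z' g₂' : ℤ)
      simpa using this
    have := (Int.ModEq.refl (((b₁ : ℤ) - b₂) - ((a₁ : ℤ) - a₂))).add h0
    simpa using this

end IsNode

end Fermat.Agent.S40x.NodeRing
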