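/-
S40x / NodeRing / Coord  (helper4; scratch, Mathlib only)

Coordinate lemmas for a finite free algebra `S` over `R` (basis `b`), used to transport
divisibility / ideal membership along `R → S → S_M` by hand (a poor man's faithful flatness).
-/
import Mathlib

namespace Fermat.Agent.S40x.NodeRing

open Ideal

section Free

variable {R S : Type*} [CommRing R] [CommRing S] [Algebra R S]
variable {ι : Type*} [Fintype ι] (b : Module.Basis ι R S)

/-- `s ∈ I S` iff all coordinates of `s` lie in `I`. -/
theorem mem_map_iff_repr (I : Ideal R) (s : S) :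
    s ∈ I.map (algebraMap R S) ↔ ∀ i, b.repr s i ∈ I := by
  classical
  constructor
  · intro hs
    have h1 : s ∈ (I • (⊤ : Submodule R S)) := by
      rw [Ideal.smul_top_eq_map]; exact hs
    rw [← b.span_eq, Submodule.mem_ideal_smul_span_iff_exists_sum] at h1
    obtain ⟨a, ha, rfl⟩ := h1
    intro i
    have : b.repr (a.sum fun i c => c • b i) = a := by
      have h2 : (a.sum fun i c => c • b i) = Finsupp.linearCombination R b a := by
        rw [Finsupp.linearCombination_apply]
      rw [h2, b.repr_linearCombination]
    rw [this]; exact ha i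
  · intro h
    rw [← b.sum_repr s]
    refine Ideal.sum_mem _ fun i _ => ?_
    rw [Algebra.smul_def]
    exact Ideal.mul_mem_right _ _ (Ideal.mem_map_of_mem _ (h i))

/-- `a ∣ s` in `S` (for `a ∈ R`) iff `a` divides all coordinates. -/
theorem algebraMap_dvd_iff_repr (a : R) (s : S) :
    algebraMap R S a ∣ s ↔ ∀ i, a ∣ b.repr s i := by
  have h := mem_map_iff_repr b (Ideal.span {a}) s
  rw [Ideal.map_span, Set.image_singleton, Ideal.mem_span_singleton] at h
  simpa [Ideal.mem_span_singleton] using h

theorem repr_algebraMap_mul (a : R) (s : S) (i : ι) :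
    b.repr (algebraMap R S a * s) i = a * b.repr s i := by
  rw [← Algebra.smul_def, map_smul]; simp

include b in
/-- If `z` is prime in `R`, `z ∤ z'`, and `z ∣ z' s` in `S`, then `z ∣ s` in `S`. -/
theorem algebraMap_dvd_of_dvd_mul {z z' : R} (hz : Prime z) (hzz' : ¬ z ∣ z') {s : S}
    (h : algebraMap R S z ∣ algebraMap R S z' * s) : algebraMap R S z ∣ s := by
  rw [algebraMap_dvd_iff_repr b] at h ⊢
  intro i
  have := h i
  rw [repr_algebraMap_mul] at this
  exact (hz.dvd_or_dvd this).resolve_left hzz'

end Free

section Loc

variable {S : Type*} [CommRing S] [IsDomain S] (M : Ideal S) [M.IsPrime]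

/-- Divisibility in the localisation at a prime, for images of elements of `S`. -/
theorem algebraMap_dvd_algebraMap_iff (a s : S) :
    algebraMap S (Localization.AtPrime M) a ∣ algebraMap S (Localization.AtPrime M) s ↔
      ∃ σ : S, σ ∉ M ∧ a ∣ σ * s := by
  have hinj : Function.Injective (algebraMap S (Localization.AtPrime M)) :=
    IsLocalization.injective _ M.primeCompl_le_nonZeroDivisors
  constructor
  · rintro ⟨x, hx⟩
    obtain ⟨⟨y, σ⟩, hy⟩ := IsLocalization.surj M.primeCompl x
    refine ⟨σ, σ.2, ⟨y, ?_⟩⟩
    apply hinj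
    simp only at hy
    rw [map_mul, map_mul, hx, ← hy]; ring
  · rintro ⟨σ, hσ, ⟨y, hy⟩⟩
    have hu : IsUnit (algebraMap S (Localization.AtPrime M) σ) :=
      IsLocalization.map_units _ (⟨σ, hσ⟩ : M.primeCompl)
    have h1 : algebraMap S (Localization.AtPrime M) σ * algebraMap S (Localization.AtPrime M) s =
        algebraMap S (Localization.AtPrime M) a * algebraMap S (Localization.AtPrime M) y := by
      rw [← map_mul, ← map_mul, hy]
    have h2 : algebraMap S (Localization.AtPrime M) a ∣
        algebraMap S (Localization.AtPrime M) σ * algebraMap S (Localization.AtPrime M) s :=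
      ⟨_, h1⟩
    exact (hu.dvd_mul_left).mp h2

/-- Every element of the localisation is a unit times the image of an element of `S`. -/
theorem exists_unit_mul_algebraMap (x : Localization.AtPrime M) :
    ∃ (u : (Localization.AtPrime M)ˣ) (s : S), x = u * algebraMap S (Localization.AtPrime M) s := by
  obtain ⟨⟨y, σ⟩, hy⟩ := IsLocalization.surj M.primeCompl x
  have hu : IsUnit (algebraMap S (Localization.AtPrime M) σ) :=
    IsLocalization.map_units _ σ
  refine ⟨hu.unit⁻¹, y, ?_⟩
  simp only at hy
  rw [← hy, mul_comm x, ← mul_assoc, IsUnit.val_inv_mul, one_mul]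

end Loc

end Fermat.Agent.S40x.NodeRing
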