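/-
S40x / NodeRing / PrincipalMax  (helper4; scratch, Mathlib only)

A Noetherian local ring whose maximal ideal is generated by a non-zero-divisor `t` is a domain
(in fact a DVR).  Proof: Krull intersection theorem.
-/
import Mathlib

namespace Fermat.Agent.S40x.NodeRing

open IsLocalRing Ideal

variable {B : Type*} [CommRing B] [IsLocalRing B] [IsNoetherianRing B]

/-- Every nonzero element of a Noetherian local ring with principal maximal ideal `(t)` is a
unit times a power of `t`. -/
theorem exists_pow_mul_unit_of_maximalIdeal_eq_span {t : B}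
    (hm : maximalIdeal B = Ideal.span {t}) {b : B} (hb : b ≠ 0) :
    ∃ (n : ℕ) (u : B), IsUnit u ∧ b = t ^ n * u := by
  have hkrull : ⨅ i : ℕ, (maximalIdeal B) ^ i = ⊥ :=
    Ideal.iInf_pow_eq_bot_of_isLocalRing (maximalIdeal B) (maximalIdeal.isMaximal B).ne_top
  have hex : ∃ n : ℕ, b ∉ (maximalIdeal B) ^ n := by
    by_contra hcon
    push Not at hcon
    apply hb
    have : b ∈ ⨅ i : ℕ, (maximalIdeal B) ^ i := by
      rw [Ideal.mem_iInf]; exact hcon
    rw [hkrull] at this
    exact this
  classical
  let n := Nat.find hex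
  have hn : b ∉ (maximalIdeal B) ^ n := Nat.find_spec hex
  have hn0 : n ≠ 0 := by
    intro h0
    rw [h0, pow_zero, Ideal.one_eq_top] at hn
    exact hn trivial
  obtain ⟨k, hk⟩ := Nat.exists_eq_succ_of_ne_zero hn0
  have hk' : b ∈ (maximalIdeal B) ^ k := by
    by_contra hcon
    have := Nat.find_min' hex hcon
    omega
  rw [hm, Ideal.span_singleton_pow, Ideal.mem_span_singleton] at hk'
  obtain ⟨u, hu⟩ := hk'
  refine ⟨k, u, ?_, hu⟩
  by_contra hnu
  have hu' : u ∈ maximalIdeal B := (mem_maximalIdeal u).mpr hnu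
  rw [hm, Ideal.mem_span_singleton] at hu'
  obtain ⟨w, hw⟩ := hu'
  apply hn
  rw [hk, hm, Ideal.span_singleton_pow, Ideal.mem_span_singleton]
  exact ⟨w, by rw [hu, hw, pow_succ]; ring⟩

/-- A Noetherian local ring whose maximal ideal is generated by a non-zero-divisor is a domain. -/
theorem isDomain_of_maximalIdeal_eq_span_of_regular {t : B}
    (hm : maximalIdeal B = Ideal.span {t}) (hreg : ∀ b : B, t * b = 0 → b = 0) : IsDomain B := by
  have hpow : ∀ n : ℕ, ∀ b : B, t ^ n * b = 0 → b = 0 := by
    intro n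
    induction n with
    | zero => intro b hb; simpa using hb
    | succ n ih =>
      intro b hb
      apply ih
      apply hreg
      rw [← mul_assoc, ← pow_succ']; exact hb
  have : NoZeroDivisors B := by
    refine ⟨fun {a b} hab => ?_⟩
    by_contra hcon
    push Not at hcon
    obtain ⟨n, u, hu, rfl⟩ := exists_pow_mul_unit_of_maximalIdeal_eq_span hm hcon.1
    obtain ⟨k, v, hv, rfl⟩ := exists_pow_mul_unit_of_maximalIdeal_eq_span hm hcon.2
    have h1 : t ^ (n + k) * (u * v) = 0 := by
      rw [← hab, pow_add]; ring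
    have h2 : u * v = 0 := hpow _ _ h1
    exact (hu.mul hv).ne_zero h2
  exact NoZeroDivisors.to_isDomain B

end Fermat.Agent.S40x.NodeRing
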