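/-
S40x / NodeRing / Etale  (helper4; scratch, Mathlib only)

**(Et) ETALE EXTENSION OF A NODE RING.**

`R` node ring with branch parameters `z, z'`.  `Q ∈ R[T]` monic, `S = R[θ] = R[T]/(Q)` a domain,
`c ∈ R` a simple root of `Q` modulo `m_R` (`Q(c) ∈ m_R`, `Q'(c) ∉ m_R`).
`M := ker (S → k, θ ↦ c mod m_R)`, `R' := S_M`.
Then `R'` is again a node ring with the SAME branch parameters `z, z'` (hence a UFD, and the edge
lemma applies to it), and for every ideal `I` of `R`: `I R' ∩ R = I`.
-/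
import Fermat.Agent.S40x.NodeRing.Basic
import Fermat.Agent.S40x.NodeRing.Coord
import Fermat.Agent.S40x.NodeRing.PrincipalMax

namespace Fermat.Agent.S40x.NodeRing

open Polynomial IsLocalRing Ideal

namespace Etale

variable {R : Type*} [CommRing R] [IsLocalRing R]

variable (Q : R[X]) (c : R)

/-- the residue homomorphism `R[θ] → k`, `θ ↦ c mod m`. -/
noncomputable def resHom (hc : Q.eval c ∈ maximalIdeal R) : AdjoinRoot Q →+* ResidueField R :=
  AdjoinRoot.lift (residue R) (residue R c) (by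
    rw [Polynomial.eval₂_at_apply]
    exact (residue_eq_zero_iff _).mpr hc)

variable {Q c}

@[simp] theorem resHom_of (hc : Q.eval c ∈ maximalIdeal R) (r : R) :
    resHom Q c hc (AdjoinRoot.of Q r) = residue R r := by
  unfold resHom; rw [AdjoinRoot.lift_of]

@[simp] theorem resHom_root (hc : Q.eval c ∈ maximalIdeal R) :
    resHom Q c hc (AdjoinRoot.root Q) = residue R c := by
  unfold resHom; rw [AdjoinRoot.lift_root]

theorem resHom_mk (hc : Q.eval c ∈ maximalIdeal R) (P : R[X]) :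
    resHom Q c hc (AdjoinRoot.mk Q P) = residue R (P.eval c) := by
  unfold resHom; rw [AdjoinRoot.lift_mk, Polynomial.eval₂_at_apply]

theorem resHom_surjective (hc : Q.eval c ∈ maximalIdeal R) :
    Function.Surjective (resHom Q c hc) := by
  intro x
  obtain ⟨r, rfl⟩ := residue_surjective x
  exact ⟨AdjoinRoot.of Q r, resHom_of hc r⟩

variable (Q c) in
/-- the maximal ideal `M = (m_R, θ - c)` of `R[θ]`. -/
noncomputable def maxIdeal (hc : Q.eval c ∈ maximalIdeal R) : Ideal (AdjoinRoot Q) :=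
  RingHom.ker (resHom Q c hc)

instance maxIdeal_isMaximal (hc : Q.eval c ∈ maximalIdeal R) : (maxIdeal Q c hc).IsMaximal :=
  RingHom.ker_isMaximal_of_surjective _ (resHom_surjective hc)

instance maxIdeal_isPrime (hc : Q.eval c ∈ maximalIdeal R) : (maxIdeal Q c hc).IsPrime :=
  (maxIdeal_isMaximal hc).isPrime

theorem mem_maxIdeal (hc : Q.eval c ∈ maximalIdeal R) (s : AdjoinRoot Q) :
    s ∈ maxIdeal Q c hc ↔ resHom Q c hc s = 0 := RingHom.mem_ker

theorem of_mem_maxIdeal (hc : Q.eval c ∈ maximalIdeal R) {r : R} :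
    AdjoinRoot.of Q r ∈ maxIdeal Q c hc ↔ r ∈ maximalIdeal R := by
  rw [mem_maxIdeal, resHom_of, residue_eq_zero_iff]

theorem root_sub_mem_maxIdeal (hc : Q.eval c ∈ maximalIdeal R) :
    AdjoinRoot.root Q - AdjoinRoot.of Q c ∈ maxIdeal Q c hc := by
  rw [mem_maxIdeal, map_sub, resHom_root, resHom_of, sub_self]

/-- `mk P - of (P c)` is a multiple of `θ - c`. -/
theorem root_sub_dvd (P : R[X]) :
    AdjoinRoot.root Q - AdjoinRoot.of Q c ∣ AdjoinRoot.mk Q P - AdjoinRoot.of Q (P.eval c) := by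
  have h := Polynomial.sub_dvd_eval_sub (AdjoinRoot.root Q) (AdjoinRoot.of Q c)
    (P.map (AdjoinRoot.of Q))
  rw [Polynomial.eval_map, Polynomial.eval_map, Polynomial.eval₂_at_apply] at h
  have e : AdjoinRoot.mk Q P = Polynomial.eval₂ (AdjoinRoot.of Q) (AdjoinRoot.root Q) P := by
    rw [← AdjoinRoot.aeval_eq, Polynomial.aeval_def, AdjoinRoot.algebraMap_eq]
  rw [e]; exact h

/-- `M = m_R S + (θ - c)`. -/
theorem maxIdeal_eq (hc : Q.eval c ∈ maximalIdeal R) :
    maxIdeal Q c hc = (maximalIdeal R).map (AdjoinRoot.of Q) ⊔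
      Ideal.span {AdjoinRoot.root Q - AdjoinRoot.of Q c} := by
  apply le_antisymm
  · intro s hs
    obtain ⟨P, rfl⟩ := AdjoinRoot.mk_surjective s
    rw [mem_maxIdeal, resHom_mk, residue_eq_zero_iff] at hs
    have h1 : AdjoinRoot.mk Q P =
        AdjoinRoot.of Q (P.eval c) + (AdjoinRoot.mk Q P - AdjoinRoot.of Q (P.eval c)) := by ring
    rw [h1]
    exact Submodule.add_mem_sup (Ideal.mem_map_of_mem _ hs)
      (Ideal.mem_span_singleton.mpr (root_sub_dvd P))
  · rw [sup_le_iff, Ideal.map_le_iff_le_comap, Ideal.span_singleton_le_iff_mem]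
    exact ⟨fun r hr => (of_mem_maxIdeal hc).mpr hr, root_sub_mem_maxIdeal hc⟩

/-- Taylor expansion of `Q` at `c`, evaluated at `θ`:
`(θ - c) * (Q'(c) + k (θ - c)) = - Q(c)`. -/
theorem exists_taylor (Q : R[X]) (c : R) : ∃ k : AdjoinRoot Q,
    (AdjoinRoot.root Q - AdjoinRoot.of Q c) *
      (AdjoinRoot.of Q (Q.derivative.eval c) + k * (AdjoinRoot.root Q - AdjoinRoot.of Q c)) =
      - AdjoinRoot.of Q (Q.eval c) := by
  obtain ⟨k, hk⟩ := Polynomial.binomExpansion (Q.map (AdjoinRoot.of Q)) (AdjoinRoot.of Q c)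
    (AdjoinRoot.root Q - AdjoinRoot.of Q c)
  refine ⟨k, ?_⟩
  have h0 : (Q.map (AdjoinRoot.of Q)).eval
      (AdjoinRoot.of Q c + (AdjoinRoot.root Q - AdjoinRoot.of Q c)) = 0 := by
    rw [add_sub_cancel, Polynomial.eval_map, AdjoinRoot.eval₂_root]
  rw [h0, Polynomial.derivative_map, Polynomial.eval_map, Polynomial.eval_map,
    Polynomial.eval₂_at_apply, Polynomial.eval₂_at_apply] at hk
  linear_combination -hk

/-! ### The localisation `R' = R[θ]_M` -/

section Main

variable {R : Type*} [CommRing R] [IsDomain R] [IsLocalRing R]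
variable {Q : R[X]} {c : R}

/-- the local ring `R' = R[θ]_M`. -/
abbrev Loc (hc : Q.eval c ∈ maximalIdeal R) : Type _ := Localization.AtPrime (maxIdeal Q c hc)

/-- the structure map `R → R'`. -/
noncomputable def incl (hc : Q.eval c ∈ maximalIdeal R) : R →+* Loc hc :=
  (algebraMap (AdjoinRoot Q) (Loc hc)).comp (AdjoinRoot.of Q)

theorem incl_apply (hc : Q.eval c ∈ maximalIdeal R) (r : R) :
    incl hc r = algebraMap (AdjoinRoot Q) (Loc hc) (AdjoinRoot.of Q r) := rfl

/-- `θ - c ∈ m_R R'` when `c` is a simple root of `Q` mod `m_R`. -/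
theorem root_sub_mem_map (hc : Q.eval c ∈ maximalIdeal R) (hc' : IsUnit (Q.derivative.eval c)) :
    algebraMap (AdjoinRoot Q) (Loc hc) (AdjoinRoot.root Q - AdjoinRoot.of Q c) ∈
      (maximalIdeal R).map (incl hc) := by
  obtain ⟨k, hk⟩ := exists_taylor Q c
  set y := AdjoinRoot.root Q - AdjoinRoot.of Q c with hy
  set u := AdjoinRoot.of Q (Q.derivative.eval c) + k * y with hu
  have hunot : u ∉ maxIdeal Q c hc := by
    rw [mem_maxIdeal, hu, map_add, map_mul, resHom_of]
    have hy0 : resHom Q c hc y = 0 := (mem_maxIdeal hc y).mp (root_sub_mem_maxIdeal hc)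
    rw [hy0, mul_zero, add_zero, residue_eq_zero_iff, mem_maximalIdeal, mem_nonunits_iff,
      not_not]
    exact hc'
  have huu : IsUnit (algebraMap (AdjoinRoot Q) (Loc hc) u) :=
    IsLocalization.map_units _ (⟨u, hunot⟩ : (maxIdeal Q c hc).primeCompl)
  have h1 : algebraMap (AdjoinRoot Q) (Loc hc) y * algebraMap (AdjoinRoot Q) (Loc hc) u =
      - incl hc (Q.eval c) := by
    rw [← map_mul, hk, map_neg, incl_apply]
  have h2 : algebraMap (AdjoinRoot Q) (Loc hc) y =
      - incl hc (Q.eval c) * ↑(huu.unit⁻¹) := by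
    rw [← h1, mul_assoc]
    have : algebraMap (AdjoinRoot Q) (Loc hc) u * ↑(huu.unit⁻¹) = 1 := IsUnit.mul_val_inv huu
    rw [this, mul_one]
  rw [h2]
  exact Ideal.mul_mem_right _ _ (neg_mem (Ideal.mem_map_of_mem _ hc))

/-- `m_{R'} = m_R R'`. -/
theorem maximalIdeal_loc (hc : Q.eval c ∈ maximalIdeal R) (hc' : IsUnit (Q.derivative.eval c)) :
    maximalIdeal (Loc hc) = (maximalIdeal R).map (incl hc) := by
  rw [← Localization.AtPrime.map_eq_maximalIdeal]
  have e : (maxIdeal Q c hc).map (algebraMap (AdjoinRoot Q) (Loc hc)) =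
      ((maximalIdeal R).map (AdjoinRoot.of Q) ⊔
        Ideal.span {AdjoinRoot.root Q - AdjoinRoot.of Q c}).map
          (algebraMap (AdjoinRoot Q) (Loc hc)) :=
    congrArg (fun J : Ideal (AdjoinRoot Q) => J.map (algebraMap (AdjoinRoot Q) (Loc hc)))
      (maxIdeal_eq hc)
  rw [e, Ideal.map_sup, Ideal.map_map, Ideal.map_span, Set.image_singleton]
  apply le_antisymm
  · rw [sup_le_iff]
    refine ⟨le_of_eq rfl, ?_⟩
    rw [Ideal.span_singleton_le_iff_mem]
    exact root_sub_mem_map hc hc'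
  · exact le_sup_left

end Main

/-! ### `R'` is a node ring -/

section Node

variable {R : Type*} [CommRing R] [IsDomain R] [IsLocalRing R] [IsNoetherianRing R]
variable {Q : R[X]} {c : R} [IsDomain (AdjoinRoot Q)]

theorem degree_ne_zero_of_monic (hQ : Q.Monic) : Q.degree ≠ 0 := by
  intro h0
  have h1 : Q = 1 := by
    have := Polynomial.eq_C_of_degree_eq_zero h0
    have hlc : Q.coeff 0 = 1 := by
      have hn : Q.natDegree = 0 := Polynomial.natDegree_eq_of_degree_eq_some h0
      have := hQ.coeff_natDegree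
      rwa [hn] at this
    rw [this, hlc, Polynomial.C_1]
  subst h1
  have h2 : (1 : AdjoinRoot (1 : R[X])) = 0 := by
    have := AdjoinRoot.mk_self (f := (1 : R[X]))
    rwa [map_one] at this
  exact one_ne_zero h2

theorem incl_injective (hQ : Q.Monic) (hc : Q.eval c ∈ maximalIdeal R) :
    Function.Injective (incl hc) := by
  have h1 : Function.Injective (algebraMap (AdjoinRoot Q) (Loc hc)) :=
    IsLocalization.injective _ (maxIdeal Q c hc).primeCompl_le_nonZeroDivisors
  exact h1.comp (AdjoinRoot.of.injective_of_degree_ne_zero (degree_ne_zero_of_monic hQ))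

/-- `(z, z')` stays a regular sequence on `R'`: if `z ∣ z' x` in `R'` then `z ∣ x`. -/
theorem dvd_of_dvd_mul (hQ : Q.Monic) (hc : Q.eval c ∈ maximalIdeal R) {z z' : R}
    (hz : Prime z) (hzz' : ¬ z ∣ z') {x : Loc hc} (h : incl hc z ∣ incl hc z' * x) :
    incl hc z ∣ x := by
  obtain ⟨u, s, rfl⟩ := exists_unit_mul_algebraMap (maxIdeal Q c hc) x
  have h1 : incl hc z ∣ algebraMap (AdjoinRoot Q) (Loc hc) (AdjoinRoot.of Q z' * s) := by
    have e : incl hc z' * (↑u * algebraMap (AdjoinRoot Q) (Loc hc) s) =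
        ↑u * algebraMap (AdjoinRoot Q) (Loc hc) (AdjoinRoot.of Q z' * s) := by
      rw [map_mul, incl_apply]; ring
    rw [e] at h
    exact (u.isUnit.dvd_mul_left).mp h
  rw [incl_apply, algebraMap_dvd_algebraMap_iff] at h1
  obtain ⟨σ, hσ, hd⟩ := h1
  have hd' : algebraMap R (AdjoinRoot Q) z ∣ algebraMap R (AdjoinRoot Q) z' * (σ * s) := by
    rw [AdjoinRoot.algebraMap_eq]
    have e : AdjoinRoot.of Q z' * (σ * s) = σ * (AdjoinRoot.of Q z' * s) := by ring
    rw [e]; exact hd
  have hd'' := algebraMap_dvd_of_dvd_mul (AdjoinRoot.powerBasis' hQ).basis hz hzz' hd'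
  rw [AdjoinRoot.algebraMap_eq] at hd''
  have h2 : incl hc z ∣ algebraMap (AdjoinRoot Q) (Loc hc) s := by
    rw [incl_apply, algebraMap_dvd_algebraMap_iff]
    exact ⟨σ, hσ, hd''⟩
  exact Dvd.dvd.mul_left h2 _

theorem maximalIdeal_loc_eq_span (hc : Q.eval c ∈ maximalIdeal R)
    (hc' : IsUnit (Q.derivative.eval c)) {z z' : R} (h : IsNode z z') :
    maximalIdeal (Loc hc) = Ideal.span {incl hc z, incl hc z'} := by
  rw [maximalIdeal_loc hc hc', h.max_eq, Ideal.map_span, Set.image_pair]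

theorem incl_mem_maximalIdeal (hc : Q.eval c ∈ maximalIdeal R) {r : R}
    (hr : r ∈ maximalIdeal R) : incl hc r ∈ maximalIdeal (Loc hc) := by
  rw [← Localization.AtPrime.map_eq_maximalIdeal, incl_apply]
  exact Ideal.mem_map_of_mem _ ((of_mem_maxIdeal hc).mpr hr)

/-- `z` stays prime in `R'`. -/
theorem prime_incl (hQ : Q.Monic) (hc : Q.eval c ∈ maximalIdeal R)
    (hc' : IsUnit (Q.derivative.eval c)) {z z' : R} (h : IsNode z z') :
    Prime (incl hc z) ∧ ¬ incl hc z ∣ incl hc z' := by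
  set I : Ideal (Loc hc) := Ideal.span {incl hc z} with hI
  have hzmem : incl hc z ∈ maximalIdeal (Loc hc) := incl_mem_maximalIdeal hc h.z_mem
  have hIle : I ≤ maximalIdeal (Loc hc) := (Ideal.span_singleton_le_iff_mem _).mpr hzmem
  have hItop : I ≠ ⊤ := fun e =>
    (maximalIdeal.isMaximal (Loc hc)).ne_top (top_le_iff.mp (e ▸ hIle))
  haveI : Nontrivial (Loc hc ⧸ I) := Ideal.Quotient.nontrivial_iff.mpr hItop
  haveI : IsLocalRing (Loc hc ⧸ I) :=
    IsLocalRing.of_surjective' (Ideal.Quotient.mk I) Ideal.Quotient.mk_surjective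
  set t : Loc hc ⧸ I := Ideal.Quotient.mk I (incl hc z') with ht
  -- the maximal ideal of the quotient is generated by `t`
  have hmax : maximalIdeal (Loc hc ⧸ I) = Ideal.span {t} := by
    apply le_antisymm
    · intro a ha
      obtain ⟨x, rfl⟩ := Ideal.Quotient.mk_surjective a
      have hx : x ∈ maximalIdeal (Loc hc) := by
        by_contra hx
        exact ((mem_maximalIdeal _).mp ha) ((IsLocalRing.notMem_maximalIdeal.mp hx).map _)
      rw [maximalIdeal_loc_eq_span hc hc' h, Ideal.mem_span_pair] at hx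
      obtain ⟨a, b, rfl⟩ := hx
      rw [Ideal.mem_span_singleton]
      refine ⟨Ideal.Quotient.mk I b, ?_⟩
      have hz0 : Ideal.Quotient.mk I (incl hc z) = 0 :=
        Ideal.Quotient.eq_zero_iff_mem.mpr (Ideal.mem_span_singleton_self _)
      simp only [map_add, map_mul, hz0, mul_zero, zero_add, ht]
      ring
    · rw [Ideal.span_singleton_le_iff_mem, mem_maximalIdeal, mem_nonunits_iff]
      intro hu
      obtain ⟨b, hb⟩ := hu.exists_right_inv
      obtain ⟨s, rfl⟩ := Ideal.Quotient.mk_surjective b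
      have h3 : incl hc z' * s - 1 ∈ I := by
        rw [← Ideal.Quotient.eq, map_mul, map_one]; exact hb
      have h4 : incl hc z' * s - 1 ∈ maximalIdeal (Loc hc) := hIle h3
      have h5 : (1 : Loc hc) ∈ maximalIdeal (Loc hc) := by
        have := (maximalIdeal (Loc hc)).sub_mem
          ((maximalIdeal (Loc hc)).mul_mem_right s (incl_mem_maximalIdeal hc h.z'_mem)) h4
        simpa using this
      exact (maximalIdeal.isMaximal (Loc hc)).ne_top ((Ideal.eq_top_iff_one _).mpr h5)
  -- `t` is a non-zero-divisor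
  have hreg : ∀ b : Loc hc ⧸ I, t * b = 0 → b = 0 := by
    intro b hb
    obtain ⟨x, rfl⟩ := Ideal.Quotient.mk_surjective b
    rw [ht, ← map_mul, Ideal.Quotient.eq_zero_iff_mem, hI, Ideal.mem_span_singleton] at hb
    rw [Ideal.Quotient.eq_zero_iff_mem, hI, Ideal.mem_span_singleton]
    exact dvd_of_dvd_mul hQ hc h.prime_z h.not_dvd hb
  haveI hdom : IsDomain (Loc hc ⧸ I) := isDomain_of_maximalIdeal_eq_span_of_regular hmax hreg
  have hprime : I.IsPrime := (Ideal.Quotient.isDomain_iff_prime I).mp hdom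
  have hz0 : incl hc z ≠ 0 := by
    intro h0
    exact h.prime_z.ne_zero (incl_injective hQ hc (by rw [h0, map_zero]))
  refine ⟨(Ideal.span_singleton_prime hz0).mp hprime, ?_⟩
  intro hd
  have ht0 : t = 0 := by
    rw [ht, Ideal.Quotient.eq_zero_iff_mem, hI, Ideal.mem_span_singleton]; exact hd
  have : (1 : Loc hc ⧸ I) = 0 := hreg 1 (by rw [ht0, zero_mul])
  exact one_ne_zero this

/-- **(Et)** The localisation `R' = R[θ]_M` of the finite free extension `R[θ] = R[T]/(Q)` at a
simple root `c` of `Q` modulo `m_R` is again a node ring with the same branch parameters. -/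
theorem isNode_loc (hQ : Q.Monic) (hc : Q.eval c ∈ maximalIdeal R)
    (hc' : IsUnit (Q.derivative.eval c)) {z z' : R} (h : IsNode z z') :
    IsNode (incl hc z) (incl hc z') where
  max_eq := maximalIdeal_loc_eq_span hc hc' h
  prime_z := (prime_incl hQ hc hc' h).1
  prime_z' := (prime_incl hQ hc hc' h.symm).1
  not_dvd := (prime_incl hQ hc hc' h).2

instance loc_isNoetherianRing (hc : Q.eval c ∈ maximalIdeal R) : IsNoetherianRing (Loc hc) :=
  IsLocalization.isNoetherianRing (maxIdeal Q c hc).primeCompl _ inferInstance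

end Node

end Etale

end Fermat.Agent.S40x.NodeRing
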