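/-
S40x / NodeRing / Embed  (helper4; Mathlib only)

The étale lift of a node ring as a SUBRING of a field.

`R` integrally closed local domain, `R ⊆ E` a field, `θ₀ ∈ E` integral over `R`,
`Q := minpoly R θ₀`, so `R[θ₀] ≅ R[T]/(Q)` (`emb`, `emb_injective`).

* `isUnit_derivative_eval`: if the reduction of `Q` is separable, EVERY root `c` of `Q` modulo
  `m_R` is simple.
* `exists_eq_maxIdeal`: if the residue field is algebraically closed, EVERY maximal ideal of
  `R[T]/(Q)` is `Etale.maxIdeal Q c hc` for a root `c` of `Q` modulo `m_R`.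
* `Rstar hint hc : Subring E`: the image of `R[θ₀]_M → E`, `M = (m_R, θ₀ - c)`;
  `equivRstar : Etale.Loc hc ≃+* Rstar hint hc`; `inclStar : R →+* Rstar hint hc`.
* `isNode_Rstar`: `R*` is a node ring with the same branch parameters.
* `comap_map_inclStar`: `I R* ∩ R = I` for every ideal `I` of `R` (so orders on the two branches are
  unchanged).
* `exists_Rstar_le`: every valuation subring of `E` containing `R` contains one of the `R*`.
-/
import Mathlib
import Fermat.Agent.S40x.NodeRing.Etale

set_option linter.style.haveILetI false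
set_option linter.unusedSectionVars false

namespace Fermat.Agent.S40x.NodeRing

open Polynomial IsLocalRing Ideal

/-- transport of `IsNode` along a ring isomorphism. -/
theorem IsNode.map_equiv {R S : Type*} [CommRing R] [IsDomain R] [IsLocalRing R]
    [CommRing S] [IsDomain S] [IsLocalRing S] (e : R ≃+* S) {z z' : R} (h : IsNode z z') :
    IsNode (e z) (e z') where
  max_eq := by
    have hmem : ∀ r : R, r ∈ maximalIdeal R → e r ∈ maximalIdeal S := by
      intro r hr
      rw [mem_maximalIdeal, mem_nonunits_iff] at hr ⊢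
      intro hu
      apply hr
      have := hu.map e.symm
      rwa [RingEquiv.symm_apply_apply] at this
    apply le_antisymm
    · intro x hx
      have hx' : e.symm x ∈ maximalIdeal R := by
        rw [mem_maximalIdeal, mem_nonunits_iff] at hx ⊢
        intro hu
        apply hx
        have := hu.map e
        rwa [RingEquiv.apply_symm_apply] at this
      rw [h.max_eq, Ideal.mem_span_pair] at hx'
      obtain ⟨a, b, hab⟩ := hx'
      rw [Ideal.mem_span_pair]
      refine ⟨e a, e b, ?_⟩
      rw [← map_mul, ← map_mul, ← map_add, hab, RingEquiv.apply_symm_apply]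
    · rw [Ideal.span_le]
      rintro x (rfl | rfl)
      · exact hmem _ h.z_mem
      · exact hmem _ h.z'_mem
  prime_z := (MulEquiv.prime_iff e).mpr h.prime_z
  prime_z' := (MulEquiv.prime_iff e).mpr h.prime_z'
  not_dvd := fun hd => h.not_dvd ((map_dvd_iff e).mp hd)

namespace Embed

section Roots

variable {R : Type*} [CommRing R] [IsLocalRing R] {Q : R[X]}

/-- if the reduction of `Q` is separable, every root of `Q` modulo `m_R` is simple. -/
theorem isUnit_derivative_eval (hsep : (Q.map (residue R)).Separable) {c : R}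
    (hc : Q.eval c ∈ maximalIdeal R) : IsUnit (Q.derivative.eval c) := by
  have h0 : (Q.map (residue R)).eval₂ (RingHom.id _) (residue R c) = 0 := by
    rw [Polynomial.eval₂_id, Polynomial.eval_map, Polynomial.eval₂_at_apply]
    exact (residue_eq_zero_iff _).mpr hc
  have h1 := hsep.eval₂_derivative_ne_zero (RingHom.id _) h0
  rw [Polynomial.eval₂_id, Polynomial.derivative_map, Polynomial.eval_map,
    Polynomial.eval₂_at_apply] at h1
  by_contra hu
  exact h1 ((residue_eq_zero_iff _).mpr ((mem_maximalIdeal _).mpr hu))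

/-- **every maximal ideal of `R[T]/(Q)` comes from a root of `Q` modulo `m_R`** (`Q` monic,
algebraically closed residue field). -/
theorem exists_eq_maxIdeal [IsAlgClosed (ResidueField R)] (hQ : Q.Monic)
    (n : Ideal (AdjoinRoot Q)) [hn : n.IsMaximal] :
    ∃ (c : R) (hc : Q.eval c ∈ maximalIdeal R), n = Etale.maxIdeal Q c hc := by
  have hint : (AdjoinRoot.of Q).IsIntegral := by
    haveI : Module.Finite R (AdjoinRoot Q) := (AdjoinRoot.powerBasis' hQ).finite
    have h1 : Algebra.IsIntegral R (AdjoinRoot Q) := inferInstance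
    intro x
    exact h1.isIntegral x
  haveI hcm : (n.comap (AdjoinRoot.of Q)).IsMaximal :=
    Ideal.isMaximal_comap_of_isIntegral_of_isMaximal' _ hint n
  have hcomap : n.comap (AdjoinRoot.of Q) = maximalIdeal R := IsLocalRing.eq_maximalIdeal hcm
  letI : Field (AdjoinRoot Q ⧸ n) := Ideal.Quotient.field n
  set g : R →+* AdjoinRoot Q ⧸ n := (Ideal.Quotient.mk n).comp (AdjoinRoot.of Q) with hg
  have hgker : ∀ r, g r = 0 ↔ r ∈ maximalIdeal R := by
    intro r
    rw [hg, RingHom.comp_apply, Ideal.Quotient.eq_zero_iff_mem, ← Ideal.mem_comap, hcomap]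
  haveI : IsLocalHom g := ⟨fun r hr => by
    by_contra hu
    have h0 : g r = 0 := (hgker r).mpr ((mem_maximalIdeal _).mpr hu)
    rw [h0] at hr
    exact not_isUnit_zero hr⟩
  set h : ResidueField R →+* AdjoinRoot Q ⧸ n := ResidueField.lift g with hh
  have hhg : h.comp (residue R) = g := ResidueField.lift_comp_residue g
  have hgint : g.IsIntegral :=
    RingHom.IsIntegral.trans _ _ hint
      (RingHom.isIntegral_of_surjective _ Ideal.Quotient.mk_surjective)
  have hhint : h.IsIntegral :=
    RingHom.IsIntegral.tower_top (residue R) h (by rw [hhg]; exact hgint)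
  obtain ⟨cbar, hcbar⟩ := (IsAlgClosed.ringHom_bijective_of_isIntegral h hhint).2
    (Ideal.Quotient.mk n (AdjoinRoot.root Q))
  obtain ⟨c, rfl⟩ := residue_surjective cbar
  have hmem : AdjoinRoot.root Q - AdjoinRoot.of Q c ∈ n := by
    rw [← Ideal.Quotient.eq_zero_iff_mem, map_sub, ← hcbar, sub_eq_zero]
    exact RingHom.congr_fun hhg c
  have hc : Q.eval c ∈ maximalIdeal R := by
    rw [← hcomap, Ideal.mem_comap]
    obtain ⟨k, hk⟩ := Etale.root_sub_dvd (Q := Q) (c := c) Q
    rw [AdjoinRoot.mk_self, zero_sub] at hk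
    have h1 : - AdjoinRoot.of Q (Q.eval c) ∈ n := by
      rw [hk]; exact n.mul_mem_right k hmem
    simpa using n.neg_mem h1
  refine ⟨c, hc, ?_⟩
  symm
  apply (Etale.maxIdeal_isMaximal hc).eq_of_le hn.ne_top
  rw [Etale.maxIdeal_eq hc, sup_le_iff, Ideal.map_le_iff_le_comap, hcomap,
    Ideal.span_singleton_le_iff_mem]
  exact ⟨le_rfl, hmem⟩

end Roots

/-! ### Contraction: `I R' ∩ R = I` -/

section Contraction

variable {R : Type*} [CommRing R] [IsLocalRing R]
variable {Q : R[X]} {c : R} [IsDomain (AdjoinRoot Q)]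

/-- **contraction**: `I R' ∩ R = I` for every ideal `I` of `R` (`R' = R[θ]_M`). -/
theorem comap_map_incl (hQ : Q.Monic) (hc : Q.eval c ∈ maximalIdeal R) (I : Ideal R) :
    (I.map (Etale.incl hc)).comap (Etale.incl hc) = I := by
  apply le_antisymm _ Ideal.le_comap_map
  intro r hr
  rw [Ideal.mem_comap] at hr
  have e : I.map (Etale.incl hc) =
      (I.map (algebraMap R (AdjoinRoot Q))).map (algebraMap (AdjoinRoot Q) (Etale.Loc hc)) := by
    rw [Ideal.map_map]; rfl
  rw [e, IsLocalization.mem_map_algebraMap_iff (Etale.maxIdeal Q c hc).primeCompl] at hr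
  obtain ⟨⟨a, s⟩, has⟩ := hr
  have hinj : Function.Injective (algebraMap (AdjoinRoot Q) (Etale.Loc hc)) :=
    IsLocalization.injective _ (Etale.maxIdeal Q c hc).primeCompl_le_nonZeroDivisors
  have h1 : algebraMap R (AdjoinRoot Q) r * (s : AdjoinRoot Q) = (a : AdjoinRoot Q) := by
    apply hinj
    rw [map_mul]
    exact has
  set b := (AdjoinRoot.powerBasis' hQ).basis with hb
  have h2 : ∀ j, r * b.repr (s : AdjoinRoot Q) j ∈ I := by
    intro j
    rw [← repr_algebraMap_mul b, h1]
    exact (mem_map_iff_repr b I _).mp a.2 j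
  -- some coordinate of `s` is a unit
  have h3 : ∃ j, b.repr (s : AdjoinRoot Q) j ∉ maximalIdeal R := by
    by_contra hcon
    push Not at hcon
    have h4 : (s : AdjoinRoot Q) ∈ (maximalIdeal R).map (algebraMap R (AdjoinRoot Q)) :=
      (mem_map_iff_repr b _ _).mpr hcon
    have h5 : (maximalIdeal R).map (algebraMap R (AdjoinRoot Q)) ≤ Etale.maxIdeal Q c hc := by
      rw [Ideal.map_le_iff_le_comap]
      intro x hx
      exact (Etale.of_mem_maxIdeal hc).mpr hx
    exact s.2 (h5 h4)
  obtain ⟨j, hj⟩ := h3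
  have hu : IsUnit (b.repr (s : AdjoinRoot Q) j) := IsLocalRing.notMem_maximalIdeal.mp hj
  obtain ⟨v, hv⟩ := hu.exists_right_inv
  have := I.mul_mem_right v (h2 j)
  rwa [mul_assoc, hv, mul_one] at this

end Contraction

/-! ### The embedding into `E` -/

section Emb

variable {R E : Type*} [CommRing R] [IsDomain R] [IsLocalRing R] [IsIntegrallyClosed R]
  [Field E] [Algebra R E] [FaithfulSMul R E]

/-- `R[T]/(minpoly R θ₀) → E`, `T ↦ θ₀`. -/
noncomputable def emb (θ₀ : E) : AdjoinRoot (minpoly R θ₀) →+* E :=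
  AdjoinRoot.lift (algebraMap R E) θ₀ (by rw [← Polynomial.aeval_def]; exact minpoly.aeval R θ₀)

variable {θ₀ : E}

@[simp] theorem emb_of (r : R) : emb θ₀ (AdjoinRoot.of (minpoly R θ₀) r) = algebraMap R E r := by
  unfold emb; rw [AdjoinRoot.lift_of]

@[simp] theorem emb_root : emb θ₀ (AdjoinRoot.root (minpoly R θ₀)) = θ₀ := by
  unfold emb; rw [AdjoinRoot.lift_root]

theorem emb_mk (P : R[X]) : emb θ₀ (AdjoinRoot.mk (minpoly R θ₀) P) = Polynomial.aeval θ₀ P := by
  unfold emb; rw [AdjoinRoot.lift_mk, Polynomial.aeval_def]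

theorem emb_injective (hint : IsIntegral R θ₀) : Function.Injective (emb (R := R) θ₀) := by
  rw [injective_iff_map_eq_zero]
  intro s hs
  obtain ⟨P, rfl⟩ := AdjoinRoot.mk_surjective s
  rw [emb_mk] at hs
  exact AdjoinRoot.mk_eq_zero.mpr (minpoly.isIntegrallyClosed_dvd hint hs)

theorem isDomain_adjoinRoot (hint : IsIntegral R θ₀) : IsDomain (AdjoinRoot (minpoly R θ₀)) :=
  (emb_injective hint).isDomain _

variable {c : R}

/-- `R[θ₀]_M → E`. -/
noncomputable def locEmb (hint : IsIntegral R θ₀) (hc : (minpoly R θ₀).eval c ∈ maximalIdeal R) :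
    Etale.Loc hc →+* E :=
  IsLocalization.lift (M := (Etale.maxIdeal (minpoly R θ₀) c hc).primeCompl) (g := emb θ₀)
    (fun y => IsUnit.mk0 _ (by
      intro h0
      have h1 : (y : AdjoinRoot (minpoly R θ₀)) = 0 :=
        emb_injective hint (by rw [h0, map_zero])
      exact y.2 (h1 ▸ Ideal.zero_mem _)))

theorem locEmb_algebraMap (hint : IsIntegral R θ₀) (hc : (minpoly R θ₀).eval c ∈ maximalIdeal R)
    (s : AdjoinRoot (minpoly R θ₀)) :
    locEmb hint hc (algebraMap _ (Etale.Loc hc) s) = emb θ₀ s := by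
  unfold locEmb; rw [IsLocalization.lift_eq]

theorem locEmb_incl (hint : IsIntegral R θ₀) (hc : (minpoly R θ₀).eval c ∈ maximalIdeal R)
    (r : R) : locEmb hint hc (Etale.incl hc r) = algebraMap R E r := by
  rw [Etale.incl_apply, locEmb_algebraMap, emb_of]

theorem locEmb_injective (hint : IsIntegral R θ₀)
    (hc : (minpoly R θ₀).eval c ∈ maximalIdeal R) : Function.Injective (locEmb hint hc) := by
  haveI := isDomain_adjoinRoot hint
  unfold locEmb
  rw [IsLocalization.lift_injective_iff]
  intro _ _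
  have hinj : Function.Injective (algebraMap (AdjoinRoot (minpoly R θ₀)) (Etale.Loc hc)) :=
    IsLocalization.injective _ (Etale.maxIdeal _ c hc).primeCompl_le_nonZeroDivisors
  rw [hinj.eq_iff, (emb_injective hint).eq_iff]

/-- **the étale lift as a subring of `E`**. -/
noncomputable def Rstar (hint : IsIntegral R θ₀) (hc : (minpoly R θ₀).eval c ∈ maximalIdeal R) :
    Subring E := (locEmb hint hc).range

/-- `R[θ₀]_M ≃ R*`. -/
noncomputable def equivRstar (hint : IsIntegral R θ₀)
    (hc : (minpoly R θ₀).eval c ∈ maximalIdeal R) : Etale.Loc hc ≃+* Rstar hint hc :=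
  RingEquiv.ofBijective (locEmb hint hc).rangeRestrict
    ⟨fun _ _ hxy => locEmb_injective hint hc (congrArg Subtype.val hxy),
      (locEmb hint hc).rangeRestrict_surjective⟩

theorem coe_equivRstar (hint : IsIntegral R θ₀) (hc : (minpoly R θ₀).eval c ∈ maximalIdeal R)
    (x : Etale.Loc hc) : ((equivRstar hint hc x : Rstar hint hc) : E) = locEmb hint hc x := rfl

/-- the structure map `R → R*`. -/
noncomputable def inclStar (hint : IsIntegral R θ₀) (hc : (minpoly R θ₀).eval c ∈ maximalIdeal R) :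
    R →+* Rstar hint hc := (equivRstar hint hc : Etale.Loc hc →+* Rstar hint hc).comp (Etale.incl hc)

theorem inclStar_apply (hint : IsIntegral R θ₀) (hc : (minpoly R θ₀).eval c ∈ maximalIdeal R)
    (r : R) : inclStar hint hc r = equivRstar hint hc (Etale.incl hc r) := rfl

@[simp] theorem coe_inclStar (hint : IsIntegral R θ₀)
    (hc : (minpoly R θ₀).eval c ∈ maximalIdeal R) (r : R) :
    ((inclStar hint hc r : Rstar hint hc) : E) = algebraMap R E r := by
  rw [inclStar_apply, coe_equivRstar, locEmb_incl]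

theorem algebraMap_mem_Rstar (hint : IsIntegral R θ₀)
    (hc : (minpoly R θ₀).eval c ∈ maximalIdeal R) (r : R) : algebraMap R E r ∈ Rstar hint hc :=
  ⟨Etale.incl hc r, locEmb_incl hint hc r⟩

theorem emb_mem_Rstar (hint : IsIntegral R θ₀)
    (hc : (minpoly R θ₀).eval c ∈ maximalIdeal R) (s : AdjoinRoot (minpoly R θ₀)) :
    emb θ₀ s ∈ Rstar hint hc :=
  ⟨algebraMap _ _ s, locEmb_algebraMap hint hc s⟩

theorem theta_mem_Rstar (hint : IsIntegral R θ₀)
    (hc : (minpoly R θ₀).eval c ∈ maximalIdeal R) : θ₀ ∈ Rstar hint hc := by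
  have := emb_mem_Rstar hint hc (AdjoinRoot.root (minpoly R θ₀))
  rwa [emb_root] at this

/-- elements of `R*` are fractions `a / s`, `a, s ∈ R[θ₀]`, `s ∉ M`. -/
theorem mem_Rstar_iff (hint : IsIntegral R θ₀) (hc : (minpoly R θ₀).eval c ∈ maximalIdeal R)
    (x : E) : x ∈ Rstar hint hc ↔ ∃ a s : AdjoinRoot (minpoly R θ₀),
      s ∉ Etale.maxIdeal (minpoly R θ₀) c hc ∧ x * emb θ₀ s = emb θ₀ a := by
  constructor
  · rintro ⟨y, rfl⟩
    obtain ⟨⟨a, s⟩, has⟩ := IsLocalization.surj (Etale.maxIdeal (minpoly R θ₀) c hc).primeCompl y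
    refine ⟨a, s, s.2, ?_⟩
    rw [← locEmb_algebraMap hint hc, ← locEmb_algebraMap hint hc, ← map_mul]
    exact congrArg _ has
  · rintro ⟨a, s, hs, hx⟩
    have hu : IsUnit (algebraMap (AdjoinRoot (minpoly R θ₀)) (Etale.Loc hc) s) :=
      IsLocalization.map_units _ (⟨s, hs⟩ : (Etale.maxIdeal (minpoly R θ₀) c hc).primeCompl)
    refine ⟨algebraMap _ _ a * ↑(hu.unit⁻¹), ?_⟩
    have hs0 : emb θ₀ s ≠ 0 := by
      intro h0
      have : s = 0 := emb_injective hint (by rw [h0, map_zero])
      exact hs (this ▸ Ideal.zero_mem _)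
    apply mul_right_cancel₀ hs0
    rw [hx, ← locEmb_algebraMap hint hc s, ← map_mul, mul_assoc, IsUnit.val_inv_mul, mul_one,
      locEmb_algebraMap]

instance Rstar_isLocalRing (hint : IsIntegral R θ₀)
    (hc : (minpoly R θ₀).eval c ∈ maximalIdeal R) : IsLocalRing (Rstar hint hc) :=
  (equivRstar hint hc).isLocalRing

instance Rstar_isNoetherianRing [IsNoetherianRing R] (hint : IsIntegral R θ₀)
    (hc : (minpoly R θ₀).eval c ∈ maximalIdeal R) : IsNoetherianRing (Rstar hint hc) :=
  haveI := isDomain_adjoinRoot hint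
  isNoetherianRing_of_ringEquiv _ (equivRstar hint hc)

/-- **(Et), subring form**: `R*` is a node ring with the same branch parameters. -/
theorem isNode_Rstar [IsNoetherianRing R] (hint : IsIntegral R θ₀)
    (hc : (minpoly R θ₀).eval c ∈ maximalIdeal R)
    (hc' : IsUnit ((minpoly R θ₀).derivative.eval c)) {z z' : R} (h : IsNode z z') :
    IsNode (inclStar hint hc z) (inclStar hint hc z') := by
  haveI := isDomain_adjoinRoot hint
  exact (Etale.isNode_loc (minpoly.monic hint) hc hc' h).map_equiv (equivRstar hint hc)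

/-- **contraction, subring form**: `I R* ∩ R = I`. -/
theorem comap_map_inclStar (hint : IsIntegral R θ₀)
    (hc : (minpoly R θ₀).eval c ∈ maximalIdeal R) (I : Ideal R) :
    (I.map (inclStar hint hc)).comap (inclStar hint hc) = I := by
  haveI := isDomain_adjoinRoot hint
  apply le_antisymm _ Ideal.le_comap_map
  intro r hr
  rw [← comap_map_incl (minpoly.monic hint) hc I, Ideal.mem_comap]
  rw [Ideal.mem_comap] at hr
  have e : I.map (inclStar hint hc) =
      (I.map (Etale.incl hc)).map ((equivRstar hint hc : Etale.Loc hc →+* Rstar hint hc)) := by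
    rw [Ideal.map_map]; rfl
  rw [e] at hr
  have h1 := Ideal.mem_map_of_mem ((equivRstar hint hc).symm : Rstar hint hc →+* Etale.Loc hc) hr
  rw [Ideal.map_map] at h1
  have e2 : ((equivRstar hint hc).symm : Rstar hint hc →+* Etale.Loc hc).comp
      ((equivRstar hint hc : Etale.Loc hc →+* Rstar hint hc)) = RingHom.id _ := by
    ext x; simp
  rw [e2, Ideal.map_id] at h1
  have e3 : ((equivRstar hint hc).symm : Rstar hint hc →+* Etale.Loc hc) (inclStar hint hc r) =
      Etale.incl hc r := by
    rw [inclStar_apply]; simp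
  rwa [e3] at h1

/-- **every valuation subring of `E` containing `R` contains one of the `R*`.** -/
theorem exists_Rstar_le [IsAlgClosed (ResidueField R)] (hint : IsIntegral R θ₀)
    (W : ValuationSubring E) (hW : ∀ r, algebraMap R E r ∈ W) :
    ∃ (c : R) (hc : (minpoly R θ₀).eval c ∈ maximalIdeal R), Rstar hint hc ≤ W.toSubring := by
  haveI := isDomain_adjoinRoot hint
  -- `R[θ₀] ⊆ W`
  have hθW : θ₀ ∈ W := by
    letI : Algebra R W := ((algebraMap R E).codRestrict W.toSubring hW).toAlgebra
    haveI : IsScalarTower R W E := IsScalarTower.of_algebraMap_eq (fun x => rfl)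
    have h1 : IsIntegral W θ₀ := hint.tower_top
    obtain ⟨y, hy⟩ := IsIntegrallyClosed.isIntegral_iff.mp h1
    rw [← hy]; exact y.2
  have hSW : ∀ s : AdjoinRoot (minpoly R θ₀), emb θ₀ s ∈ W := by
    intro s
    obtain ⟨P, rfl⟩ := AdjoinRoot.mk_surjective s
    rw [emb_mk, Polynomial.aeval_eq_sum_range]
    refine W.toSubring.sum_mem fun i _ => ?_
    rw [Algebra.smul_def]
    exact W.mul_mem _ _ (hW _) (W.pow_mem hθW i)
  -- the centre of `W` on `R[θ₀]`
  set φ : AdjoinRoot (minpoly R θ₀) →+* W := (emb θ₀).codRestrict W.toSubring hSW with hφ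
  set P : Ideal (AdjoinRoot (minpoly R θ₀)) := (maximalIdeal W).comap φ with hP
  have hPne : P ≠ ⊤ := by
    intro h
    have h1 : (1 : AdjoinRoot (minpoly R θ₀)) ∈ P := h ▸ Submodule.mem_top
    rw [hP, Ideal.mem_comap, map_one] at h1
    exact (maximalIdeal.isMaximal W).ne_top ((Ideal.eq_top_iff_one _).mpr h1)
  obtain ⟨n, hn, hPn⟩ := Ideal.exists_le_maximal P hPne
  obtain ⟨c, hc, rfl⟩ := exists_eq_maxIdeal (minpoly.monic hint) n
  refine ⟨c, hc, ?_⟩
  intro x hx
  obtain ⟨a, s, hs, hxs⟩ := (mem_Rstar_iff hint hc x).mp hx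
  have hsP : s ∉ P := fun h => hs (hPn h)
  have hu : IsUnit (φ s) := by
    rw [hP, Ideal.mem_comap] at hsP
    exact IsLocalRing.notMem_maximalIdeal.mp hsP
  obtain ⟨v, hv⟩ := hu.exists_right_inv
  have hv' : emb θ₀ s * (v : E) = 1 := by
    have := congrArg Subtype.val hv
    simpa [hφ] using this
  have hx' : x = emb θ₀ a * (v : E) := by
    rw [← hxs, mul_assoc, hv', mul_one]
  rw [hx']
  exact W.mul_mem _ _ (hSW a) v.2

end Emb

end Embed

end Fermat.Agent.S40x.NodeRing
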