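/-
S40x / NodeRing / Main  (helper4; Mathlib only)   **C3-ET: the étale lift of the node ring.**

INPUT.  `R` a node ring (`IsNode u u'`: Noetherian local domain, `m = (u, u')`, `u`, `u'`
non-associated primes), residue field algebraically closed of characteristic `p`; `R ⊆ E` a field;
an `ASDatum R p σ θ ζ`: an `R`-endomorphism `σ` of `E` and finitely many (`p - 1`) elements `θ δ`
integral over `R` with `σ (θ δ) = ζ δ * θ δ + 1`, `ζ δ ^ p = 1`, `σ (ζ δ) = ζ δ`, such that
`θ₀ := - ∑ δ, θ δ` has degree `≤ p` over `R`.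
(Application: `R = R_s`, `E = FL`, `σ` the Kummer generator `z ↦ ζ z`, `θ δ = δ ((z / h_s - 1) / π)`
for `δ` in `I / G1`, so `θ₀ ∈ FL_0`, `[FL_0 : F_0] = p`.)

OUTPUT (`namespace ASDatum`).
* `natDegree_eq`, `separable`: `deg (minpoly R θ₀) = p` and its reduction mod `m_R` is separable;
* `isNode_Rstar`: for EVERY root `c` of `minpoly R θ₀` mod `m_R` the subring
  `R*_c = Embed.Rstar _ hc = R[θ₀]_(m_R, θ₀ - c) ⊆ E` is a node ring with branch parameters `u`, `u'`;
  `mul_eq_Rstar`: `u u' = p ψ` persists;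
* `exists_Rstar_le`: every valuation subring `W ⊇ R` of `E` contains some `R*_c`
  (every maximal ideal of `R[θ₀]` is one of the `(m_R, θ₀ - c)`);
* `comap_map_inclStar`, `ord_inclStar`, `ordNat_inclStar`: `I R* ∩ R = I`, hence the order
  functions of the two branches are unchanged on `R`;
* `iterate_mem`, `iterate_sub_mem_nonunits`, `valuation_iterate_sub_iterate`: for every valuation
  subring `W ⊇ R` of `E` in which `p` is a non-unit: `σ^i θ₀ ∈ W`, `σ^i θ₀ ≡ θ₀ + i`, and
  `σ^i θ₀ - σ^j θ₀` is a unit of `W` for `i ≠ j < p`.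
-/
import Mathlib
import Fermat.Agent.S40x.NodeRing.Edge
import Fermat.Agent.S40x.NodeRing.Embed
import Fermat.Agent.S40x.NodeRing.Descent

set_option linter.style.haveILetI false
set_option linter.unusedSectionVars false

namespace Fermat.Agent.S40x.NodeRing

open IsLocalRing Ideal Polynomial

namespace IsNode

section

variable {R : Type*} [CommRing R] [IsDomain R] [IsLocalRing R] {z z' : R}

/-- `zbar'^n ∣ r mod z` iff `r ∈ (z, z'^n)`. -/
theorem pow_dvd_mk_iff (n : ℕ) (r : R) :
    (zbar' z z') ^ n ∣ Ideal.Quotient.mk (Ideal.span {z}) r ↔ r ∈ Ideal.span {z, z' ^ n} := by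
  constructor
  · rintro ⟨a, ha⟩
    obtain ⟨a, rfl⟩ := Ideal.Quotient.mk_surjective a
    rw [← map_pow, ← map_mul, Ideal.Quotient.eq, Ideal.mem_span_singleton] at ha
    obtain ⟨b, hb⟩ := ha
    rw [Ideal.mem_span_pair]
    exact ⟨b, a, by linear_combination -hb⟩
  · intro h
    rw [Ideal.mem_span_pair] at h
    obtain ⟨a, b, rfl⟩ := h
    refine ⟨Ideal.Quotient.mk _ b, ?_⟩
    have hz0 : Ideal.Quotient.mk (Ideal.span {z}) z = 0 :=
      Ideal.Quotient.eq_zero_iff_mem.mpr (Ideal.mem_span_singleton_self z)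
    rw [map_add, map_mul, map_mul, map_pow, hz0, mul_zero, zero_add, mul_comm]

/-- a ring homomorphism with `I S ∩ R = I` preserves the order function of the branch. -/
theorem ord_map_eq {S : Type*} [CommRing S] [IsDomain S] [IsLocalRing S] (f : R →+* S)
    (hf : ∀ I : Ideal R, (I.map f).comap f = I) (r : R) :
    ord (f z) (f z') (f r) = ord z z' r := by
  unfold ord
  rw [emultiplicity_eq_emultiplicity_iff]
  intro n
  rw [pow_dvd_mk_iff, pow_dvd_mk_iff, ← map_pow]
  conv_rhs => rw [← hf (Ideal.span {z, z' ^ n})]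
  rw [Ideal.mem_comap, Ideal.map_span, Set.image_pair]

end

section

variable {R : Type*} [CommRing R] [IsDomain R] [IsLocalRing R] [IsNoetherianRing R] {z z' : R}

theorem ordNat_map_eq {S : Type*} [CommRing S] [IsDomain S] [IsLocalRing S] [IsNoetherianRing S]
    (f : R →+* S) (hf : ∀ I : Ideal R, (I.map f).comap f = I) (r : R) :
    ordNat (f z) (f z') (f r) = ordNat z z' r := by
  have h := ord_map_eq (z := z) (z' := z') f hf r
  unfold ord at h
  unfold ordNat multiplicity
  rw [h]

theorem isIntegrallyClosed (h : IsNode z z') : IsIntegrallyClosed R := by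
  haveI := h.ufd
  infer_instance

end

end IsNode

/-- **the input consumed from C3-AS / C3-COV** (see the header). -/
structure ASDatum (R : Type*) {E : Type*} [CommRing R] [Field E] [Algebra R E] (p : ℕ)
    (σ : E →ₐ[R] E) {ι : Type*} [Fintype ι] (θ ζ : ι → E) : Prop where
  card : Fintype.card ι + 1 = p
  integral : ∀ d, IsIntegral R (θ d)
  zeta_pow : ∀ d, ζ d ^ p = 1
  sigma_zeta : ∀ d, σ (ζ d) = ζ d
  sigma_theta : ∀ d, σ (θ d) = ζ d * θ d + 1
  natDegree_le : (minpoly R (-∑ d, θ d)).natDegree ≤ p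

namespace ASDatum

section Val

variable {R E : Type*} [CommRing R] [Field E] [Algebra R E] {p : ℕ} [hp : Fact p.Prime]
  {σ : E →ₐ[R] E} {ι : Type*} [Fintype ι] {θ ζ : ι → E}

theorem isIntegral_theta0 (D : ASDatum R p σ θ ζ) : IsIntegral R (-∑ d, θ d) :=
  (IsIntegral.sum _ fun d _ => D.integral d).neg

theorem isIntegral_iterate (D : ASDatum R p σ θ ζ) (i : ℕ) :
    IsIntegral R ((σ^[i]) (-∑ d, θ d)) := by
  induction i with
  | zero => exact D.isIntegral_theta0
  | succ i ih => rw [Function.iterate_succ_apply']; exact ih.map σ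

/-- the conjugates of `θ₀` lie in every valuation subring containing `R`. -/
theorem iterate_mem (D : ASDatum R p σ θ ζ) (W : ValuationSubring E)
    (hW : ∀ r, algebraMap R E r ∈ W) (i : ℕ) : (σ^[i]) (-∑ d, θ d) ∈ W :=
  Descent.mem_valuationSubring_of_isIntegral W hW (D.isIntegral_iterate i)

/-- `σ^i θ₀ ≡ θ₀ + i` modulo the maximal ideal of `W`. -/
theorem iterate_sub_mem_nonunits (D : ASDatum R p σ θ ζ) (W : ValuationSubring E)
    (hW : ∀ r, algebraMap R E r ∈ W) (hpW : (p : E) ∈ W.nonunits) (i : ℕ) :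
    (σ^[i]) (-∑ d, θ d) - (-∑ d, θ d) - (i : E) ∈ W.nonunits :=
  Descent.iterate_sub_mem_nonunits p hp.out W hpW (σ : E →+* E) D.card θ ζ
    (fun d => Descent.mem_valuationSubring_of_isIntegral W hW (D.integral d)) D.zeta_pow
    D.sigma_zeta D.sigma_theta i

/-- the conjugates of `θ₀` are pairwise distinct modulo the maximal ideal of `W`. -/
theorem valuation_iterate_sub_iterate (D : ASDatum R p σ θ ζ) (W : ValuationSubring E)
    (hW : ∀ r, algebraMap R E r ∈ W) (hpW : (p : E) ∈ W.nonunits) {i j : ℕ} (hi : i < p)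
    (hj : j < p) (hij : i ≠ j) :
    W.valuation ((σ^[i]) (-∑ d, θ d) - (σ^[j]) (-∑ d, θ d)) = 1 :=
  Descent.valuation_iterate_sub_iterate p hp.out W hpW (σ : E →+* E) D.card θ ζ
    (fun d => Descent.mem_valuationSubring_of_isIntegral W hW (D.integral d)) D.zeta_pow
    D.sigma_zeta D.sigma_theta hi hj hij

end Val

section Lift

variable {R E : Type*} [CommRing R] [IsDomain R] [IsLocalRing R] [IsNoetherianRing R]
  [IsIntegrallyClosed R] [Field E] [Algebra R E] [FaithfulSMul R E] {p : ℕ} [hp : Fact p.Prime]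
  {σ : E →ₐ[R] E} {ι : Type*} [Fintype ι] {θ ζ : ι → E}

theorem natDegree_eq (D : ASDatum R p σ θ ζ) (hpm : (p : R) ∈ maximalIdeal R) :
    (minpoly R (-∑ d, θ d)).natDegree = p :=
  (Descent.separable_map_minpoly p hpm σ D.card θ ζ D.integral D.zeta_pow D.sigma_zeta
    D.sigma_theta D.natDegree_le).1

theorem separable (D : ASDatum R p σ θ ζ) (hpm : (p : R) ∈ maximalIdeal R) :
    ((minpoly R (-∑ d, θ d)).map (residue R)).Separable :=
  (Descent.separable_map_minpoly p hpm σ D.card θ ζ D.integral D.zeta_pow D.sigma_zeta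
    D.sigma_theta D.natDegree_le).2

variable {c : R}

/-- **(Et)**: every `R*_c` is a node ring with the same branch parameters. -/
theorem isNode_Rstar (D : ASDatum R p σ θ ζ) (hpm : (p : R) ∈ maximalIdeal R) {u u' : R}
    (h : IsNode u u') (hc : (minpoly R (-∑ d, θ d)).eval c ∈ maximalIdeal R) :
    IsNode (Embed.inclStar D.isIntegral_theta0 hc u) (Embed.inclStar D.isIntegral_theta0 hc u') :=
  Embed.isNode_Rstar D.isIntegral_theta0 hc
    (Embed.isUnit_derivative_eval (D.separable hpm) hc) h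

/-- thickness one persists: `u u' = p ψ` in `R*_c`. -/
theorem mul_eq_Rstar (D : ASDatum R p σ θ ζ) {u u' : R} (ψ : Rˣ) (hψ : u * u' = (p : R) * ψ)
    (hc : (minpoly R (-∑ d, θ d)).eval c ∈ maximalIdeal R) :
    ∃ ψ' : (Embed.Rstar D.isIntegral_theta0 hc)ˣ,
      Embed.inclStar D.isIntegral_theta0 hc u * Embed.inclStar D.isIntegral_theta0 hc u' =
        (p : Embed.Rstar D.isIntegral_theta0 hc) * ψ' := by
  refine ⟨Units.map (Embed.inclStar D.isIntegral_theta0 hc : R →* _) ψ, ?_⟩
  rw [← map_mul, hψ, map_mul, map_natCast]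
  rfl

/-- `I R* ∩ R = I`. -/
theorem comap_map_inclStar (D : ASDatum R p σ θ ζ)
    (hc : (minpoly R (-∑ d, θ d)).eval c ∈ maximalIdeal R) (I : Ideal R) :
    (I.map (Embed.inclStar D.isIntegral_theta0 hc)).comap (Embed.inclStar D.isIntegral_theta0 hc)
      = I :=
  Embed.comap_map_inclStar D.isIntegral_theta0 hc I

/-- the order along the branch `u = 0` is unchanged on `R`. -/
theorem ord_inclStar (D : ASDatum R p σ θ ζ)
    (hc : (minpoly R (-∑ d, θ d)).eval c ∈ maximalIdeal R) (u u' r : R) :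
    IsNode.ord (Embed.inclStar D.isIntegral_theta0 hc u) (Embed.inclStar D.isIntegral_theta0 hc u')
      (Embed.inclStar D.isIntegral_theta0 hc r) = IsNode.ord u u' r :=
  IsNode.ord_map_eq _ (D.comap_map_inclStar hc) r

theorem ordNat_inclStar (D : ASDatum R p σ θ ζ)
    (hc : (minpoly R (-∑ d, θ d)).eval c ∈ maximalIdeal R) (u u' r : R) :
    IsNode.ordNat (Embed.inclStar D.isIntegral_theta0 hc u)
      (Embed.inclStar D.isIntegral_theta0 hc u') (Embed.inclStar D.isIntegral_theta0 hc r) =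
      IsNode.ordNat u u' r :=
  IsNode.ordNat_map_eq _ (D.comap_map_inclStar hc) r

/-- **every valuation subring of `E` containing `R` contains one of the node rings `R*_c`.** -/
theorem exists_Rstar_le [IsAlgClosed (ResidueField R)] (D : ASDatum R p σ θ ζ)
    (W : ValuationSubring E) (hW : ∀ r, algebraMap R E r ∈ W) :
    ∃ (c : R) (hc : (minpoly R (-∑ d, θ d)).eval c ∈ maximalIdeal R),
      Embed.Rstar D.isIntegral_theta0 hc ≤ W.toSubring :=
  Embed.exists_Rstar_le D.isIntegral_theta0 W hW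

end Lift

end ASDatum

end Fermat.Agent.S40x.NodeRing
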