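/-
S40x / NodeRing / Bundle  (helper4)   **row [ET] of board S44_C3_ASM, node case, in one place.**

Imports: Mathlib, `NodeRing/Main`, `NodeRing/Frac` (helper4) and the landed `R2/NodeCover/PrimeOrd`
(helper2: prime-adic order functions in the `Transitive.IsOrd` vocabulary).

Setting: `R = R_s` a node ring (`IsNode u u'`), `F0 = Frac R`, `E0 ⊇ F0` a field with
`[E0 : F0] = p` (`E0 = FL_0` as a TYPE), `E ⊇ E0` a bigger field (`E = FL`) carrying the
`ASDatum R p σ θ ζ` (the conjugates `θ δ` are not in `E0`, only `θ₀ = - ∑ δ, θ δ` is: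
`hθ : algebraMap E0 E θ₀' = - ∑ d, θ d`).

For every root `c` of `minpoly R θ₀'` modulo `m_R` the subring
`S := Embed.Rstar hint' hc ⊆ E0` has (`namespace ET`):
`isIntegral'`, `natDegree_eq'`, `isUnit_derivative'`, `isNode'` (node ring, same `u`, `u'`), `ufm'`,
`isFractionRing'` (`Frac S = E0`), `mul_eq'`, `not_dvd_natCast'` ((n4)*), `contraction'`,
`ord_package'` (the `u`-adic order function of `S` on `E0`: `IsOrd`, `hinf_u`, `hinf_0`, `hWinf`, `hvinf`
in the binder shapes of `Asm.node_slope_eq` / `Asm.c3_core_pair`), `exists_le'` (every valuation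
subring of `E0` containing `R` contains one of the `S`).
-/
import Mathlib
import Fermat.Agent.S40x.NodeRing.Main
import Fermat.Agent.S40x.NodeRing.Frac
import Fermat.Agent.S40x.R2.NodeCover.PrimeOrd

set_option linter.style.haveILetI false
set_option linter.unusedSectionVars false

namespace Fermat.Agent.S40x.NodeRing

open IsLocalRing Ideal Polynomial Fermat.Agent.S40x.R2.Transitive Fermat.Agent.S40x.R2.NodeCover

namespace ET

variable {R E0 E : Type*} [CommRing R] [IsDomain R] [IsLocalRing R] [IsNoetherianRing R]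
  [IsIntegrallyClosed R] [Field E0] [Algebra R E0] [FaithfulSMul R E0] [Field E] [Algebra R E]
  [Algebra E0 E] [IsScalarTower R E0 E] {p : ℕ} [hp : Fact p.Prime]
  {σ : E →ₐ[R] E} {ι : Type*} [Fintype ι] {θ ζ : ι → E} {θ₀' : E0} {c : R}

theorem minpoly_eq' (hθ : algebraMap E0 E θ₀' = -∑ d, θ d) :
    minpoly R (-∑ d, θ d) = minpoly R θ₀' := by
  rw [← hθ]
  exact minpoly.algebraMap_eq (algebraMap E0 E).injective θ₀'

theorem isIntegral' (D : ASDatum R p σ θ ζ) (hθ : algebraMap E0 E θ₀' = -∑ d, θ d) :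
    IsIntegral R θ₀' := by
  have h := D.isIntegral_theta0
  rw [← hθ] at h
  exact (isIntegral_algebraMap_iff (algebraMap E0 E).injective).mp h

theorem natDegree_eq' (D : ASDatum R p σ θ ζ) (hpm : (p : R) ∈ maximalIdeal R)
    (hθ : algebraMap E0 E θ₀' = -∑ d, θ d) : (minpoly R θ₀').natDegree = p := by
  rw [← minpoly_eq' hθ]
  exact (Descent.separable_map_minpoly p hpm σ D.card θ ζ D.integral D.zeta_pow D.sigma_zeta
    D.sigma_theta D.natDegree_le).1

theorem separable' (D : ASDatum R p σ θ ζ) (hpm : (p : R) ∈ maximalIdeal R)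
    (hθ : algebraMap E0 E θ₀' = -∑ d, θ d) : ((minpoly R θ₀').map (residue R)).Separable := by
  rw [← minpoly_eq' hθ]
  exact (Descent.separable_map_minpoly p hpm σ D.card θ ζ D.integral D.zeta_pow D.sigma_zeta
    D.sigma_theta D.natDegree_le).2

theorem isUnit_derivative' (D : ASDatum R p σ θ ζ) (hpm : (p : R) ∈ maximalIdeal R)
    (hθ : algebraMap E0 E θ₀' = -∑ d, θ d) (hc : (minpoly R θ₀').eval c ∈ maximalIdeal R) :
    IsUnit ((minpoly R θ₀').derivative.eval c) :=
  Embed.isUnit_derivative_eval (separable' D hpm hθ) hc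

/-- the node ring `R*_c ⊆ E0`. -/
theorem isNode' (D : ASDatum R p σ θ ζ) (hpm : (p : R) ∈ maximalIdeal R)
    (hθ : algebraMap E0 E θ₀' = -∑ d, θ d) {u u' : R} (h : IsNode u u')
    (hc : (minpoly R θ₀').eval c ∈ maximalIdeal R) :
    IsNode (Embed.inclStar (isIntegral' D hθ) hc u) (Embed.inclStar (isIntegral' D hθ) hc u') :=
  Embed.isNode_Rstar (isIntegral' D hθ) hc (isUnit_derivative' D hpm hθ hc) h

theorem ufm' (D : ASDatum R p σ θ ζ) (hpm : (p : R) ∈ maximalIdeal R)
    (hθ : algebraMap E0 E θ₀' = -∑ d, θ d) {u u' : R} (h : IsNode u u')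
    (hc : (minpoly R θ₀').eval c ∈ maximalIdeal R) :
    UniqueFactorizationMonoid (Embed.Rstar (isIntegral' D hθ) hc) :=
  (isNode' D hpm hθ h hc).ufd

/-- `Frac R*_c = E0` when `[E0 : F0] = p`. -/
theorem isFractionRing' (D : ASDatum R p σ θ ζ) (hpm : (p : R) ∈ maximalIdeal R)
    (hθ : algebraMap E0 E θ₀' = -∑ d, θ d) (hc : (minpoly R θ₀').eval c ∈ maximalIdeal R)
    (F0 : Type*) [Field F0] [Algebra R F0] [IsFractionRing R F0] [Algebra F0 E0]
    [IsScalarTower R F0 E0] [FiniteDimensional F0 E0] (hfin : Module.finrank F0 E0 = p) :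
    IsFractionRing (Embed.Rstar (isIntegral' D hθ) hc) E0 :=
  Embed.isFractionRing_Rstar F0 (isIntegral' D hθ) hc (by rw [hfin, natDegree_eq' D hpm hθ])

/-- thickness one persists. -/
theorem mul_eq' (D : ASDatum R p σ θ ζ) (hθ : algebraMap E0 E θ₀' = -∑ d, θ d) {u u' : R}
    (ψ : Rˣ) (hψ : u * u' = (p : R) * ψ) (hc : (minpoly R θ₀').eval c ∈ maximalIdeal R) :
    ∃ ψ' : (Embed.Rstar (isIntegral' D hθ) hc)ˣ,
      Embed.inclStar (isIntegral' D hθ) hc u * Embed.inclStar (isIntegral' D hθ) hc u' =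
        (p : Embed.Rstar (isIntegral' D hθ) hc) * ψ' := by
  refine ⟨Units.map (Embed.inclStar (isIntegral' D hθ) hc : R →* _) ψ, ?_⟩
  rw [← map_mul, hψ, map_mul, map_natCast]
  rfl

/-- **(n4)\***: a prime of `R*_c` not associated to `u`, `u'` does not divide `p`. -/
theorem not_dvd_natCast' (D : ASDatum R p σ θ ζ) (hpm : (p : R) ∈ maximalIdeal R)
    (hθ : algebraMap E0 E θ₀' = -∑ d, θ d) {u u' : R} (h : IsNode u u')
    (ψ : Rˣ) (hψ : u * u' = (p : R) * ψ) (hc : (minpoly R θ₀').eval c ∈ maximalIdeal R)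
    {π : Embed.Rstar (isIntegral' D hθ) hc} (hπ : Prime π)
    (h1 : ¬ Associated π (Embed.inclStar (isIntegral' D hθ) hc u))
    (h2 : ¬ Associated π (Embed.inclStar (isIntegral' D hθ) hc u')) :
    ¬ π ∣ (p : Embed.Rstar (isIntegral' D hθ) hc) := by
  intro hd
  obtain ⟨ψ', hψ'⟩ := mul_eq' D hθ ψ hψ hc
  have hN := isNode' D hpm hθ h hc
  have h3 : π ∣ Embed.inclStar (isIntegral' D hθ) hc u * Embed.inclStar (isIntegral' D hθ) hc u' := by
    rw [hψ']; exact Dvd.dvd.mul_right hd _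
  rcases hπ.dvd_or_dvd h3 with h4 | h4
  · exact h1 (hπ.irreducible.associated_of_dvd hN.prime_z.irreducible h4)
  · exact h2 (hπ.irreducible.associated_of_dvd hN.prime_z'.irreducible h4)

/-- contraction of the powers of `u`: `u^n R* ∩ R = u^n R`. -/
theorem contraction' (D : ASDatum R p σ θ ζ) (hθ : algebraMap E0 E θ₀' = -∑ d, θ d)
    (hc : (minpoly R θ₀').eval c ∈ maximalIdeal R) (u : R) (n : ℕ) (r : R)
    (hd : Embed.inclStar (isIntegral' D hθ) hc u ^ n ∣ Embed.inclStar (isIntegral' D hθ) hc r) :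
    u ^ n ∣ r := by
  have h1 := Embed.comap_map_inclStar (isIntegral' D hθ) hc (Ideal.span {u ^ n})
  rw [← Ideal.mem_span_singleton, ← h1, Ideal.mem_comap, Ideal.map_span, Set.image_singleton,
    Ideal.mem_span_singleton, map_pow]
  exact hd

/-- **the `u`-adic order function of `R*_c` on `E0`**, in the binder shapes of
`Asm.node_slope_eq` (`hwinf`, `hinf_u`, `hinf_0`) and `Asm.c3_core_pair` (`hWinf`, `hvinf`).
Apply it to `h.symm` and `(Ozero, vzero)` for the other branch. -/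
theorem ord_package' (D : ASDatum R p σ θ ζ) (hpm : (p : R) ∈ maximalIdeal R)
    (hθ : algebraMap E0 E θ₀' = -∑ d, θ d) {u u' : R} (h : IsNode u u')
    (hc : (minpoly R θ₀').eval c ∈ maximalIdeal R)
    (F0 : Type*) [Field F0] [Algebra R F0] [IsFractionRing R F0] [Algebra F0 E0]
    [IsScalarTower R F0 E0] [FiniteDimensional F0 E0] (hfin : Module.finrank F0 E0 = p)
    {O : ValuationSubring F0} {v : F0 → ℤ} (hv : IsOrd O v) (hvu : v (algebraMap R F0 u) = 1)
    (hv0 : ∀ r : R, ¬ u ∣ r → v (algebraMap R F0 r) = 0) :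
    ∃ (W : ValuationSubring E0) (w : E0 → ℤ), IsOrd W w ∧
      w (algebraMap (Embed.Rstar (isIntegral' D hθ) hc) E0
        (Embed.inclStar (isIntegral' D hθ) hc u)) = 1 ∧
      (∀ s : Embed.Rstar (isIntegral' D hθ) hc, ¬ Embed.inclStar (isIntegral' D hθ) hc u ∣ s →
        w (algebraMap (Embed.Rstar (isIntegral' D hθ) hc) E0 s) = 0) ∧
      (∀ e : F0, algebraMap F0 E0 e ∈ W ↔ e ∈ O) ∧
      (∀ e : F0, e ≠ 0 → w (algebraMap F0 E0 e) = v e) := by
  set S := Embed.Rstar (isIntegral' D hθ) hc with hS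
  haveI : UniqueFactorizationMonoid S := ufm' D hpm hθ h hc
  haveI : IsFractionRing S E0 := isFractionRing' D hpm hθ hc F0 hfin
  letI : Algebra R S := (Embed.inclStar (isIntegral' D hθ) hc).toAlgebra
  haveI : IsScalarTower R S E0 := IsScalarTower.of_algebraMap_eq (fun r =>
    (Embed.coe_inclStar (isIntegral' D hθ) hc r).symm)
  have hu : Prime u := h.prime_z
  have hu' : Prime (algebraMap R S u) := (isNode' D hpm hθ h hc).prime_z
  have hcontr : ∀ (n : ℕ) (r : R), algebraMap R S u ^ n ∣ algebraMap R S r → u ^ n ∣ r :=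
    fun n r hd => contraction' D hθ hc u n r hd
  obtain ⟨h1, h2, h3, h4, h5⟩ :=
    primeOrd_lift_package (K := F0) (L := E0) hu hu' hcontr hv hvu hv0
  exact ⟨primeValuationSubring (K := E0) hu', primeOrd (algebraMap R S u), h1, h2, h3, h4, h5⟩

/-- every valuation subring of `E0` containing `R` contains one of the node rings `R*_c`. -/
theorem exists_le' [IsAlgClosed (ResidueField R)] (D : ASDatum R p σ θ ζ)
    (hθ : algebraMap E0 E θ₀' = -∑ d, θ d) (W : ValuationSubring E0)
    (hW : ∀ r, algebraMap R E0 r ∈ W) :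
    ∃ (c : R) (hc : (minpoly R θ₀').eval c ∈ maximalIdeal R),
      Embed.Rstar (isIntegral' D hθ) hc ≤ W.toSubring :=
  Embed.exists_Rstar_le (isIntegral' D hθ) W hW

end ET

end Fermat.Agent.S40x.NodeRing
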