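/-
S40x / NodeRing / AsmPlug  (helper4)   **plug of row [ET] into `Asm.node_slope_eq`.**

`node_slope_eq_Rstar`: in the setting of `NodeRing/Bundle` (node ring `R = R_s` with fraction field
`F0`, `[E0 : F0] = p`, the `ASDatum` in a bigger field `E`, a root `c` of `minpoly R θ₀'` mod `m_R`,
`S := Embed.Rstar _ hc ⊆ E0`), given downstairs order functions `(Oinf, vinf)`, `(Ozero, vzero)` of
`F0` which are `u`-adic resp. `u'`-adic on `R`, the hypothesis `H` of C3-CFE and the slope rule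
`hsl` of C3-SLOPE for `S`, we get valuation subrings / order functions `(Winf, winf)`,
`(Wzero, wzero)` of `E0` with ALL the per-node hypotheses of `Asm.c3_core_pair`
(`hWinf hWzero hwinf hwzero hvinf hvzero hn`).
-/
import Mathlib
import Fermat.Agent.S40x.NodeRing.Bundle
import Fermat.Agent.S40x.R2.Asm.Core

set_option linter.style.haveILetI false
set_option linter.unusedSectionVars false

namespace Fermat.Agent.S40x.NodeRing

open IsLocalRing Ideal Polynomial Fermat.Agent.S40x.R2.Transitive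

namespace ET

variable {R E0 E : Type*} [CommRing R] [IsDomain R] [IsLocalRing R] [IsNoetherianRing R]
  [IsIntegrallyClosed R] [Field E0] [Algebra R E0] [FaithfulSMul R E0] [Field E] [Algebra R E]
  [Algebra E0 E] [IsScalarTower R E0 E] {p : ℕ} [hp : Fact p.Prime]
  {σ : E →ₐ[R] E} {ι : Type*} [Fintype ι] {θ ζ : ι → E} {θ₀' : E0} {c : R}

theorem node_slope_eq_Rstar (D : ASDatum R p σ θ ζ) (hpm : (p : R) ∈ maximalIdeal R)
    (hθ : algebraMap E0 E θ₀' = -∑ d, θ d) {u u' : R} (h : IsNode u u')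
    (hc : (minpoly R θ₀').eval c ∈ maximalIdeal R)
    (F0 : Type*) [Field F0] [Algebra R F0] [IsFractionRing R F0] [Algebra F0 E0]
    [IsScalarTower R F0 E0] [FiniteDimensional F0 E0] (hfin : Module.finrank F0 E0 = p)
    {Oinf Ozero : ValuationSubring F0} {vinf vzero : F0 → ℤ}
    (hvinf : IsOrd Oinf vinf) (hvinf_u : vinf (algebraMap R F0 u) = 1)
    (hvinf_0 : ∀ r : R, ¬ u ∣ r → vinf (algebraMap R F0 r) = 0)
    (hvzero : IsOrd Ozero vzero) (hvzero_u' : vzero (algebraMap R F0 u') = 1)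
    (hvzero_0 : ∀ r : R, ¬ u' ∣ r → vzero (algebraMap R F0 r) = 0)
    {ft : E0} (hft : ft ≠ 0)
    (H : ∀ π : Embed.Rstar (isIntegral' D hθ) hc, Prime π →
      ¬ Associated π (Embed.inclStar (isIntegral' D hθ) hc u) →
      ¬ Associated π (Embed.inclStar (isIntegral' D hθ) hc u') →
      ∀ f1 f2 : Embed.Rstar (isIntegral' D hθ) hc, f2 ≠ 0 →
        ft * algebraMap (Embed.Rstar (isIntegral' D hθ) hc) E0 f2 =
          algebraMap (Embed.Rstar (isIntegral' D hθ) hc) E0 f1 →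
      ∀ n1 n2 : ℕ, π ^ n1 ∣ f1 → ¬ π ^ (n1 + 1) ∣ f1 → π ^ n2 ∣ f2 → ¬ π ^ (n2 + 1) ∣ f2 →
        (p : ℤ) ∣ (n1 : ℤ) - n2)
    (n : ZMod p)
    (hsl : ∀ (A B : ℤ) (ε : (Embed.Rstar (isIntegral' D hθ) hc)ˣ)
      (g1 g2 : Embed.Rstar (isIntegral' D hθ) hc),
      ¬ Embed.inclStar (isIntegral' D hθ) hc u ∣ g1 →
      ¬ Embed.inclStar (isIntegral' D hθ) hc u' ∣ g1 →
      ¬ Embed.inclStar (isIntegral' D hθ) hc u ∣ g2 →
      ¬ Embed.inclStar (isIntegral' D hθ) hc u' ∣ g2 →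
      ft = algebraMap (Embed.Rstar (isIntegral' D hθ) hc) E0 ε *
          algebraMap (Embed.Rstar (isIntegral' D hθ) hc) E0
            (Embed.inclStar (isIntegral' D hθ) hc u) ^ A *
          algebraMap (Embed.Rstar (isIntegral' D hθ) hc) E0
            (Embed.inclStar (isIntegral' D hθ) hc u') ^ B *
          (algebraMap (Embed.Rstar (isIntegral' D hθ) hc) E0 g1 /
            algebraMap (Embed.Rstar (isIntegral' D hθ) hc) E0 g2) ^ p →
      n = ((B - A : ℤ) : ZMod p)) :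
    ∃ (Winf Wzero : ValuationSubring E0) (winf wzero : E0 → ℤ),
      (∀ e : F0, algebraMap F0 E0 e ∈ Winf ↔ e ∈ Oinf) ∧
      (∀ e : F0, algebraMap F0 E0 e ∈ Wzero ↔ e ∈ Ozero) ∧
      IsOrd Winf winf ∧ IsOrd Wzero wzero ∧
      (∀ e : F0, e ≠ 0 → winf (algebraMap F0 E0 e) = vinf e) ∧
      (∀ e : F0, e ≠ 0 → wzero (algebraMap F0 E0 e) = vzero e) ∧
      n = ((wzero ft - winf ft : ℤ) : ZMod p) := by
  obtain ⟨Winf, winf, hwinf, hinf_u, hinf_0, hWinf, hvinf'⟩ :=
    ord_package' D hpm hθ h hc F0 hfin hvinf hvinf_u hvinf_0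
  obtain ⟨Wzero, wzero, hwzero, hzero_u', hzero_0, hWzero, hvzero'⟩ :=
    ord_package' D hpm hθ h.symm hc F0 hfin hvzero hvzero_u' hvzero_0
  haveI : UniqueFactorizationMonoid (Embed.Rstar (isIntegral' D hθ) hc) := ufm' D hpm hθ h hc
  haveI : IsFractionRing (Embed.Rstar (isIntegral' D hθ) hc) E0 :=
    isFractionRing' D hpm hθ hc F0 hfin
  have hN := isNode' D hpm hθ h hc
  refine ⟨Winf, Wzero, winf, wzero, hWinf, hWzero, hwinf, hwzero, hvinf', hvzero', ?_⟩
  exact Fermat.Agent.S40x.R2.Asm.node_slope_eq hp.out.ne_zero hN.prime_z hN.prime_z' hwinf hwzero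
    hinf_u hinf_0 hzero_u' hzero_0 hN.not_dvd hN.not_dvd' hft H n hsl

end ET

end Fermat.Agent.S40x.NodeRing
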