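/-
S40x / NodeRing / Smooth  (helper4)   **the smooth-point case of row [ET]**.

* `IsNode.of_regPair`: a Noetherian local domain with `m = (z, t)`, `z` prime, `z ∤ t` (i.e.
  `R ⧸ (z)` is a discrete valuation ring with uniformiser `t`: helper50's `IsSmoothPtRing` with
  `z = p`, helper38's `IsRegPair`) is a node ring in the sense of `NodeRing/Basic`: `t` is
  automatically PRIME (`(z, t)` is a regular sequence, hence so is `(t, z)`; Krull).
  So the whole of `NodeRing/*` applies verbatim to smooth-point rings with `u := p`, `u' := t`.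
* `ET.smooth_slope_eq_Rstar`: plug into `Asm.smooth_slope_eq_zero` for `S := Embed.Rstar _ hc`.
-/
import Mathlib
import Fermat.Agent.S40x.NodeRing.AsmPlug

set_option linter.style.haveILetI false
set_option linter.unusedSectionVars false

namespace Fermat.Agent.S40x.NodeRing

open IsLocalRing Ideal Polynomial Fermat.Agent.S40x.R2.Transitive

/-- a regular pair `(z, t)` (`m = (z, t)`, `z` prime, `z ∤ t`) is a node pair: `t` is prime. -/
theorem IsNode.of_regPair {R : Type*} [CommRing R] [IsDomain R] [IsLocalRing R]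
    [IsNoetherianRing R] {z t : R} (hmax : maximalIdeal R = Ideal.span {z, t}) (hz : Prime z)
    (hzt : ¬ z ∣ t) : IsNode z t where
  max_eq := hmax
  prime_z := hz
  not_dvd := hzt
  prime_z' := by
    set I : Ideal R := Ideal.span {t} with hI
    have htm : t ∈ maximalIdeal R := by
      rw [hmax]; exact Ideal.subset_span (by simp)
    have hzm : z ∈ maximalIdeal R := by
      rw [hmax]; exact Ideal.subset_span (by simp)
    have hIle : I ≤ maximalIdeal R := (Ideal.span_singleton_le_iff_mem _).mpr htm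
    have hItop : I ≠ ⊤ := fun e =>
      (maximalIdeal.isMaximal R).ne_top (top_le_iff.mp (e ▸ hIle))
    haveI : Nontrivial (R ⧸ I) := Ideal.Quotient.nontrivial_iff.mpr hItop
    haveI : IsLocalRing (R ⧸ I) :=
      IsLocalRing.of_surjective' (Ideal.Quotient.mk I) Ideal.Quotient.mk_surjective
    set zb : R ⧸ I := Ideal.Quotient.mk I z with hzb
    have hmaxq : maximalIdeal (R ⧸ I) = Ideal.span {zb} := by
      apply le_antisymm
      · intro a ha
        obtain ⟨x, rfl⟩ := Ideal.Quotient.mk_surjective a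
        have hx : x ∈ maximalIdeal R := by
          by_contra hx
          exact ((mem_maximalIdeal _).mp ha) ((IsLocalRing.notMem_maximalIdeal.mp hx).map _)
        rw [hmax, Ideal.mem_span_pair] at hx
        obtain ⟨a, b, rfl⟩ := hx
        rw [Ideal.mem_span_singleton]
        refine ⟨Ideal.Quotient.mk I a, ?_⟩
        have ht0 : Ideal.Quotient.mk I t = 0 :=
          Ideal.Quotient.eq_zero_iff_mem.mpr (Ideal.mem_span_singleton_self _)
        simp only [map_add, map_mul, ht0, mul_zero, add_zero, hzb]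
        ring
      · rw [Ideal.span_singleton_le_iff_mem, mem_maximalIdeal, mem_nonunits_iff]
        intro hu
        obtain ⟨b, hb⟩ := hu.exists_right_inv
        obtain ⟨s, rfl⟩ := Ideal.Quotient.mk_surjective b
        have h3 : z * s - 1 ∈ I := by
          rw [← Ideal.Quotient.eq, map_mul, map_one]; exact hb
        have h4 : z * s - 1 ∈ maximalIdeal R := hIle h3
        have h5 : (1 : R) ∈ maximalIdeal R := by
          have := (maximalIdeal R).sub_mem ((maximalIdeal R).mul_mem_right s hzm) h4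
          rwa [sub_sub_cancel] at this
        exact (maximalIdeal.isMaximal R).ne_top ((Ideal.eq_top_iff_one _).mpr h5)
    have hreg : ∀ b : R ⧸ I, zb * b = 0 → b = 0 := by
      intro b hb
      obtain ⟨x, rfl⟩ := Ideal.Quotient.mk_surjective b
      rw [hzb, ← map_mul, Ideal.Quotient.eq_zero_iff_mem, hI, Ideal.mem_span_singleton] at hb
      obtain ⟨y, hy⟩ := hb
      have h1 : z ∣ y := (hz.dvd_or_dvd ⟨x, hy.symm⟩).resolve_left hzt
      obtain ⟨y', rfl⟩ := h1
      have h2 : x = t * y' := mul_left_cancel₀ hz.ne_zero (by rw [hy]; ring)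
      rw [Ideal.Quotient.eq_zero_iff_mem, hI, Ideal.mem_span_singleton]
      exact ⟨y', h2⟩
    haveI hdom : IsDomain (R ⧸ I) := isDomain_of_maximalIdeal_eq_span_of_regular hmaxq hreg
    have hprime : I.IsPrime := (Ideal.Quotient.isDomain_iff_prime I).mp hdom
    have ht0 : t ≠ 0 := by rintro rfl; exact hzt (dvd_zero z)
    exact (Ideal.span_singleton_prime ht0).mp hprime

namespace ET

variable {R E0 E : Type*} [CommRing R] [IsDomain R] [IsLocalRing R] [IsNoetherianRing R]
  [IsIntegrallyClosed R] [Field E0] [Algebra R E0] [FaithfulSMul R E0] [Field E] [Algebra R E]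
  [Algebra E0 E] [IsScalarTower R E0 E] {p : ℕ} [hp : Fact p.Prime]
  {σ : E →ₐ[R] E} {ι : Type*} [Fintype ι] {θ ζ : ι → E} {θ₀' : E0} {c : R}

/-- the étale lift of a smooth-point ring: `p` stays prime in `R*_c`. -/
theorem prime_natCast_Rstar (D : ASDatum R p σ θ ζ)
    (hθ : algebraMap E0 E θ₀' = -∑ d, θ d) {t : R}
    (hmax : maximalIdeal R = Ideal.span {(p : R), t}) (hpp : Prime (p : R)) (hpt : ¬ (p : R) ∣ t)
    (hc : (minpoly R θ₀').eval c ∈ maximalIdeal R) :
    Prime ((p : ℕ) : Embed.Rstar (isIntegral' D hθ) hc) := by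
  have hpm : (p : R) ∈ maximalIdeal R := by
    rw [hmax]; exact Ideal.subset_span (by simp)
  have h := (isNode' D hpm hθ (IsNode.of_regPair hmax hpp hpt) hc).prime_z
  rwa [map_natCast] at h

/-- **plug into `Asm.smooth_slope_eq_zero`** for the étale lift `S = R*_c` of a smooth-point ring
(`m_R = (p, t)`, `p` prime, `p ∤ t`). -/
theorem smooth_slope_eq_Rstar (D : ASDatum R p σ θ ζ)
    (hθ : algebraMap E0 E θ₀' = -∑ d, θ d) {t : R}
    (hmax : maximalIdeal R = Ideal.span {(p : R), t}) (hpp : Prime (p : R)) (hpt : ¬ (p : R) ∣ t)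
    (hc : (minpoly R θ₀').eval c ∈ maximalIdeal R)
    (F0 : Type*) [Field F0] [Algebra R F0] [IsFractionRing R F0] [Algebra F0 E0]
    [IsScalarTower R F0 E0] [FiniteDimensional F0 E0] (hfin : Module.finrank F0 E0 = p)
    {ft : E0} (hft : ft ≠ 0)
    (H : ∀ π : Embed.Rstar (isIntegral' D hθ) hc, Prime π →
      ¬ Associated π ((p : ℕ) : Embed.Rstar (isIntegral' D hθ) hc) →
      ∀ f1 f2 : Embed.Rstar (isIntegral' D hθ) hc, f2 ≠ 0 →
        ft * algebraMap (Embed.Rstar (isIntegral' D hθ) hc) E0 f2 =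
          algebraMap (Embed.Rstar (isIntegral' D hθ) hc) E0 f1 →
      ∀ n1 n2 : ℕ, π ^ n1 ∣ f1 → ¬ π ^ (n1 + 1) ∣ f1 → π ^ n2 ∣ f2 → ¬ π ^ (n2 + 1) ∣ f2 →
        (p : ℤ) ∣ (n1 : ℤ) - n2)
    (n : ZMod p)
    (hsl : ∀ (A : ℤ) (ε : (Embed.Rstar (isIntegral' D hθ) hc)ˣ)
      (g1 g2 : Embed.Rstar (isIntegral' D hθ) hc),
      ¬ ((p : ℕ) : Embed.Rstar (isIntegral' D hθ) hc) ∣ g1 →
      ¬ ((p : ℕ) : Embed.Rstar (isIntegral' D hθ) hc) ∣ g2 →
      ft = algebraMap (Embed.Rstar (isIntegral' D hθ) hc) E0 ε *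
          algebraMap (Embed.Rstar (isIntegral' D hθ) hc) E0
            ((p : ℕ) : Embed.Rstar (isIntegral' D hθ) hc) ^ A *
          (algebraMap (Embed.Rstar (isIntegral' D hθ) hc) E0 g1 /
            algebraMap (Embed.Rstar (isIntegral' D hθ) hc) E0 g2) ^ p →
      n = 0) :
    n = 0 := by
  have hpm : (p : R) ∈ maximalIdeal R := by
    rw [hmax]; exact Ideal.subset_span (by simp)
  have hnode := IsNode.of_regPair hmax hpp hpt
  haveI : UniqueFactorizationMonoid (Embed.Rstar (isIntegral' D hθ) hc) :=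
    ufm' D hpm hθ hnode hc
  haveI : IsFractionRing (Embed.Rstar (isIntegral' D hθ) hc) E0 :=
    isFractionRing' D hpm hθ hc F0 hfin
  exact Fermat.Agent.S40x.R2.Asm.smooth_slope_eq_zero hp.out.ne_zero
    (prime_natCast_Rstar D hθ hmax hpp hpt hc) hft H n hsl

end ET

end Fermat.Agent.S40x.NodeRing
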