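/-
S40x / NodeRing / NodeOverPlug  (helper4)   **the upstairs literals of block R1 for `R*_c`.**

In the setting of `NodeRing/Bundle` (`R` a node ring or smooth-point ring, `F0 = Frac R`,
`E0 ⊇ F0` of degree `p`, the `ASDatum` in `E ⊇ E0`, `S := Embed.Rstar _ hc ⊆ E0`):

* `ET.isNodeRing_Rstar` : helper50's `IsNodeRing S p (incl u) (incl u')` from `IsNodeRing R p u u'`;
* `ET.isSmoothPtRing_Rstar` : `IsSmoothPtRing S p (incl t)` from `IsSmoothPtRing R p t`;
* `ET.nodeOver_Rstar` : helper62's `AsmNode.NodeOver F0 E0 (inclStar _ hc) p u u' Oinf Ozero`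
  (item (A) of `S44-IFACE-C3-ASM v2`: the upstairs half `R', i, prime_iu, compat, contr`).
-/
import Mathlib
import Fermat.Agent.S40x.NodeRing.Smooth
import Fermat.Agent.S40x.Node.NodeDatum
import Fermat.Agent.S40x.EdgeB.AsmNodeEt

set_option linter.style.haveILetI false
set_option linter.unusedSectionVars false
set_option autoImplicit false

namespace Fermat.Agent.S40x.NodeRing

open IsLocalRing Ideal Polynomial Fermat.Agent.S40x.Node Fermat.Agent.S40x.AsmNode

/-- helper50's literal implies the `NodeRing/Basic` one. -/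
theorem IsNode.of_isNodeRing {R : Type*} [CommRing R] [IsDomain R] [IsNoetherianRing R]
    [IsLocalRing R] {p : ℕ} {u u' : R} (h : IsNodeRing R p u u') : IsNode u u' where
  max_eq := h.maximalIdeal_eq
  prime_z := h.prime_u
  prime_z' := h.prime_u'
  not_dvd := h.not_dvd

namespace ET

variable {R E0 E : Type*} [CommRing R] [IsDomain R] [IsLocalRing R] [IsNoetherianRing R]
  [IsIntegrallyClosed R] [Field E0] [Algebra R E0] [FaithfulSMul R E0] [Field E] [Algebra R E]
  [Algebra E0 E] [IsScalarTower R E0 E] {p : ℕ} [hp : Fact p.Prime]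
  {σ : E →ₐ[R] E} {ι : Type*} [Fintype ι] {θ ζ : ι → E} {θ₀' : E0} {c : R}

/-- **the étale lift of a node ring satisfies helper50's literal `IsNodeRing`.** -/
theorem isNodeRing_Rstar (D : ASDatum R p σ θ ζ) (hθ : algebraMap E0 E θ₀' = -∑ d, θ d)
    {u u' : R} (hN : IsNodeRing R p u u') (hc : (minpoly R θ₀').eval c ∈ maximalIdeal R) :
    IsNodeRing (Embed.Rstar (isIntegral' D hθ) hc) p (Embed.inclStar (isIntegral' D hθ) hc u)
      (Embed.inclStar (isIntegral' D hθ) hc u') := by
  have hpm : (p : R) ∈ maximalIdeal R := hN.natCast_mem_maximalIdeal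
  have h := isNode' D hpm hθ (IsNode.of_isNodeRing hN) hc
  obtain ⟨ψ, hψ⟩ := hN.mul_eq
  exact
    { mul_eq := mul_eq' D hθ ψ hψ hc
      maximalIdeal_eq := h.max_eq
      prime_u := h.prime_z
      prime_u' := h.prime_z'
      not_associated := h.not_associated }

/-- **the étale lift of a smooth-point ring satisfies `IsSmoothPtRing`.** -/
theorem isSmoothPtRing_Rstar (D : ASDatum R p σ θ ζ) (hθ : algebraMap E0 E θ₀' = -∑ d, θ d)
    {t : R} (hS : IsSmoothPtRing R p t) (hc : (minpoly R θ₀').eval c ∈ maximalIdeal R) :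
    IsSmoothPtRing (Embed.Rstar (isIntegral' D hθ) hc) p
      (Embed.inclStar (isIntegral' D hθ) hc t) := by
  have hpm : (p : R) ∈ maximalIdeal R := hS.natCast_mem_maximalIdeal
  have h := isNode' D hpm hθ (IsNode.of_regPair hS.maximalIdeal_eq hS.prime_p hS.not_dvd) hc
  have e : Embed.inclStar (isIntegral' D hθ) hc ((p : ℕ) : R) =
      ((p : ℕ) : Embed.Rstar (isIntegral' D hθ) hc) := map_natCast _ p
  exact
    { maximalIdeal_eq := by rw [← e]; exact h.max_eq
      prime_p := by rw [← e]; exact h.prime_z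
      not_dvd := by rw [← e]; exact h.not_dvd }

/-- **`NodeOver` for `R' := R*_c`, `i := inclStar`.** -/
theorem nodeOver_Rstar (D : ASDatum R p σ θ ζ) (hθ : algebraMap E0 E θ₀' = -∑ d, θ d)
    {u u' : R} (hN : IsNodeRing R p u u') (hc : (minpoly R θ₀').eval c ∈ maximalIdeal R)
    (F0 : Type*) [Field F0] [Algebra R F0] [IsFractionRing R F0] [Algebra F0 E0]
    [IsScalarTower R F0 E0] [FiniteDimensional F0 E0] (hfin : Module.finrank F0 E0 = p)
    (Oinf Ozero : ValuationSubring F0)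
    (hInf_mem : ∀ x : R, algebraMap R F0 x ∈ Oinf)
    (hInf_unit : ∀ x : R, ¬ u ∣ x → (algebraMap R F0 x)⁻¹ ∈ Oinf)
    (hInf_p : (((p : ℕ) : F0))⁻¹ ∉ Oinf)
    (hZero_mem : ∀ x : R, algebraMap R F0 x ∈ Ozero)
    (hZero_unit : ∀ x : R, ¬ u' ∣ x → (algebraMap R F0 x)⁻¹ ∈ Ozero)
    (hZero_p : (((p : ℕ) : F0))⁻¹ ∉ Ozero) :
    haveI : UniqueFactorizationMonoid R := (IsNode.of_isNodeRing hN).ufd
    haveI : UniqueFactorizationMonoid (Embed.Rstar (isIntegral' D hθ) hc) :=
      ufm' D hN.natCast_mem_maximalIdeal hθ (IsNode.of_isNodeRing hN) hc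
    haveI : IsFractionRing (Embed.Rstar (isIntegral' D hθ) hc) E0 :=
      isFractionRing' D hN.natCast_mem_maximalIdeal hθ hc F0 hfin
    NodeOver F0 E0 (Embed.inclStar (isIntegral' D hθ) hc) p u u' Oinf Ozero := by
  haveI : UniqueFactorizationMonoid R := (IsNode.of_isNodeRing hN).ufd
  haveI : UniqueFactorizationMonoid (Embed.Rstar (isIntegral' D hθ) hc) :=
    ufm' D hN.natCast_mem_maximalIdeal hθ (IsNode.of_isNodeRing hN) hc
  haveI : IsFractionRing (Embed.Rstar (isIntegral' D hθ) hc) E0 :=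
    isFractionRing' D hN.natCast_mem_maximalIdeal hθ hc F0 hfin
  refine Fermat.Agent.S40x.AsmNodeEt.nodeOver_of_isNodeRing hN (isNodeRing_Rstar D hθ hN hc)
    (fun x => ?_) (fun z n x hd => contraction' D hθ hc z n x hd) Oinf Ozero hInf_mem hInf_unit
    hInf_p hZero_mem hZero_unit hZero_p
  have h1 : algebraMap (Embed.Rstar (isIntegral' D hθ) hc) E0
      (Embed.inclStar (isIntegral' D hθ) hc x) = algebraMap R E0 x :=
    Embed.coe_inclStar (isIntegral' D hθ) hc x
  rw [h1, ← IsScalarTower.algebraMap_apply]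

end ET

end Fermat.Agent.S40x.NodeRing
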