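/-
S40x / NodeRing / MkDatum  (helper4; Mathlib + NodeRing/Main)

Constructor of `ASDatum` discharging the degree bound `natDegree_le` from
`θ₀ ∈ E0`, `[E0 : F0] = p`, `F0 = Frac R`, `R` integrally closed:
`ASDatum.of_finrank`.
-/
import Mathlib
import Fermat.Agent.S40x.NodeRing.Main

set_option linter.style.haveILetI false
set_option linter.unusedSectionVars false

namespace Fermat.Agent.S40x.NodeRing

open IsLocalRing Polynomial

namespace ASDatum

variable {R E0 E : Type*} [CommRing R] [IsDomain R] [IsIntegrallyClosed R]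
  [Field E0] [Algebra R E0] [Field E] [Algebra R E]
  [Algebra E0 E] [IsScalarTower R E0 E]

/-- the degree of an integral element of `E0` over `R` is at most `[E0 : Frac R]`. -/
theorem natDegree_minpoly_le_finrank (F0 : Type*) [Field F0] [Algebra R F0] [IsFractionRing R F0]
    [Algebra F0 E0] [IsScalarTower R F0 E0] [FiniteDimensional F0 E0] {x : E0}
    (hx : IsIntegral R x) : (minpoly R x).natDegree ≤ Module.finrank F0 E0 := by
  have h1 : minpoly F0 x = (minpoly R x).map (algebraMap R F0) :=
    minpoly.isIntegrallyClosed_eq_field_fractions' F0 hx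
  have h2 : (minpoly F0 x).natDegree ≤ Module.finrank F0 E0 := minpoly.natDegree_le x
  rwa [h1, (minpoly.monic hx).natDegree_map] at h2

/-- **constructor**: the degree bound follows from `θ₀ ∈ E0` and `[E0 : F0] = p`. -/
theorem of_finrank (F0 : Type*) [Field F0] [Algebra R F0] [IsFractionRing R F0]
    [Algebra F0 E0] [IsScalarTower R F0 E0] [FiniteDimensional F0 E0] {p : ℕ}
    (hfin : Module.finrank F0 E0 = p) {σ : E →ₐ[R] E} {ι : Type*} [Fintype ι] {θ ζ : ι → E}
    (card : Fintype.card ι + 1 = p) (integral : ∀ d, IsIntegral R (θ d))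
    (zeta_pow : ∀ d, ζ d ^ p = 1) (sigma_zeta : ∀ d, σ (ζ d) = ζ d)
    (sigma_theta : ∀ d, σ (θ d) = ζ d * θ d + 1) {θ₀' : E0}
    (hθ : algebraMap E0 E θ₀' = -∑ d, θ d) : ASDatum R p σ θ ζ where
  card := card
  integral := integral
  zeta_pow := zeta_pow
  sigma_zeta := sigma_zeta
  sigma_theta := sigma_theta
  natDegree_le := by
    have h0 : IsIntegral R (-∑ d, θ d) := (IsIntegral.sum _ fun d _ => integral d).neg
    have h1 : IsIntegral R θ₀' := by
      rw [← hθ] at h0
      exact (isIntegral_algebraMap_iff (algebraMap E0 E).injective).mp h0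
    have h2 : minpoly R (-∑ d, θ d) = minpoly R θ₀' := by
      rw [← hθ]
      exact minpoly.algebraMap_eq (algebraMap E0 E).injective θ₀'
    rw [h2, ← hfin]
    exact natDegree_minpoly_le_finrank F0 h1

end ASDatum

end Fermat.Agent.S40x.NodeRing
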