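/-
S40x / NodeRing / CoverSeam  (helper4)   **item (A) AS→ET of `S44-IFACE-C3-ASM v2`, generic cover.**

The glue between helper2's `R2/NodeCover/ASDatumInst` (the Artin–Schreier datum on the Kummer cover
field `E := D.coverField`) and the `ET.*` composites of `NodeRing/{Bundle,NodeOverPlug}`, in
helper48's vocabulary `F0 := D.F0 ρ hρ`, `E0 := D.E0 ρ hρ` (`R2/Cover/{FixedGalois,BaseIso}`).

`R` is ANY ring with `[Algebra R ↥(D.F0 ρ hρ)]` (the node ring `R_s`, `Frac R_s = F0`).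

* `toE0`, `toE`, `toF` : the composite ring homs `R → E0`, `R → E`, `R → F`;
  `algE0`, `algE0E`, `algE`, `algF` : the corresponding `Algebra` structures (reducible defs, NOT
  instances), `tower_F0_E0`, `tower_E0_E`, `tower_F_E`, `faithful_E0`, `coeffMap_toF` (`hRfix`);
* `exists_nodeOver_of_datum` / `exists_smoothOver_of_datum` : INSTANCE-FREE output from ANY
  `ASDatum R p (sigmaR D) θ ζ` on the cover field with `θ₀' : E0`, `E0.val θ₀' = -∑ θ d` (the
  ∞-chart datum below or the 0-chart twin): for every valuation subring `W` of `E` containing the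
  image of `R` with `p` a non-unit, a subring `R' ⊆ E0` (the étale lift `R*_c`), local, Noetherian,
  UFD, `Frac R' = E0`, `R' ⊆ W`, `θ₀' ∈ R'`, the `σ`-conjugates of `θ₀'` in `W` with unit
  differences, `IsNodeRing R' p (i u) (i u')` and `AsmNode.NodeOver F0 E0 i p u u' Oinf Ozero`
  (resp. `IsSmoothPtRing R' p (i t)` and the contraction);
* `theta0E0 : D.E0 ρ hρ` (`θ₀ = -∑ θ_q` of `ASDatumInst` as an element of `E0`), `asDatum'` : the
  `NodeRing.ASDatum` over `R` from `f0 = h ^ p (1 + (ζ - 1) ^ p Gf)`, `Gf` integral over `R`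
  (`RingHom.IsIntegralElem (toE ..)`), `exists_nodeOver`, `exists_smoothOver` : the ∞-chart
  instances of the two theorems above.
-/
import Mathlib
import Fermat.Agent.S40x.NodeRing.NodeOverPlug
import Fermat.Agent.S40x.R2.Cover.BaseIso
import Fermat.Agent.S40x.R2.NodeCover.ASDatumInst

set_option linter.style.haveILetI false
set_option linter.unusedSectionVars false
set_option autoImplicit false

noncomputable section

namespace Fermat.Agent.S40x.NodeRing.CoverSeam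

open HahnSeries ModularCurve IntermediateField AlgebraicCurve IsLocalRing
open Fermat.Agent.S40x.R2.Cover Fermat.Agent.S40x.R2.Cover.CoverDatum
open Fermat.Agent.S40x.R2.NodeCover.ASInst
open Fermat.Agent.S40x.Node Fermat.Agent.S40x.AsmNode

variable {L : Type*} [Field L]
variable {F : IntermediateField L (LaurentSeries L)} {p : ℕ} (D : CoverDatum F p)
variable {G : Type*} [Group G] (ρ : G →* RingAut L) (hρ : ∀ g, D.Stable (ρ g))
variable (R : Type*) [CommRing R] [Algebra R ↥(D.F0 ρ hρ)]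

/-! ### The composite ring homs and the algebra structures -/

/-- `R → F0 → E0`. -/
def toE0 : R →+* D.E0 ρ hρ :=
  (algebraMap ↥(D.F0 ρ hρ) (D.E0 ρ hρ)).comp (algebraMap R ↥(D.F0 ρ hρ))

/-- `R → F0 → E0 → E`. -/
def toE : R →+* D.coverField := (E0.val D ρ hρ).comp (toE0 D ρ hρ R)

/-- `R → F0 ≃ fixedBase F ρ ⊆ F`. -/
def toF : R →+* F :=
  (fixedBase F ρ).subtype.comp
    (((D.baseIso ρ hρ).symm : ↥(D.F0 ρ hρ) →+* ↥(fixedBase F ρ)).comp
      (algebraMap R ↥(D.F0 ρ hρ)))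

/-- `Algebra R E0` (composite). -/
@[reducible] def algE0 : Algebra R (D.E0 ρ hρ) := (toE0 D ρ hρ R).toAlgebra

/-- `Algebra E0 E` (the inclusion `E0.val`). -/
@[reducible] def algE0E : Algebra (D.E0 ρ hρ) D.coverField := (E0.val D ρ hρ).toAlgebra

/-- `Algebra R E` (composite). -/
@[reducible] def algE : Algebra R D.coverField := (toE D ρ hρ R).toAlgebra

/-- `Algebra R F` (through `baseIso.symm`). -/
@[reducible] def algF : Algebra R F := (toF D ρ hρ R).toAlgebra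

theorem tower_F0_E0 :
    letI := algE0 D ρ hρ R
    IsScalarTower R ↥(D.F0 ρ hρ) (D.E0 ρ hρ) :=
  letI := algE0 D ρ hρ R
  IsScalarTower.of_algebraMap_eq (fun _ => rfl)

theorem tower_E0_E :
    letI := algE0 D ρ hρ R
    letI := algE0E D ρ hρ
    letI := algE D ρ hρ R
    IsScalarTower R (D.E0 ρ hρ) D.coverField :=
  letI := algE0 D ρ hρ R
  letI := algE0E D ρ hρ
  letI := algE D ρ hρ R
  IsScalarTower.of_algebraMap_eq (fun _ => rfl)

theorem toE_eq (r : R) : toE D ρ hρ R r = algebraMap F D.coverField (toF D ρ hρ R r) := by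
  have h := D.val_baseIso ρ hρ ((D.baseIso ρ hρ).symm (algebraMap R ↥(D.F0 ρ hρ) r))
  rw [RingEquiv.apply_symm_apply] at h
  exact h

theorem tower_F_E :
    letI := algF D ρ hρ R
    letI := algE D ρ hρ R
    IsScalarTower R F D.coverField :=
  letI := algF D ρ hρ R
  letI := algE D ρ hρ R
  IsScalarTower.of_algebraMap_eq (fun r => toE_eq D ρ hρ R r)

/-- `hRfix` of `ASDatumInst`: `G` fixes the image of `R` in `F`. -/
theorem coeffMap_toF (g : G) (r : R) :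
    coeffMap ((ρ g : L ≃+* L) : L →+* L) ((toF D ρ hρ R r : F) : LaurentSeries L) =
      ((toF D ρ hρ R r : F) : LaurentSeries L) :=
  ((D.baseIso ρ hρ).symm (algebraMap R ↥(D.F0 ρ hρ) r)).2 g

theorem toE0_injective [IsDomain R] [IsFractionRing R ↥(D.F0 ρ hρ)] :
    Function.Injective (toE0 D ρ hρ R) :=
  (algebraMap ↥(D.F0 ρ hρ) (D.E0 ρ hρ)).injective.comp (IsFractionRing.injective R ↥(D.F0 ρ hρ))

theorem faithful_E0 [IsDomain R] [IsFractionRing R ↥(D.F0 ρ hρ)] :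
    letI := algE0 D ρ hρ R
    FaithfulSMul R (D.E0 ρ hρ) :=
  letI := algE0 D ρ hρ R
  (faithfulSMul_iff_algebraMap_injective R (D.E0 ρ hρ)).mpr (toE0_injective D ρ hρ R)


/-! ### From ANY Artin–Schreier datum on the cover (∞-chart or 0-chart) -/

section OfDatum

variable {ι : Type*} [Fintype ι] {θ ζ : ι → D.coverField} {θ₀' : D.E0 ρ hρ}

/-- **(A), node case, from any `ASDatum` over `R` on the cover field** (helper2's ∞-chart datum,
the 0-chart twin, ...), instance-free output.  For every valuation subring `W` of the cover field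
containing the image of the node ring `R`, with `p` a non-unit, there is a subring `R' ⊆ E0`
(the étale lift `R*_c` of `NodeRing/Embed`) inside `W` with all the upstairs data of
`AsmNode.NodeOver`, containing `θ₀'`, whose `σ`-conjugates lie in `W` and differ by units. -/
theorem exists_nodeOver_of_datum [IsDomain R] [IsLocalRing R] [IsNoetherianRing R]
    [IsFractionRing R ↥(D.F0 ρ hρ)] [IsAlgClosed (ResidueField R)]
    (hfin : Module.finrank ↥(D.F0 ρ hρ) (D.E0 ρ hρ) = p)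
    (D' : letI := algE D ρ hρ R
      letI := algF D ρ hρ R
      haveI := tower_F_E D ρ hρ R
      ASDatum R p (sigmaR D (R := R)) θ ζ)
    (hθ : E0.val D ρ hρ θ₀' = -∑ d, θ d)
    {u u' : R} (hN : IsNodeRing R p u u')
    (Oinf Ozero : ValuationSubring ↥(D.F0 ρ hρ))
    (hInf_mem : ∀ x : R, algebraMap R ↥(D.F0 ρ hρ) x ∈ Oinf)
    (hInf_unit : ∀ x : R, ¬ u ∣ x → (algebraMap R ↥(D.F0 ρ hρ) x)⁻¹ ∈ Oinf)
    (hInf_p : (((p : ℕ) : ↥(D.F0 ρ hρ)))⁻¹ ∉ Oinf)
    (hZero_mem : ∀ x : R, algebraMap R ↥(D.F0 ρ hρ) x ∈ Ozero)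
    (hZero_unit : ∀ x : R, ¬ u' ∣ x → (algebraMap R ↥(D.F0 ρ hρ) x)⁻¹ ∈ Ozero)
    (hZero_p : (((p : ℕ) : ↥(D.F0 ρ hρ)))⁻¹ ∉ Ozero)
    (W : ValuationSubring D.coverField) (hW : ∀ r : R, toE D ρ hρ R r ∈ W)
    (hpW : ((p : ℕ) : D.coverField) ∈ W.nonunits) :
    ∃ (R' : Subring (D.E0 ρ hρ)) (_ : IsLocalRing R') (_ : IsNoetherianRing R')
      (_ : UniqueFactorizationMonoid R') (_ : IsFractionRing R' (D.E0 ρ hρ)) (i : R →+* R'),
      (∀ x : R', E0.val D ρ hρ (x : D.E0 ρ hρ) ∈ W) ∧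
      (∀ r : R, ((i r : R') : D.E0 ρ hρ) = toE0 D ρ hρ R r) ∧
      θ₀' ∈ R' ∧
      (∀ k : ℕ, (⇑D.sigma)^[k] (E0.val D ρ hρ θ₀') ∈ W) ∧
      (∀ k l : ℕ, k < p → l < p → k ≠ l →
        W.valuation ((⇑D.sigma)^[k] (E0.val D ρ hρ θ₀') -
          (⇑D.sigma)^[l] (E0.val D ρ hρ θ₀')) = 1) ∧
      IsNodeRing R' p (i u) (i u') ∧
      NodeOver ↥(D.F0 ρ hρ) (D.E0 ρ hρ) i p u u' Oinf Ozero := by
  haveI : Fact p.Prime := ⟨D.prime⟩
  haveI : IsIntegrallyClosed R := (IsNode.of_isNodeRing hN).isIntegrallyClosed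
  letI := algE0 D ρ hρ R
  letI := algE0E D ρ hρ
  letI := algE D ρ hρ R
  letI := algF D ρ hρ R
  haveI := tower_F_E D ρ hρ R
  haveI := tower_F0_E0 D ρ hρ R
  haveI := tower_E0_E D ρ hρ R
  haveI := faithful_E0 D ρ hρ R
  have hθ' : algebraMap (D.E0 ρ hρ) D.coverField θ₀' = -∑ d, θ d := hθ
  -- the root
  obtain ⟨c, hc, hle⟩ := ET.exists_le' D' hθ' (W.comap (algebraMap (D.E0 ρ hρ) D.coverField))
    (fun r => hW r)
  have hNO := ET.nodeOver_Rstar D' hθ' hN hc ↥(D.F0 ρ hρ) hfin Oinf Ozero hInf_mem hInf_unit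
    hInf_p hZero_mem hZero_unit hZero_p
  refine ⟨Embed.Rstar (ET.isIntegral' D' hθ') hc, inferInstance, inferInstance,
    ET.ufm' D' hN.natCast_mem_maximalIdeal hθ' (IsNode.of_isNodeRing hN) hc,
    ET.isFractionRing' D' hN.natCast_mem_maximalIdeal hθ' hc ↥(D.F0 ρ hρ) hfin,
    Embed.inclStar (ET.isIntegral' D' hθ') hc, fun x => hle x.2,
    fun r => Embed.coe_inclStar (ET.isIntegral' D' hθ') hc r,
    Embed.theta_mem_Rstar (ET.isIntegral' D' hθ') hc, ?_, ?_,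
    ET.isNodeRing_Rstar D' hθ' hN hc, hNO⟩
  · intro k
    rw [hθ]
    exact D'.iterate_mem W hW k
  · intro k l hk hl hkl
    rw [hθ]
    exact D'.valuation_iterate_sub_iterate W hW hpW hk hl hkl

/-- **(A), smooth case, from any `ASDatum` over `R` on the cover field**, instance-free output:
the étale lift `R' ⊆ E0` of a smooth-point ring `R` is a smooth-point ring (same `t`), a UFD with
`Frac R' = E0`, inside `W`. -/
theorem exists_smoothOver_of_datum [IsDomain R] [IsLocalRing R] [IsNoetherianRing R]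
    [IsFractionRing R ↥(D.F0 ρ hρ)] [IsAlgClosed (ResidueField R)]
    (hfin : Module.finrank ↥(D.F0 ρ hρ) (D.E0 ρ hρ) = p)
    (D' : letI := algE D ρ hρ R
      letI := algF D ρ hρ R
      haveI := tower_F_E D ρ hρ R
      ASDatum R p (sigmaR D (R := R)) θ ζ)
    (hθ : E0.val D ρ hρ θ₀' = -∑ d, θ d)
    {t : R} (hS : IsSmoothPtRing R p t)
    (W : ValuationSubring D.coverField) (hW : ∀ r : R, toE D ρ hρ R r ∈ W)
    (hpW : ((p : ℕ) : D.coverField) ∈ W.nonunits) :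
    ∃ (R' : Subring (D.E0 ρ hρ)) (_ : IsLocalRing R') (_ : IsNoetherianRing R')
      (_ : UniqueFactorizationMonoid R') (_ : IsFractionRing R' (D.E0 ρ hρ)) (i : R →+* R'),
      (∀ x : R', E0.val D ρ hρ (x : D.E0 ρ hρ) ∈ W) ∧
      (∀ r : R, ((i r : R') : D.E0 ρ hρ) = toE0 D ρ hρ R r) ∧
      θ₀' ∈ R' ∧
      (∀ k : ℕ, (⇑D.sigma)^[k] (E0.val D ρ hρ θ₀') ∈ W) ∧
      (∀ k l : ℕ, k < p → l < p → k ≠ l →
        W.valuation ((⇑D.sigma)^[k] (E0.val D ρ hρ θ₀') -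
          (⇑D.sigma)^[l] (E0.val D ρ hρ θ₀')) = 1) ∧
      IsSmoothPtRing R' p (i t) ∧
      (∀ (z : R) (n : ℕ) (x : R), i z ^ n ∣ i x → z ^ n ∣ x) := by
  haveI : Fact p.Prime := ⟨D.prime⟩
  have hNd : IsNode ((p : ℕ) : R) t :=
    IsNode.of_regPair hS.maximalIdeal_eq hS.prime_p hS.not_dvd
  haveI : IsIntegrallyClosed R := hNd.isIntegrallyClosed
  letI := algE0 D ρ hρ R
  letI := algE0E D ρ hρ
  letI := algE D ρ hρ R
  letI := algF D ρ hρ R
  haveI := tower_F_E D ρ hρ R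
  haveI := tower_F0_E0 D ρ hρ R
  haveI := tower_E0_E D ρ hρ R
  haveI := faithful_E0 D ρ hρ R
  have hθ' : algebraMap (D.E0 ρ hρ) D.coverField θ₀' = -∑ d, θ d := hθ
  obtain ⟨c, hc, hle⟩ := ET.exists_le' D' hθ' (W.comap (algebraMap (D.E0 ρ hρ) D.coverField))
    (fun r => hW r)
  refine ⟨Embed.Rstar (ET.isIntegral' D' hθ') hc, inferInstance, inferInstance,
    ET.ufm' D' hS.natCast_mem_maximalIdeal hθ' hNd hc,
    ET.isFractionRing' D' hS.natCast_mem_maximalIdeal hθ' hc ↥(D.F0 ρ hρ) hfin,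
    Embed.inclStar (ET.isIntegral' D' hθ') hc, fun x => hle x.2,
    fun r => Embed.coe_inclStar (ET.isIntegral' D' hθ') hc r,
    Embed.theta_mem_Rstar (ET.isIntegral' D' hθ') hc, ?_, ?_,
    ET.isSmoothPtRing_Rstar D' hθ' hS hc,
    fun z n x hd => ET.contraction' D' hθ' hc z n x hd⟩
  · intro k
    rw [hθ]
    exact D'.iterate_mem W hW k
  · intro k l hk hl hkl
    rw [hθ]
    exact D'.valuation_iterate_sub_iterate W hW hpW hk hl hkl

end OfDatum

/-! ### The ∞-chart datum of `ASDatumInst` over `R` -/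

section Datum

variable {h Gf : F}
  (hfix : ∀ g ∈ D.G1 ρ, coeffMap ((ρ g : L ≃+* L) : L →+* L) (D.f0 : LaurentSeries L) = D.f0)
  (hfixh : ∀ g ∈ D.G1 ρ, coeffMap ((ρ g : L ≃+* L) : L →+* L) (h : LaurentSeries L) = h)
  [Fintype (G ⧸ D.G1 ρ)]

/-- `θ₀ = -∑_q θ_q` as an element of `E0`. -/
def theta0E0 : D.E0 ρ hρ :=
  E0.mk D ρ hρ (theta0 D ρ hρ hfix hfixh) (theta0_mem_fixedField D ρ hρ hfix hfixh)

theorem val_theta0E0 :
    E0.val D ρ hρ (theta0E0 D ρ hρ hfix hfixh) = theta0 D ρ hρ hfix hfixh := rfl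

/-- **the Artin–Schreier datum of the cover over `R`** (`R` integrally closed, `Frac R = F0`),
with `E0 := D.E0 ρ hρ`, `E := D.coverField` and the algebra structures `algE0`, `algE0E`, `algE`,
`algF`.  `hG` is the integrality of `Gf` over `R`, stated without instances. -/
theorem asDatum' [IsDomain R] [IsIntegrallyClosed R] [IsFractionRing R ↥(D.F0 ρ hρ)]
    (hh : h ≠ 0) (hrel : D.f0 = h ^ p * (1 + algebraMap L F (D.ζ - 1) ^ p * Gf))
    (hG : (toE D ρ hρ R).IsIntegralElem (algebraMap F D.coverField Gf))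
    (hcard : Fintype.card (G ⧸ D.G1 ρ) + 1 = p) :
    letI := algE D ρ hρ R
    letI := algF D ρ hρ R
    haveI := tower_F_E D ρ hρ R
    ASDatum R p (sigmaR D (R := R)) (conjTheta D ρ hρ hfix hfixh)
      (fun q => algebraMap L D.coverField (D.chi ρ q)) := by
  letI := algE0 D ρ hρ R
  letI := algE0E D ρ hρ
  letI := algE D ρ hρ R
  letI := algF D ρ hρ R
  haveI := tower_F_E D ρ hρ R
  haveI := tower_F0_E0 D ρ hρ R
  haveI := tower_E0_E D ρ hρ R
  exact asDatum_of_finrank D ρ hρ (coeffMap_toF D ρ hρ R) hh hrel hG hfix hfixh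
    (F0' := ↥(D.F0 ρ hρ)) (E0' := D.E0 ρ hρ) (D.finrank_E0 ρ hρ hfix) hcard
    (θ₀' := theta0E0 D ρ hρ hfix hfixh) rfl

/-- **(A), node case, ∞-chart, instance-free**: `exists_nodeOver_of_datum` for the datum of
`f0 = h ^ p (1 + (ζ - 1) ^ p Gf)`, `Gf` integral over the node ring `R`. -/
theorem exists_nodeOver [IsDomain R] [IsLocalRing R] [IsNoetherianRing R]
    [IsFractionRing R ↥(D.F0 ρ hρ)] [IsAlgClosed (ResidueField R)]
    (hh : h ≠ 0) (hrel : D.f0 = h ^ p * (1 + algebraMap L F (D.ζ - 1) ^ p * Gf))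
    (hG : (toE D ρ hρ R).IsIntegralElem (algebraMap F D.coverField Gf))
    (hcard : Fintype.card (G ⧸ D.G1 ρ) + 1 = p)
    {u u' : R} (hN : IsNodeRing R p u u')
    (Oinf Ozero : ValuationSubring ↥(D.F0 ρ hρ))
    (hInf_mem : ∀ x : R, algebraMap R ↥(D.F0 ρ hρ) x ∈ Oinf)
    (hInf_unit : ∀ x : R, ¬ u ∣ x → (algebraMap R ↥(D.F0 ρ hρ) x)⁻¹ ∈ Oinf)
    (hInf_p : (((p : ℕ) : ↥(D.F0 ρ hρ)))⁻¹ ∉ Oinf)
    (hZero_mem : ∀ x : R, algebraMap R ↥(D.F0 ρ hρ) x ∈ Ozero)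
    (hZero_unit : ∀ x : R, ¬ u' ∣ x → (algebraMap R ↥(D.F0 ρ hρ) x)⁻¹ ∈ Ozero)
    (hZero_p : (((p : ℕ) : ↥(D.F0 ρ hρ)))⁻¹ ∉ Ozero)
    (W : ValuationSubring D.coverField) (hW : ∀ r : R, toE D ρ hρ R r ∈ W)
    (hpW : ((p : ℕ) : D.coverField) ∈ W.nonunits) :
    ∃ (R' : Subring (D.E0 ρ hρ)) (_ : IsLocalRing R') (_ : IsNoetherianRing R')
      (_ : UniqueFactorizationMonoid R') (_ : IsFractionRing R' (D.E0 ρ hρ)) (i : R →+* R'),
      (∀ x : R', E0.val D ρ hρ (x : D.E0 ρ hρ) ∈ W) ∧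
      (∀ r : R, ((i r : R') : D.E0 ρ hρ) = toE0 D ρ hρ R r) ∧
      theta0E0 D ρ hρ hfix hfixh ∈ R' ∧
      (∀ k : ℕ, (⇑D.sigma)^[k] (theta0 D ρ hρ hfix hfixh) ∈ W) ∧
      (∀ k l : ℕ, k < p → l < p → k ≠ l →
        W.valuation ((⇑D.sigma)^[k] (theta0 D ρ hρ hfix hfixh) -
          (⇑D.sigma)^[l] (theta0 D ρ hρ hfix hfixh)) = 1) ∧
      IsNodeRing R' p (i u) (i u') ∧
      NodeOver ↥(D.F0 ρ hρ) (D.E0 ρ hρ) i p u u' Oinf Ozero := by
  haveI : IsIntegrallyClosed R := (IsNode.of_isNodeRing hN).isIntegrallyClosed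
  exact exists_nodeOver_of_datum D ρ hρ R (D.finrank_E0 ρ hρ hfix)
    (asDatum' D ρ hρ R hfix hfixh hh hrel hG hcard) (θ₀' := theta0E0 D ρ hρ hfix hfixh) rfl hN
    Oinf Ozero hInf_mem hInf_unit hInf_p hZero_mem hZero_unit hZero_p W hW hpW

/-- **(A), smooth case, ∞-chart, instance-free.** -/
theorem exists_smoothOver [IsDomain R] [IsLocalRing R] [IsNoetherianRing R]
    [IsFractionRing R ↥(D.F0 ρ hρ)] [IsAlgClosed (ResidueField R)]
    (hh : h ≠ 0) (hrel : D.f0 = h ^ p * (1 + algebraMap L F (D.ζ - 1) ^ p * Gf))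
    (hG : (toE D ρ hρ R).IsIntegralElem (algebraMap F D.coverField Gf))
    (hcard : Fintype.card (G ⧸ D.G1 ρ) + 1 = p)
    {t : R} (hS : IsSmoothPtRing R p t)
    (W : ValuationSubring D.coverField) (hW : ∀ r : R, toE D ρ hρ R r ∈ W)
    (hpW : ((p : ℕ) : D.coverField) ∈ W.nonunits) :
    ∃ (R' : Subring (D.E0 ρ hρ)) (_ : IsLocalRing R') (_ : IsNoetherianRing R')
      (_ : UniqueFactorizationMonoid R') (_ : IsFractionRing R' (D.E0 ρ hρ)) (i : R →+* R'),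
      (∀ x : R', E0.val D ρ hρ (x : D.E0 ρ hρ) ∈ W) ∧
      (∀ r : R, ((i r : R') : D.E0 ρ hρ) = toE0 D ρ hρ R r) ∧
      theta0E0 D ρ hρ hfix hfixh ∈ R' ∧
      (∀ k : ℕ, (⇑D.sigma)^[k] (theta0 D ρ hρ hfix hfixh) ∈ W) ∧
      (∀ k l : ℕ, k < p → l < p → k ≠ l →
        W.valuation ((⇑D.sigma)^[k] (theta0 D ρ hρ hfix hfixh) -
          (⇑D.sigma)^[l] (theta0 D ρ hρ hfix hfixh)) = 1) ∧
      IsSmoothPtRing R' p (i t) ∧
      (∀ (z : R) (n : ℕ) (x : R), i z ^ n ∣ i x → z ^ n ∣ x) := by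
  haveI : IsIntegrallyClosed R :=
    (IsNode.of_regPair hS.maximalIdeal_eq hS.prime_p hS.not_dvd).isIntegrallyClosed
  exact exists_smoothOver_of_datum D ρ hρ R (D.finrank_E0 ρ hρ hfix)
    (asDatum' D ρ hρ R hfix hfixh hh hrel hG hcard) (θ₀' := theta0E0 D ρ hρ hfix hfixh) rfl hS
    W hW hpW

end Datum

end Fermat.Agent.S40x.NodeRing.CoverSeam
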