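/-
S40x / NodeRing / CoverSeamB  (helper4)   **item (A) AS→ET of `S44-IFACE-C3-ASM v2`, generic cover,
in helper15's vocabulary** `F0 := FixedBase F ρ`, `E0 := D.FixedCover ρ hρ` (`R2/Cover/FixedPart`).

Twin of `NodeRing/CoverSeam` (which is in helper48's `D.F0 ρ hρ` / `D.E0 ρ hρ` vocabulary): the
output `AsmNode.NodeOver (FixedBase F ρ) (D.FixedCover ρ hρ) i p u u' Oinf Ozero` is the input of
helper16's `R2/Asm/NodeModular.c3_node_modular` (→ helper78's `Kum/PairNodes.NodeData`) with no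
adapter.  No `baseIso` transport is needed here: `R → F` is `FixedBase.val ∘ algebraMap`.

`R` is ANY ring with `[Algebra R (FixedBase F ρ)]` (the node ring `R_s`, `Frac R_s = F0`).
Same names as in `CoverSeam` (namespace `CoverSeamB`): `toE0`, `toE`, `toF`, `algE0`, `algE0E`,
`algE`, `algF`, towers, `coeffMap_toF`, `faithful_E0`, `finrank_fixedCover`,
`exists_nodeOver_of_datum`, `exists_smoothOver_of_datum`, `theta0E0`, `asDatum'`,
`exists_nodeOver`, `exists_smoothOver`.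
-/
import Mathlib
import Fermat.Agent.S40x.NodeRing.NodeOverPlug
import Fermat.Agent.S40x.R2.Cover.FixedPart
import Fermat.Agent.S40x.R2.Cover.Span
import Fermat.Agent.S40x.R2.NodeCover.ASDatumInst

set_option linter.style.haveILetI false
set_option linter.unusedSectionVars false
set_option autoImplicit false

noncomputable section

namespace Fermat.Agent.S40x.NodeRing.CoverSeamB

open HahnSeries ModularCurve IntermediateField AlgebraicCurve IsLocalRing
open Fermat.Agent.S40x.R2.Cover Fermat.Agent.S40x.R2.Cover.CoverDatum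
open Fermat.Agent.S40x.R2.NodeCover.ASInst
open Fermat.Agent.S40x.Node Fermat.Agent.S40x.AsmNode

variable {L : Type*} [Field L]
variable {F : IntermediateField L (LaurentSeries L)} {p : ℕ} (D : CoverDatum F p)
variable {G : Type*} [Group G] (ρ : G →* RingAut L) (hρ : ∀ g, D.Stable (ρ g))
variable (R : Type*) [CommRing R] [Algebra R (FixedBase F ρ)]

/-! ### The composite ring homs and the algebra structures -/

/-- `R → F0 → E0`. -/
def toE0 : R →+* D.FixedCover ρ hρ :=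
  (algebraMap (FixedBase F ρ) (D.FixedCover ρ hρ)).comp (algebraMap R (FixedBase F ρ))

/-- `R → F0 → E0 → E`. -/
def toE : R →+* D.coverField := (D.fixedVal ρ hρ).comp (toE0 D ρ hρ R)

/-- `R → F0 ⊆ F`. -/
def toF : R →+* F := (FixedBase.val F ρ).comp (algebraMap R (FixedBase F ρ))

/-- `Algebra R E0` (composite). -/
@[reducible] def algE0 : Algebra R (D.FixedCover ρ hρ) := (toE0 D ρ hρ R).toAlgebra

/-- `Algebra E0 E` (the inclusion `E0.val`). -/
@[reducible] def algE0E : Algebra (D.FixedCover ρ hρ) D.coverField := (D.fixedVal ρ hρ).toAlgebra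

/-- `Algebra R E` (composite). -/
@[reducible] def algE : Algebra R D.coverField := (toE D ρ hρ R).toAlgebra

/-- `Algebra R F` (composite). -/
@[reducible] def algF : Algebra R F := (toF (F := F) ρ R).toAlgebra

theorem tower_F0_E0 :
    letI := algE0 D ρ hρ R
    IsScalarTower R (FixedBase F ρ) (D.FixedCover ρ hρ) :=
  letI := algE0 D ρ hρ R
  IsScalarTower.of_algebraMap_eq (fun _ => rfl)

theorem tower_E0_E :
    letI := algE0 D ρ hρ R
    letI := algE0E D ρ hρ
    letI := algE D ρ hρ R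
    IsScalarTower R (D.FixedCover ρ hρ) D.coverField :=
  letI := algE0 D ρ hρ R
  letI := algE0E D ρ hρ
  letI := algE D ρ hρ R
  IsScalarTower.of_algebraMap_eq (fun _ => rfl)

theorem toE_eq (r : R) : toE D ρ hρ R r = algebraMap F D.coverField (toF (F := F) ρ R r) := rfl

theorem tower_F_E :
    letI := algF (F := F) ρ R
    letI := algE D ρ hρ R
    IsScalarTower R F D.coverField :=
  letI := algF (F := F) ρ R
  letI := algE D ρ hρ R
  IsScalarTower.of_algebraMap_eq (fun r => toE_eq D ρ hρ R r)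

/-- `hRfix` of `ASDatumInst`: `G` fixes the image of `R` in `F`. -/
theorem coeffMap_toF (g : G) (r : R) :
    coeffMap ((ρ g : L ≃+* L) : L →+* L) ((toF (F := F) ρ R r : F) : LaurentSeries L) =
      ((toF (F := F) ρ R r : F) : LaurentSeries L) :=
  FixedBase.coeffMap_val (algebraMap R (FixedBase F ρ) r) g

theorem toE0_injective [IsDomain R] [IsFractionRing R (FixedBase F ρ)] :
    Function.Injective (toE0 D ρ hρ R) :=
  (algebraMap (FixedBase F ρ) (D.FixedCover ρ hρ)).injective.comp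
    (IsFractionRing.injective R (FixedBase F ρ))

theorem faithful_E0 [IsDomain R] [IsFractionRing R (FixedBase F ρ)] :
    letI := algE0 D ρ hρ R
    FaithfulSMul R (D.FixedCover ρ hρ) :=
  letI := algE0 D ρ hρ R
  (faithfulSMul_iff_algebraMap_injective R (D.FixedCover ρ hρ)).mpr (toE0_injective D ρ hρ R)


/-- `[FL₀ : F₀] = p` when `G1` fixes `f0`. -/
theorem finrank_fixedCover
    (hfix : ∀ g ∈ D.G1 ρ, coeffMap ((ρ g : L ≃+* L) : L →+* L) (D.f0 : LaurentSeries L) = D.f0) :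
    Module.finrank (FixedBase F ρ) (D.FixedCover ρ hρ) = p := by
  rw [D.finrank_eq_prime_iff ρ hρ]
  intro h1
  have h2 : orderOf (D.sigma0 ρ hρ) = p := D.orderOf_sigma0_eq ρ hρ hfix
  have h3 : D.sigma0 ρ hρ = 1 := by
    refine RingEquiv.ext fun x => ?_
    have := congrArg (fun e : D.FixedCover ρ hρ ≃ₐ[FixedBase F ρ] D.FixedCover ρ hρ => e x) h1
    exact this
  rw [h3, orderOf_one] at h2
  exact D.prime.one_lt.ne h2

/-! ### From ANY Artin–Schreier datum on the cover (∞-chart or 0-chart) -/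

section OfDatum

variable {ι : Type*} [Fintype ι] {θ ζ : ι → D.coverField} {θ₀' : D.FixedCover ρ hρ}

/-- **(A), node case, from any `ASDatum` over `R` on the cover field** (helper2's ∞-chart datum,
the 0-chart twin, ...), instance-free output.  For every valuation subring `W` of the cover field
containing the image of the node ring `R`, with `p` a non-unit, there is a subring `R' ⊆ E0`
(the étale lift `R*_c` of `NodeRing/Embed`) inside `W` with all the upstairs data of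
`AsmNode.NodeOver`, containing `θ₀'`, whose `σ`-conjugates lie in `W` and differ by units. -/
theorem exists_nodeOver_of_datum [IsDomain R] [IsLocalRing R] [IsNoetherianRing R]
    [IsFractionRing R (FixedBase F ρ)] [IsAlgClosed (ResidueField R)]
    (hfin : Module.finrank (FixedBase F ρ) (D.FixedCover ρ hρ) = p)
    (D' : letI := algE D ρ hρ R
      letI := algF (F := F) ρ R
      haveI := tower_F_E D ρ hρ R
      ASDatum R p (sigmaR D (R := R)) θ ζ)
    (hθ : D.fixedVal ρ hρ θ₀' = -∑ d, θ d)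
    {u u' : R} (hN : IsNodeRing R p u u')
    (Oinf Ozero : ValuationSubring (FixedBase F ρ))
    (hInf_mem : ∀ x : R, algebraMap R (FixedBase F ρ) x ∈ Oinf)
    (hInf_unit : ∀ x : R, ¬ u ∣ x → (algebraMap R (FixedBase F ρ) x)⁻¹ ∈ Oinf)
    (hInf_p : (((p : ℕ) : (FixedBase F ρ)))⁻¹ ∉ Oinf)
    (hZero_mem : ∀ x : R, algebraMap R (FixedBase F ρ) x ∈ Ozero)
    (hZero_unit : ∀ x : R, ¬ u' ∣ x → (algebraMap R (FixedBase F ρ) x)⁻¹ ∈ Ozero)
    (hZero_p : (((p : ℕ) : (FixedBase F ρ)))⁻¹ ∉ Ozero)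
    (W : ValuationSubring D.coverField) (hW : ∀ r : R, toE D ρ hρ R r ∈ W)
    (hpW : ((p : ℕ) : D.coverField) ∈ W.nonunits) :
    ∃ (R' : Subring (D.FixedCover ρ hρ)) (_ : IsLocalRing R') (_ : IsNoetherianRing R')
      (_ : UniqueFactorizationMonoid R') (_ : IsFractionRing R' (D.FixedCover ρ hρ)) (i : R →+* R'),
      (∀ x : R', D.fixedVal ρ hρ (x : D.FixedCover ρ hρ) ∈ W) ∧
      (∀ r : R, ((i r : R') : D.FixedCover ρ hρ) = toE0 D ρ hρ R r) ∧
      θ₀' ∈ R' ∧
      (∀ k : ℕ, (⇑D.sigma)^[k] (D.fixedVal ρ hρ θ₀') ∈ W) ∧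
      (∀ k l : ℕ, k < p → l < p → k ≠ l →
        W.valuation ((⇑D.sigma)^[k] (D.fixedVal ρ hρ θ₀') -
          (⇑D.sigma)^[l] (D.fixedVal ρ hρ θ₀')) = 1) ∧
      IsNodeRing R' p (i u) (i u') ∧
      NodeOver (FixedBase F ρ) (D.FixedCover ρ hρ) i p u u' Oinf Ozero := by
  haveI : Fact p.Prime := ⟨D.prime⟩
  haveI : IsIntegrallyClosed R := (IsNode.of_isNodeRing hN).isIntegrallyClosed
  letI := algE0 D ρ hρ R
  letI := algE0E D ρ hρ
  letI := algE D ρ hρ R
  letI := algF (F := F) ρ R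
  haveI := tower_F_E D ρ hρ R
  haveI := tower_F0_E0 D ρ hρ R
  haveI := tower_E0_E D ρ hρ R
  haveI := faithful_E0 D ρ hρ R
  have hθ' : algebraMap (D.FixedCover ρ hρ) D.coverField θ₀' = -∑ d, θ d := hθ
  -- the root
  obtain ⟨c, hc, hle⟩ := ET.exists_le' D' hθ' (W.comap (algebraMap (D.FixedCover ρ hρ) D.coverField))
    (fun r => hW r)
  have hNO := ET.nodeOver_Rstar D' hθ' hN hc (FixedBase F ρ) hfin Oinf Ozero hInf_mem hInf_unit
    hInf_p hZero_mem hZero_unit hZero_p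
  refine ⟨Embed.Rstar (ET.isIntegral' D' hθ') hc, inferInstance, inferInstance,
    ET.ufm' D' hN.natCast_mem_maximalIdeal hθ' (IsNode.of_isNodeRing hN) hc,
    ET.isFractionRing' D' hN.natCast_mem_maximalIdeal hθ' hc (FixedBase F ρ) hfin,
    Embed.inclStar (ET.isIntegral' D' hθ') hc, fun x => hle x.2,
    fun r => Embed.coe_inclStar (ET.isIntegral' D' hθ') hc r,
    Embed.theta_mem_Rstar (ET.isIntegral' D' hθ') hc, ?_, ?_,
    ET.isNodeRing_Rstar D' hθ' hN hc, hNO⟩
  · intro k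
    rw [hθ]
    exact D'.iterate_mem W hW k
  · intro k l hk hl hkl
    rw [hθ]
    exact D'.valuation_iterate_sub_iterate W hW hpW hk hl hkl

/-- **(A), smooth case, from any `ASDatum` over `R` on the cover field**, instance-free output:
the étale lift `R' ⊆ E0` of a smooth-point ring `R` is a smooth-point ring (same `t`), a UFD with
`Frac R' = E0`, inside `W`. -/
theorem exists_smoothOver_of_datum [IsDomain R] [IsLocalRing R] [IsNoetherianRing R]
    [IsFractionRing R (FixedBase F ρ)] [IsAlgClosed (ResidueField R)]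
    (hfin : Module.finrank (FixedBase F ρ) (D.FixedCover ρ hρ) = p)
    (D' : letI := algE D ρ hρ R
      letI := algF (F := F) ρ R
      haveI := tower_F_E D ρ hρ R
      ASDatum R p (sigmaR D (R := R)) θ ζ)
    (hθ : D.fixedVal ρ hρ θ₀' = -∑ d, θ d)
    {t : R} (hS : IsSmoothPtRing R p t)
    (W : ValuationSubring D.coverField) (hW : ∀ r : R, toE D ρ hρ R r ∈ W)
    (hpW : ((p : ℕ) : D.coverField) ∈ W.nonunits) :
    ∃ (R' : Subring (D.FixedCover ρ hρ)) (_ : IsLocalRing R') (_ : IsNoetherianRing R')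
      (_ : UniqueFactorizationMonoid R') (_ : IsFractionRing R' (D.FixedCover ρ hρ)) (i : R →+* R'),
      (∀ x : R', D.fixedVal ρ hρ (x : D.FixedCover ρ hρ) ∈ W) ∧
      (∀ r : R, ((i r : R') : D.FixedCover ρ hρ) = toE0 D ρ hρ R r) ∧
      θ₀' ∈ R' ∧
      (∀ k : ℕ, (⇑D.sigma)^[k] (D.fixedVal ρ hρ θ₀') ∈ W) ∧
      (∀ k l : ℕ, k < p → l < p → k ≠ l →
        W.valuation ((⇑D.sigma)^[k] (D.fixedVal ρ hρ θ₀') -
          (⇑D.sigma)^[l] (D.fixedVal ρ hρ θ₀')) = 1) ∧
      IsSmoothPtRing R' p (i t) ∧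
      (∀ (z : R) (n : ℕ) (x : R), i z ^ n ∣ i x → z ^ n ∣ x) := by
  haveI : Fact p.Prime := ⟨D.prime⟩
  have hNd : IsNode ((p : ℕ) : R) t :=
    IsNode.of_regPair hS.maximalIdeal_eq hS.prime_p hS.not_dvd
  haveI : IsIntegrallyClosed R := hNd.isIntegrallyClosed
  letI := algE0 D ρ hρ R
  letI := algE0E D ρ hρ
  letI := algE D ρ hρ R
  letI := algF (F := F) ρ R
  haveI := tower_F_E D ρ hρ R
  haveI := tower_F0_E0 D ρ hρ R
  haveI := tower_E0_E D ρ hρ R
  haveI := faithful_E0 D ρ hρ R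
  have hθ' : algebraMap (D.FixedCover ρ hρ) D.coverField θ₀' = -∑ d, θ d := hθ
  obtain ⟨c, hc, hle⟩ := ET.exists_le' D' hθ' (W.comap (algebraMap (D.FixedCover ρ hρ) D.coverField))
    (fun r => hW r)
  refine ⟨Embed.Rstar (ET.isIntegral' D' hθ') hc, inferInstance, inferInstance,
    ET.ufm' D' hS.natCast_mem_maximalIdeal hθ' hNd hc,
    ET.isFractionRing' D' hS.natCast_mem_maximalIdeal hθ' hc (FixedBase F ρ) hfin,
    Embed.inclStar (ET.isIntegral' D' hθ') hc, fun x => hle x.2,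
    fun r => Embed.coe_inclStar (ET.isIntegral' D' hθ') hc r,
    Embed.theta_mem_Rstar (ET.isIntegral' D' hθ') hc, ?_, ?_,
    ET.isSmoothPtRing_Rstar D' hθ' hS hc,
    fun z n x hd => ET.contraction' D' hθ' hc z n x hd⟩
  · intro k
    rw [hθ]
    exact D'.iterate_mem W hW k
  · intro k l hk hl hkl
    rw [hθ]
    exact D'.valuation_iterate_sub_iterate W hW hpW hk hl hkl

end OfDatum

/-! ### The ∞-chart datum of `ASDatumInst` over `R` -/

section Datum

variable {h Gf : F}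
  (hfix : ∀ g ∈ D.G1 ρ, coeffMap ((ρ g : L ≃+* L) : L →+* L) (D.f0 : LaurentSeries L) = D.f0)
  (hfixh : ∀ g ∈ D.G1 ρ, coeffMap ((ρ g : L ≃+* L) : L →+* L) (h : LaurentSeries L) = h)
  [Fintype (G ⧸ D.G1 ρ)]

/-- `θ₀ = -∑_q θ_q` as an element of `E0`. -/
def theta0E0 : D.FixedCover ρ hρ :=
  D.fixedMk ρ hρ (theta0 D ρ hρ hfix hfixh) (theta0_mem_fixedField D ρ hρ hfix hfixh)

theorem val_theta0E0 :
    D.fixedVal ρ hρ (theta0E0 D ρ hρ hfix hfixh) = theta0 D ρ hρ hfix hfixh := rfl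

/-- **the Artin–Schreier datum of the cover over `R`** (`R` integrally closed, `Frac R = F0`),
with `E0 := D.FixedCover ρ hρ`, `E := D.coverField` and the algebra structures `algE0`, `algE0E`, `algE`,
`algF`.  `hG` is the integrality of `Gf` over `R`, stated without instances. -/
theorem asDatum' [IsDomain R] [IsIntegrallyClosed R] [IsFractionRing R (FixedBase F ρ)]
    (hh : h ≠ 0) (hrel : D.f0 = h ^ p * (1 + algebraMap L F (D.ζ - 1) ^ p * Gf))
    (hG : (toE D ρ hρ R).IsIntegralElem (algebraMap F D.coverField Gf))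
    (hcard : Fintype.card (G ⧸ D.G1 ρ) + 1 = p) :
    letI := algE D ρ hρ R
    letI := algF (F := F) ρ R
    haveI := tower_F_E D ρ hρ R
    ASDatum R p (sigmaR D (R := R)) (conjTheta D ρ hρ hfix hfixh)
      (fun q => algebraMap L D.coverField (D.chi ρ q)) := by
  letI := algE0 D ρ hρ R
  letI := algE0E D ρ hρ
  letI := algE D ρ hρ R
  letI := algF (F := F) ρ R
  haveI := tower_F_E D ρ hρ R
  haveI := tower_F0_E0 D ρ hρ R
  haveI := tower_E0_E D ρ hρ R
  exact asDatum_of_finrank D ρ hρ (coeffMap_toF (F := F) ρ R) hh hrel hG hfix hfixh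
    (F0' := (FixedBase F ρ)) (E0' := D.FixedCover ρ hρ) (finrank_fixedCover D ρ hρ hfix) hcard
    (θ₀' := theta0E0 D ρ hρ hfix hfixh) rfl

/-- **(A), node case, ∞-chart, instance-free**: `exists_nodeOver_of_datum` for the datum of
`f0 = h ^ p (1 + (ζ - 1) ^ p Gf)`, `Gf` integral over the node ring `R`. -/
theorem exists_nodeOver [IsDomain R] [IsLocalRing R] [IsNoetherianRing R]
    [IsFractionRing R (FixedBase F ρ)] [IsAlgClosed (ResidueField R)]
    (hh : h ≠ 0) (hrel : D.f0 = h ^ p * (1 + algebraMap L F (D.ζ - 1) ^ p * Gf))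
    (hG : (toE D ρ hρ R).IsIntegralElem (algebraMap F D.coverField Gf))
    (hcard : Fintype.card (G ⧸ D.G1 ρ) + 1 = p)
    {u u' : R} (hN : IsNodeRing R p u u')
    (Oinf Ozero : ValuationSubring (FixedBase F ρ))
    (hInf_mem : ∀ x : R, algebraMap R (FixedBase F ρ) x ∈ Oinf)
    (hInf_unit : ∀ x : R, ¬ u ∣ x → (algebraMap R (FixedBase F ρ) x)⁻¹ ∈ Oinf)
    (hInf_p : (((p : ℕ) : (FixedBase F ρ)))⁻¹ ∉ Oinf)
    (hZero_mem : ∀ x : R, algebraMap R (FixedBase F ρ) x ∈ Ozero)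
    (hZero_unit : ∀ x : R, ¬ u' ∣ x → (algebraMap R (FixedBase F ρ) x)⁻¹ ∈ Ozero)
    (hZero_p : (((p : ℕ) : (FixedBase F ρ)))⁻¹ ∉ Ozero)
    (W : ValuationSubring D.coverField) (hW : ∀ r : R, toE D ρ hρ R r ∈ W)
    (hpW : ((p : ℕ) : D.coverField) ∈ W.nonunits) :
    ∃ (R' : Subring (D.FixedCover ρ hρ)) (_ : IsLocalRing R') (_ : IsNoetherianRing R')
      (_ : UniqueFactorizationMonoid R') (_ : IsFractionRing R' (D.FixedCover ρ hρ)) (i : R →+* R'),
      (∀ x : R', D.fixedVal ρ hρ (x : D.FixedCover ρ hρ) ∈ W) ∧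
      (∀ r : R, ((i r : R') : D.FixedCover ρ hρ) = toE0 D ρ hρ R r) ∧
      theta0E0 D ρ hρ hfix hfixh ∈ R' ∧
      (∀ k : ℕ, (⇑D.sigma)^[k] (theta0 D ρ hρ hfix hfixh) ∈ W) ∧
      (∀ k l : ℕ, k < p → l < p → k ≠ l →
        W.valuation ((⇑D.sigma)^[k] (theta0 D ρ hρ hfix hfixh) -
          (⇑D.sigma)^[l] (theta0 D ρ hρ hfix hfixh)) = 1) ∧
      IsNodeRing R' p (i u) (i u') ∧
      NodeOver (FixedBase F ρ) (D.FixedCover ρ hρ) i p u u' Oinf Ozero := by
  haveI : IsIntegrallyClosed R := (IsNode.of_isNodeRing hN).isIntegrallyClosed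
  exact exists_nodeOver_of_datum D ρ hρ R (finrank_fixedCover D ρ hρ hfix)
    (asDatum' D ρ hρ R hfix hfixh hh hrel hG hcard) (θ₀' := theta0E0 D ρ hρ hfix hfixh) rfl hN
    Oinf Ozero hInf_mem hInf_unit hInf_p hZero_mem hZero_unit hZero_p W hW hpW

/-- **(A), smooth case, ∞-chart, instance-free.** -/
theorem exists_smoothOver [IsDomain R] [IsLocalRing R] [IsNoetherianRing R]
    [IsFractionRing R (FixedBase F ρ)] [IsAlgClosed (ResidueField R)]
    (hh : h ≠ 0) (hrel : D.f0 = h ^ p * (1 + algebraMap L F (D.ζ - 1) ^ p * Gf))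
    (hG : (toE D ρ hρ R).IsIntegralElem (algebraMap F D.coverField Gf))
    (hcard : Fintype.card (G ⧸ D.G1 ρ) + 1 = p)
    {t : R} (hS : IsSmoothPtRing R p t)
    (W : ValuationSubring D.coverField) (hW : ∀ r : R, toE D ρ hρ R r ∈ W)
    (hpW : ((p : ℕ) : D.coverField) ∈ W.nonunits) :
    ∃ (R' : Subring (D.FixedCover ρ hρ)) (_ : IsLocalRing R') (_ : IsNoetherianRing R')
      (_ : UniqueFactorizationMonoid R') (_ : IsFractionRing R' (D.FixedCover ρ hρ)) (i : R →+* R'),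
      (∀ x : R', D.fixedVal ρ hρ (x : D.FixedCover ρ hρ) ∈ W) ∧
      (∀ r : R, ((i r : R') : D.FixedCover ρ hρ) = toE0 D ρ hρ R r) ∧
      theta0E0 D ρ hρ hfix hfixh ∈ R' ∧
      (∀ k : ℕ, (⇑D.sigma)^[k] (theta0 D ρ hρ hfix hfixh) ∈ W) ∧
      (∀ k l : ℕ, k < p → l < p → k ≠ l →
        W.valuation ((⇑D.sigma)^[k] (theta0 D ρ hρ hfix hfixh) -
          (⇑D.sigma)^[l] (theta0 D ρ hρ hfix hfixh)) = 1) ∧
      IsSmoothPtRing R' p (i t) ∧
      (∀ (z : R) (n : ℕ) (x : R), i z ^ n ∣ i x → z ^ n ∣ x) := by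
  haveI : IsIntegrallyClosed R :=
    (IsNode.of_regPair hS.maximalIdeal_eq hS.prime_p hS.not_dvd).isIntegrallyClosed
  exact exists_smoothOver_of_datum D ρ hρ R (finrank_fixedCover D ρ hρ hfix)
    (asDatum' D ρ hρ R hfix hfixh hh hrel hG hcard) (θ₀' := theta0E0 D ρ hρ hfix hfixh) rfl hS
    W hW hpW

end Datum

end Fermat.Agent.S40x.NodeRing.CoverSeamB
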