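/-
S40x / NodeRing / CoverSeamZero  (helper88)   **item (A) AS→ET of `S44-IFACE-C3-ASM v2`, generic
cover, the `0`-chart (swap chart) half.**

The twin of the last section of helper4's `NodeRing/CoverSeam` for the `0`-chart Artin–Schreier
datum of `R2/NodeCover/ASDatumInstZero`: from the normal form
`h0 ^ p = f0 * (1 + (ζ - 1) ^ p * G0)` (`h0` fixed by `G1`, `G0` integral over `R`) we get

* `theta0E0Zero : D.E0 ρ hρ` (`θ₀' = -∑ θ'_q` as an element of `E0`),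
* `asDatumZero` : the `NodeRing.ASDatum` over `R` (with `ζ q = χ(q)⁻¹`) under the algebra
  structures `CoverSeam.algE`, `CoverSeam.algF`,
* `exists_nodeOver_zero`, `exists_smoothOver_zero` : the instance-free outputs of
  `CoverSeam.exists_nodeOver_of_datum` / `exists_smoothOver_of_datum` for this datum.
-/
import Mathlib
import Fermat.Agent.S40x.NodeRing.CoverSeam
import Fermat.Agent.S40x.R2.NodeCover.ASDatumInstZero

set_option linter.style.haveILetI false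
set_option linter.unusedSectionVars false
set_option autoImplicit false

noncomputable section

namespace Fermat.Agent.S40x.NodeRing.CoverSeamZero

open HahnSeries ModularCurve IntermediateField AlgebraicCurve IsLocalRing
open Fermat.Agent.S40x.R2.Cover Fermat.Agent.S40x.R2.Cover.CoverDatum
open Fermat.Agent.S40x.R2.NodeCover.ASInst Fermat.Agent.S40x.R2.NodeCover.ASInstZero
open Fermat.Agent.S40x.Node Fermat.Agent.S40x.AsmNode
open Fermat.Agent.S40x.NodeRing.CoverSeam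

variable {L : Type*} [Field L]
variable {F : IntermediateField L (LaurentSeries L)} {p : ℕ} (D : CoverDatum F p)
variable {G : Type*} [Group G] (ρ : G →* RingAut L) (hρ : ∀ g, D.Stable (ρ g))
variable (R : Type*) [CommRing R] [Algebra R ↥(D.F0 ρ hρ)]

variable {h0 G0 : F}
  (hfix : ∀ g ∈ D.G1 ρ, coeffMap ((ρ g : L ≃+* L) : L →+* L) (D.f0 : LaurentSeries L) = D.f0)
  (hfixh : ∀ g ∈ D.G1 ρ, coeffMap ((ρ g : L ≃+* L) : L →+* L) (h0 : LaurentSeries L) = h0)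
  [Fintype (G ⧸ D.G1 ρ)]

/-- `θ₀' = -∑_q θ'_q` (the `0`-chart conjugate sum) as an element of `E0`. -/
def theta0E0Zero : D.E0 ρ hρ :=
  E0.mk D ρ hρ (theta0' D ρ hρ hfix hfixh) (theta0'_mem_fixedField D ρ hρ hfix hfixh)

theorem val_theta0E0Zero :
    E0.val D ρ hρ (theta0E0Zero D ρ hρ hfix hfixh) = theta0' D ρ hρ hfix hfixh := rfl

/-- **the `0`-chart Artin–Schreier datum of the cover over `R`** (`R` integrally closed,
`Frac R = F0`), under `CoverSeam.algE`, `CoverSeam.algF`.  `hG` is the integrality of `G0` over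
`R`, stated without instances. -/
theorem asDatumZero [IsDomain R] [IsIntegrallyClosed R] [IsFractionRing R ↥(D.F0 ρ hρ)]
    (hrel : h0 ^ p = D.f0 * (1 + algebraMap L F (D.ζ - 1) ^ p * G0))
    (hG : (toE D ρ hρ R).IsIntegralElem (algebraMap F D.coverField G0))
    (hcard : Fintype.card (G ⧸ D.G1 ρ) + 1 = p) :
    letI := algE D ρ hρ R
    letI := algF D ρ hρ R
    haveI := tower_F_E D ρ hρ R
    ASDatum R p (sigmaR D (R := R)) (conjTheta' D ρ hρ hfix hfixh)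
      (fun q => algebraMap L D.coverField (D.chi ρ q)⁻¹) := by
  letI := algE0 D ρ hρ R
  letI := algE0E D ρ hρ
  letI := algE D ρ hρ R
  letI := algF D ρ hρ R
  haveI := tower_F_E D ρ hρ R
  haveI := tower_F0_E0 D ρ hρ R
  haveI := tower_E0_E D ρ hρ R
  exact asDatum'_of_finrank D ρ hρ (coeffMap_toF D ρ hρ R) hrel hG hfix hfixh
    (F0' := ↥(D.F0 ρ hρ)) (E0' := D.E0 ρ hρ) (D.finrank_E0 ρ hρ hfix) hcard
    (θ₀' := theta0E0Zero D ρ hρ hfix hfixh) rfl

/-- **(A), node case, `0`-chart, instance-free**: `CoverSeam.exists_nodeOver_of_datum` for the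
datum of `h0 ^ p = f0 (1 + (ζ - 1) ^ p G0)`, `G0` integral over the node ring `R`. -/
theorem exists_nodeOver_zero [IsDomain R] [IsLocalRing R] [IsNoetherianRing R]
    [IsFractionRing R ↥(D.F0 ρ hρ)] [IsAlgClosed (ResidueField R)]
    (hrel : h0 ^ p = D.f0 * (1 + algebraMap L F (D.ζ - 1) ^ p * G0))
    (hG : (toE D ρ hρ R).IsIntegralElem (algebraMap F D.coverField G0))
    (hcard : Fintype.card (G ⧸ D.G1 ρ) + 1 = p)
    {u u' : R} (hN : IsNodeRing R p u u')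
    (Oinf Ozero : ValuationSubring ↥(D.F0 ρ hρ))
    (hInf_mem : ∀ x : R, algebraMap R ↥(D.F0 ρ hρ) x ∈ Oinf)
    (hInf_unit : ∀ x : R, ¬ u ∣ x → (algebraMap R ↥(D.F0 ρ hρ) x)⁻¹ ∈ Oinf)
    (hInf_p : (((p : ℕ) : ↥(D.F0 ρ hρ)))⁻¹ ∉ Oinf)
    (hZero_mem : ∀ x : R, algebraMap R ↥(D.F0 ρ hρ) x ∈ Ozero)
    (hZero_unit : ∀ x : R, ¬ u' ∣ x → (algebraMap R ↥(D.F0 ρ hρ) x)⁻¹ ∈ Ozero)
    (hZero_p : (((p : ℕ) : ↥(D.F0 ρ hρ)))⁻¹ ∉ Ozero)
    (W : ValuationSubring D.coverField) (hW : ∀ r : R, toE D ρ hρ R r ∈ W)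
    (hpW : ((p : ℕ) : D.coverField) ∈ W.nonunits) :
    ∃ (R' : Subring (D.E0 ρ hρ)) (_ : IsLocalRing R') (_ : IsNoetherianRing R')
      (_ : UniqueFactorizationMonoid R') (_ : IsFractionRing R' (D.E0 ρ hρ)) (i : R →+* R'),
      (∀ x : R', E0.val D ρ hρ (x : D.E0 ρ hρ) ∈ W) ∧
      (∀ r : R, ((i r : R') : D.E0 ρ hρ) = toE0 D ρ hρ R r) ∧
      theta0E0Zero D ρ hρ hfix hfixh ∈ R' ∧
      (∀ k : ℕ, (⇑D.sigma)^[k] (theta0' D ρ hρ hfix hfixh) ∈ W) ∧
      (∀ k l : ℕ, k < p → l < p → k ≠ l →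
        W.valuation ((⇑D.sigma)^[k] (theta0' D ρ hρ hfix hfixh) -
          (⇑D.sigma)^[l] (theta0' D ρ hρ hfix hfixh)) = 1) ∧
      IsNodeRing R' p (i u) (i u') ∧
      NodeOver ↥(D.F0 ρ hρ) (D.E0 ρ hρ) i p u u' Oinf Ozero := by
  haveI : IsIntegrallyClosed R := (IsNode.of_isNodeRing hN).isIntegrallyClosed
  exact exists_nodeOver_of_datum D ρ hρ R (D.finrank_E0 ρ hρ hfix)
    (asDatumZero D ρ hρ R hfix hfixh hrel hG hcard) (θ₀' := theta0E0Zero D ρ hρ hfix hfixh) rfl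
    hN Oinf Ozero hInf_mem hInf_unit hInf_p hZero_mem hZero_unit hZero_p W hW hpW

/-- **(A), smooth case, `0`-chart, instance-free.** -/
theorem exists_smoothOver_zero [IsDomain R] [IsLocalRing R] [IsNoetherianRing R]
    [IsFractionRing R ↥(D.F0 ρ hρ)] [IsAlgClosed (ResidueField R)]
    (hrel : h0 ^ p = D.f0 * (1 + algebraMap L F (D.ζ - 1) ^ p * G0))
    (hG : (toE D ρ hρ R).IsIntegralElem (algebraMap F D.coverField G0))
    (hcard : Fintype.card (G ⧸ D.G1 ρ) + 1 = p)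
    {t : R} (hS : IsSmoothPtRing R p t)
    (W : ValuationSubring D.coverField) (hW : ∀ r : R, toE D ρ hρ R r ∈ W)
    (hpW : ((p : ℕ) : D.coverField) ∈ W.nonunits) :
    ∃ (R' : Subring (D.E0 ρ hρ)) (_ : IsLocalRing R') (_ : IsNoetherianRing R')
      (_ : UniqueFactorizationMonoid R') (_ : IsFractionRing R' (D.E0 ρ hρ)) (i : R →+* R'),
      (∀ x : R', E0.val D ρ hρ (x : D.E0 ρ hρ) ∈ W) ∧
      (∀ r : R, ((i r : R') : D.E0 ρ hρ) = toE0 D ρ hρ R r) ∧
      theta0E0Zero D ρ hρ hfix hfixh ∈ R' ∧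
      (∀ k : ℕ, (⇑D.sigma)^[k] (theta0' D ρ hρ hfix hfixh) ∈ W) ∧
      (∀ k l : ℕ, k < p → l < p → k ≠ l →
        W.valuation ((⇑D.sigma)^[k] (theta0' D ρ hρ hfix hfixh) -
          (⇑D.sigma)^[l] (theta0' D ρ hρ hfix hfixh)) = 1) ∧
      IsSmoothPtRing R' p (i t) ∧
      (∀ (z : R) (n : ℕ) (x : R), i z ^ n ∣ i x → z ^ n ∣ x) := by
  haveI : IsIntegrallyClosed R :=
    (IsNode.of_regPair hS.maximalIdeal_eq hS.prime_p hS.not_dvd).isIntegrallyClosed
  exact exists_smoothOver_of_datum D ρ hρ R (D.finrank_E0 ρ hρ hfix)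
    (asDatumZero D ρ hρ R hfix hfixh hrel hG hcard) (θ₀' := theta0E0Zero D ρ hρ hfix hfixh) rfl
    hS W hW hpW

end Fermat.Agent.S40x.NodeRing.CoverSeamZero
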