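/-
S40x / NodeRing / SigmaIter  (helper4; Mathlib only)

The hypothesis `hG : ∀ g : G, ∃ i, i < p ∧ ∀ x, g • x = σ^[i] x` of `NodeRing/SlopePlug` for
`G := E ≃ₐ[F] E` when the Galois group is generated by `σ` with `σ ^ p = 1`
(`exists_iterate_of_zpowers`), also for the `R₀`-algebra hom obtained from `σ` by restricting
scalars (`exists_iterate_restrictScalars`).
-/
import Mathlib

namespace Fermat.Agent.S40x.NodeRing

namespace SigmaIter

variable {F E : Type*} [Field F] [Field E] [Algebra F E]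

theorem pow_apply_eq_iterate (σ : E ≃ₐ[F] E) (i : ℕ) (x : E) : (σ ^ i) x = (σ^[i]) x := by
  induction i generalizing x with
  | zero => rfl
  | succ i ih =>
    rw [pow_succ, AlgEquiv.mul_apply, ih, Function.iterate_succ_apply]

/-- every element of a group generated by `σ` with `σ ^ p = 1` is `σ ^ i` with `i < p`. -/
theorem exists_pow_eq_of_mem_zpowers {G : Type*} [Group G] {p : ℕ} (hp : 0 < p) {σ : G}
    (hσp : σ ^ p = 1) {g : G} (hg : g ∈ Subgroup.zpowers σ) : ∃ i, i < p ∧ g = σ ^ i := by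
  obtain ⟨n, rfl⟩ := Subgroup.mem_zpowers_iff.mp hg
  have hp' : (p : ℤ) ≠ 0 := by exact_mod_cast hp.ne'
  have hpos : (0 : ℤ) < p := by exact_mod_cast hp
  refine ⟨(n % p).toNat, ?_, ?_⟩
  · have h1 := Int.emod_lt_of_pos n hpos
    have h0 := Int.emod_nonneg n hp'
    omega
  · have h0 := Int.emod_nonneg n hp'
    have h2 : n = (n % p) + p * (n / p) := (Int.emod_add_mul_ediv n p).symm
    conv_lhs => rw [h2]
    rw [zpow_add, zpow_mul, zpow_natCast, hσp, one_zpow, mul_one]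
    conv_lhs => rw [← Int.toNat_of_nonneg h0]
    rw [zpow_natCast]

/-- **the Galois group acts through iterates of `σ`**. -/
theorem exists_iterate_of_zpowers {p : ℕ} (hp : 0 < p) (σ : E ≃ₐ[F] E) (hσp : σ ^ p = 1)
    (hgen : ∀ g : E ≃ₐ[F] E, g ∈ Subgroup.zpowers σ) (g : E ≃ₐ[F] E) :
    ∃ i, i < p ∧ ∀ x : E, g • x = (σ^[i]) x := by
  obtain ⟨i, hi, rfl⟩ := exists_pow_eq_of_mem_zpowers hp hσp (hgen g)
  exact ⟨i, hi, fun x => by rw [AlgEquiv.smul_def, pow_apply_eq_iterate]⟩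

/-- the same for any map `τ` agreeing with `σ` pointwise (e.g. `σ` with restricted scalars). -/
theorem exists_iterate_of_zpowers' {p : ℕ} (hp : 0 < p) (σ : E ≃ₐ[F] E) (hσp : σ ^ p = 1)
    (hgen : ∀ g : E ≃ₐ[F] E, g ∈ Subgroup.zpowers σ) (τ : E → E) (hτ : ∀ x, τ x = σ x)
    (g : E ≃ₐ[F] E) : ∃ i, i < p ∧ ∀ x : E, g • x = (τ^[i]) x := by
  obtain ⟨i, hi, h⟩ := exists_iterate_of_zpowers hp σ hσp hgen g
  refine ⟨i, hi, fun x => ?_⟩
  rw [h x]
  have e : τ = σ := funext hτ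
  rw [e]

end SigmaIter

end Fermat.Agent.S40x.NodeRing
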