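/-
S40x / NodeRing / SlopePlug  (helper4)   **the composite `ET ∘ SL` at one node.**

`ET.slopeAt_eq_Rstar`: row [ET] (helper4: `NodeRing/Bundle`) plugged into helper41's landed
`Slope/NodeGlue.node_slope_nodeOrd` (C3-SLOPE with the order function plugged).  From

* downstairs: the node ring `R₀ = R_s` as a type inside `F` (`[Algebra R₀ F]`), `IsNode u₀ u₀'`,
  `u₀ u₀' = p ψ₀`, `R₀ ⊆ O`, `v(u₀) < 1`, `v(u₀') = 1`, (D) `hdense`, (n3) `hn3`, the reduction setup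
  `R`, the place `P`, `SlopeData`, the two order functions `(Oinf, vinf)`, `(Ozero, vzero)` of
  `F0 = Frac R₀`;
* the cover: `E0 ⊆ E`, `[E0 : F0] = p`, `D : ASDatum R₀ p σ θ ζ` in `E`, `θ₀' ∈ E0` with
  `hθ`, a finite group `G` acting on `E` through iterates of `σ`, a valuation subring `W` of `E`
  over `O` (`hVW`);
* the Kummer data `hfx hc hg hft hftx` and the C3-CFE hypothesis `H` at every root `c`;

we get a root `c` (with `R*_c ⊆ W`), valuation subrings / order functions `(Winf, winf)`,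
`(Wzero, wzero)` of `E0` with ALL per-node hypotheses of `Asm.c3_core_pair` and
`slopeAt O₁ O₂ O R.res p x P = wzero ft - winf ft` in `ZMod p`.
-/
import Mathlib
import Fermat.Agent.S40x.NodeRing.Bundle
import Fermat.Agent.S40x.R2.Slope.NodeGlue

set_option linter.style.haveILetI false
set_option linter.unusedSectionVars false
set_option autoImplicit false

namespace Fermat.Agent.S40x.NodeRing

open AlgebraicCurve IsLocalRing Ideal Polynomial Fermat.Agent.Gateway.Kummer Fermat.Agent.Gateway.C0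
  Fermat.Agent.S40x.Slope.SlopeInv Fermat.Agent.S40x.R2.Transitive
  Fermat.Agent.S40x.R2.SlopeB.PlaceInst Fermat.Agent.S40x.R2.SlopeB.Lift
  Fermat.Agent.S40x.R2.Slope

namespace ET

variable {L : Type*} [Field L] [IsAlgClosed L] {F : Type*} [Field F] [Algebra L F]
  [HasPrincipalDivisors L F]
  {k : Type*} [Field k] {Eκ : Type*} [Field Eκ] [Algebra k Eκ]
  {A : ValuationSubring L} {O₁ O₂ O : ValuationSubring F}
variable {E : Type*} [Field E] [Algebra F E] {W : ValuationSubring E}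
variable {G : Type*} [Group G] [Fintype G] [MulSemiringAction G E] [SMulCommClass G F E]
  [Algebra.IsInvariant F E G] [FaithfulSMul G E]
variable {E0 : Type*} [Field E0] [Algebra E0 E]
variable {R₀ : Type*} [CommRing R₀] [IsDomain R₀] [IsNoetherianRing R₀] [IsLocalRing R₀]
  [IsIntegrallyClosed R₀] [IsAlgClosed (ResidueField R₀)]
  [Algebra R₀ F] [Algebra R₀ E0] [FaithfulSMul R₀ E0] [Algebra R₀ E] [IsScalarTower R₀ E0 E]
  [IsScalarTower R₀ F E]

theorem slopeAt_eq_Rstar (R : Fermat.Agent.Gateway.C0.RedSetup A O k Eκ) (P : Place k Eκ)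
    {p : ℕ} [hp : Fact p.Prime] (hS : SlopeData (L := L) O₁ O₂ O R.res p)
    -- the node ring downstairs
    {u₀ u₀' : R₀} (h₀ : IsNode u₀ u₀') (ψ₀ : R₀ˣ) (hψ₀ : u₀ * u₀' = (p : R₀) * ψ₀)
    (hR₀O : ∀ r : R₀, algebraMap R₀ F r ∈ O)
    (hu₀O : O.valuation (algebraMap R₀ F u₀) < 1)
    (hu₀'O : O.valuation (algebraMap R₀ F u₀') = 1)
    (hdense : ∀ x : F, O.valuation x = 1 → ∃ r1 ∈ (algebraMap R₀ F).range,
      ∃ r2 ∈ (algebraMap R₀ F).range, O.valuation r1 = 1 ∧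
      O.valuation r2 = 1 ∧ O.valuation (x * r2 - r1) < 1)
    (hn3 : ∀ r : R₀, ¬ u₀ ∣ r → ordAt O R.res P (algebraMap R₀ F r) = ordQ u₀ u₀' r)
    -- the cover
    {σ : E →ₐ[R₀] E} {ι' : Type*} [Fintype ι'] {θ ζ : ι' → E} (D : ASDatum R₀ p σ θ ζ)
    {θ₀' : E0} (hθ : algebraMap E0 E θ₀' = -∑ d, θ d)
    (hG : ∀ g : G, ∃ i, i < p ∧ ∀ x : E, g • x = (σ^[i]) x)
    (hVW : ∀ e : F, algebraMap F E e ∈ W ↔ e ∈ O) (hpL : (p : L) ≠ 0)
    -- the fraction field of `R₀` and its two order functions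
    (F0 : Type*) [Field F0] [Algebra R₀ F0] [IsFractionRing R₀ F0] [Algebra F0 E0]
    [IsScalarTower R₀ F0 E0] [FiniteDimensional F0 E0] (hfin : Module.finrank F0 E0 = p)
    {Oinf Ozero : ValuationSubring F0} {vinf vzero : F0 → ℤ}
    (hvinf : IsOrd Oinf vinf) (hvinf_u : vinf (algebraMap R₀ F0 u₀) = 1)
    (hvinf_0 : ∀ r : R₀, ¬ u₀ ∣ r → vinf (algebraMap R₀ F0 r) = 0)
    (hvzero : IsOrd Ozero vzero) (hvzero_u' : vzero (algebraMap R₀ F0 u₀') = 1)
    (hvzero_0 : ∀ r : R₀, ¬ u₀' ∣ r → vzero (algebraMap R₀ F0 r) = 0)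
    -- the Kummer functions
    {x : Pic0 L F} {fx : F} (hfx : IsKummerRep p x fx) {c : L} (hc : c ≠ 0) {g : E} (hg : g ≠ 0)
    {ft : E0} (hft : ft ≠ 0)
    (hftx : algebraMap E0 E ft = algebraMap F E (algebraMap L F c) * algebraMap F E fx * g ^ p)
    (H : ∀ (c : R₀) (hc : (minpoly R₀ θ₀').eval c ∈ maximalIdeal R₀),
      ∀ π : Embed.Rstar (isIntegral' D hθ) hc, Prime π →
      ¬ Associated π (Embed.inclStar (isIntegral' D hθ) hc u₀) →
      ¬ Associated π (Embed.inclStar (isIntegral' D hθ) hc u₀') →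
      ∀ f1 f2 : Embed.Rstar (isIntegral' D hθ) hc, f2 ≠ 0 →
        ft * algebraMap (Embed.Rstar (isIntegral' D hθ) hc) E0 f2 =
          algebraMap (Embed.Rstar (isIntegral' D hθ) hc) E0 f1 →
      ∀ n1 n2 : ℕ, π ^ n1 ∣ f1 → ¬ π ^ (n1 + 1) ∣ f1 → π ^ n2 ∣ f2 → ¬ π ^ (n2 + 1) ∣ f2 →
        (p : ℤ) ∣ (n1 : ℤ) - n2) :
    ∃ (c : R₀) (_ : (minpoly R₀ θ₀').eval c ∈ maximalIdeal R₀)
      (Winf Wzero : ValuationSubring E0) (winf wzero : E0 → ℤ),
      (∀ e : F0, algebraMap F0 E0 e ∈ Winf ↔ e ∈ Oinf) ∧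
      (∀ e : F0, algebraMap F0 E0 e ∈ Wzero ↔ e ∈ Ozero) ∧
      IsOrd Winf winf ∧ IsOrd Wzero wzero ∧
      (∀ e : F0, e ≠ 0 → winf (algebraMap F0 E0 e) = vinf e) ∧
      (∀ e : F0, e ≠ 0 → wzero (algebraMap F0 E0 e) = vzero e) ∧
      slopeAt O₁ O₂ O R.res p x P = ((wzero ft - winf ft : ℤ) : ZMod p) := by
  -- `p ∈ m_{R₀}`
  have hpm : (p : R₀) ∈ maximalIdeal R₀ := by
    have h1 : (p : R₀) = u₀ * u₀' * ((ψ₀⁻¹ : R₀ˣ) : R₀) := by
      rw [hψ₀, mul_assoc, Units.mul_inv, mul_one]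
    rw [h1]
    exact Ideal.mul_mem_right _ _ (Ideal.mul_mem_right _ _ h₀.z_mem)
  -- `R₀ ⊆ W`
  have htow : ∀ r : R₀, algebraMap R₀ E r = algebraMap F E (algebraMap R₀ F r) :=
    fun r => IsScalarTower.algebraMap_apply R₀ F E r
  have htow0 : ∀ r : R₀, algebraMap R₀ E r = algebraMap E0 E (algebraMap R₀ E0 r) :=
    fun r => IsScalarTower.algebraMap_apply R₀ E0 E r
  have hRW : ∀ r : R₀, algebraMap R₀ E r ∈ W := fun r => by
    rw [htow, hVW]; exact hR₀O r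
  -- `p` is a non-unit of `W`
  have hpW : (p : E) ∈ W.nonunits := by
    rw [ValuationSubring.mem_nonunits_iff]
    have h1 : (p : E) = algebraMap F E (algebraMap R₀ F (u₀ * u₀' * ((ψ₀⁻¹ : R₀ˣ) : R₀))) := by
      rw [hψ₀, mul_assoc, Units.mul_inv, mul_one, map_natCast, map_natCast]
    rw [h1, val_lt_one_iff hVW, map_mul, map_mul, map_mul, map_mul]
    have h2 : O.valuation (algebraMap R₀ F ((ψ₀⁻¹ : R₀ˣ) : R₀)) ≤ 1 :=
      (ValuationSubring.valuation_le_one_iff O _).mpr (hR₀O _)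
    rw [hu₀'O, mul_one]
    calc O.valuation (algebraMap R₀ F u₀) * O.valuation (algebraMap R₀ F ((ψ₀⁻¹ : R₀ˣ) : R₀))
        ≤ O.valuation (algebraMap R₀ F u₀) * 1 := by gcongr
      _ < 1 := by rw [mul_one]; exact hu₀O
  -- the root `c`
  set W0 : ValuationSubring E0 := W.comap (algebraMap E0 E) with hW0
  have hRW0 : ∀ r : R₀, algebraMap R₀ E0 r ∈ W0 := fun r => by
    rw [hW0, ValuationSubring.mem_comap, ← htow0]; exact hRW r
  obtain ⟨c', hc', hle⟩ := exists_le' D hθ W0 hRW0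
  refine ⟨c', hc', ?_⟩
  -- the order functions
  obtain ⟨Winf, winf, hwinf, hinf_u, hinf_0, hWinf, hvinf'⟩ :=
    ord_package' D hpm hθ h₀ hc' F0 hfin hvinf hvinf_u hvinf_0
  obtain ⟨Wzero, wzero, hwzero, hzero_u', hzero_0, hWzero, hvzero'⟩ :=
    ord_package' D hpm hθ h₀.symm hc' F0 hfin hvzero hvzero_u' hvzero_0
  refine ⟨Winf, Wzero, winf, wzero, hWinf, hWzero, hwinf, hwzero, hvinf', hvzero', ?_⟩
  haveI : UniqueFactorizationMonoid (Embed.Rstar (isIntegral' D hθ) hc') := ufm' D hpm hθ h₀ hc'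
  haveI : IsFractionRing (Embed.Rstar (isIntegral' D hθ) hc') E0 :=
    isFractionRing' D hpm hθ hc' F0 hfin
  have hN := isNode' D hpm hθ h₀ hc'
  obtain ⟨ψ', hψ'⟩ := mul_eq' D hθ ψ₀ hψ₀ hc'
  -- coercions
  have hcoe : ∀ r : R₀, algebraMap E0 E
      (algebraMap (Embed.Rstar (isIntegral' D hθ) hc') E0
        (Embed.inclStar (isIntegral' D hθ) hc' r)) = algebraMap F E (algebraMap R₀ F r) := by
    intro r
    have h1 : algebraMap (Embed.Rstar (isIntegral' D hθ) hc') E0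
        (Embed.inclStar (isIntegral' D hθ) hc' r) = algebraMap R₀ E0 r :=
      Embed.coe_inclStar (isIntegral' D hθ) hc' r
    rw [h1, ← htow0, htow]
  have hθ0 : algebraMap E0 E (algebraMap (Embed.Rstar (isIntegral' D hθ) hc') E0
      ⟨θ₀', Embed.theta_mem_Rstar (isIntegral' D hθ) hc'⟩) = -∑ d, θ d := hθ
  refine node_slope_nodeOrd (G := G) R P hS h₀.max_eq h₀.prime_z h₀.not_dvd (algebraMap R₀ F)
    hdense hn3 hVW (algebraMap E0 E) hN.max_eq hN.prime_z hN.prime_z' hN.not_dvd hN.not_dvd'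
    (fun r => ?_) ?_ ?_ (Embed.inclStar (isIntegral' D hθ) hc') rfl rfl (fun r => (hcoe r).symm)
    (θn := ⟨θ₀', Embed.theta_mem_Rstar (isIntegral' D hθ) hc'⟩) ?_ ?_ (Ψ := ψ') (c₀ := (p : L))
    hpL ?_ hwinf hwzero hinf_u hinf_0 hzero_u' hzero_0 hfx hc hg hft hftx (H c' hc')
  · -- hφW
    have := hle r.2
    exact this
  · -- hvu
    rw [hcoe, val_lt_one_iff hVW]; exact hu₀O
  · -- hvu'
    rw [hcoe, val_eq_one_iff hVW]; exact hu₀'O
  · -- hθ
    intro g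
    obtain ⟨i, -, hi⟩ := hG g
    rw [hθ0, hi]
    exact D.iterate_mem W hRW i
  · -- hθu
    intro g g' hgg'
    obtain ⟨i, hip, hi⟩ := hG g
    obtain ⟨j, hjp, hj⟩ := hG g'
    have hij : i ≠ j := by
      rintro rfl
      apply hgg'
      apply eq_of_smul_eq_smul (α := E)
      intro x
      rw [hi, hj]
    rw [hθ0, hi, hj]
    exact D.valuation_iterate_sub_iterate W hRW hpW hip hjp hij
  · -- hrel
    rw [hψ', map_mul, map_mul, map_natCast, map_natCast, map_natCast, map_natCast]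

end ET

end Fermat.Agent.S40x.NodeRing
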