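/-
S40x / NodeRing / SlopePlugSmooth  (helper4)   **the composite `ET ∘ SL` at a non-node place.**

`ET.slopeAt_eq_zero_Rstar`: the smooth-point case of `NodeRing/SlopePlug`: the étale lift
`R*_c` (`NodeRing/Smooth`: a smooth-point ring `m = (p, t₀)`, `p` prime, `p ∤ t₀` is a node pair)
plugged into helper41's landed `Slope/NodeGlue.smooth_slope_nodeOrd`.  Output:
`slopeAt O₁ O₂ O R.res p x P = 0`.
-/
import Mathlib
import Fermat.Agent.S40x.NodeRing.Smooth
import Fermat.Agent.S40x.R2.Slope.NodeGlue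

set_option linter.style.haveILetI false
set_option linter.unusedSectionVars false
set_option autoImplicit false

namespace Fermat.Agent.S40x.NodeRing

open AlgebraicCurve IsLocalRing Ideal Polynomial Fermat.Agent.Gateway.Kummer Fermat.Agent.Gateway.C0
  Fermat.Agent.S40x.Slope.SlopeInv Fermat.Agent.S40x.R2.Transitive
  Fermat.Agent.S40x.R2.SlopeB.PlaceInst Fermat.Agent.S40x.R2.SlopeB.Lift
  Fermat.Agent.S40x.R2.Slope

namespace ET

variable {L : Type*} [Field L] [IsAlgClosed L] {F : Type*} [Field F] [Algebra L F]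
  [HasPrincipalDivisors L F]
  {k : Type*} [Field k] {Eκ : Type*} [Field Eκ] [Algebra k Eκ]
  {A : ValuationSubring L} {O₁ O₂ O : ValuationSubring F}
variable {E : Type*} [Field E] [Algebra F E] {W : ValuationSubring E}
variable {G : Type*} [Group G] [Fintype G] [MulSemiringAction G E] [SMulCommClass G F E]
  [Algebra.IsInvariant F E G] [FaithfulSMul G E]
variable {E0 : Type*} [Field E0] [Algebra E0 E]
variable {R₀ : Type*} [CommRing R₀] [IsDomain R₀] [IsNoetherianRing R₀] [IsLocalRing R₀]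
  [IsIntegrallyClosed R₀] [IsAlgClosed (ResidueField R₀)]
  [Algebra R₀ F] [Algebra R₀ E0] [FaithfulSMul R₀ E0] [Algebra R₀ E] [IsScalarTower R₀ E0 E]
  [IsScalarTower R₀ F E]

theorem slopeAt_eq_zero_Rstar (R : Fermat.Agent.Gateway.C0.RedSetup A O k Eκ) (P : Place k Eκ)
    {p : ℕ} [hp : Fact p.Prime] (hS : SlopeData (L := L) O₁ O₂ O R.res p)
    -- the smooth-point ring downstairs
    {t₀ : R₀} (hmax : maximalIdeal R₀ = Ideal.span {(p : R₀), t₀}) (hpp : Prime (p : R₀))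
    (hpt : ¬ (p : R₀) ∣ t₀)
    (hR₀O : ∀ r : R₀, algebraMap R₀ F r ∈ O)
    (hpO : O.valuation (algebraMap R₀ F (p : R₀)) < 1)
    (ht₀O : O.valuation (algebraMap R₀ F t₀) = 1)
    (hdense : ∀ x : F, O.valuation x = 1 → ∃ r1 ∈ (algebraMap R₀ F).range,
      ∃ r2 ∈ (algebraMap R₀ F).range, O.valuation r1 = 1 ∧
      O.valuation r2 = 1 ∧ O.valuation (x * r2 - r1) < 1)
    (hn3 : ∀ r : R₀, ¬ (p : R₀) ∣ r → ordAt O R.res P (algebraMap R₀ F r) = ordQ (p : R₀) t₀ r)
    -- the cover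
    {σ : E →ₐ[R₀] E} {ι' : Type*} [Fintype ι'] {θ ζ : ι' → E} (D : ASDatum R₀ p σ θ ζ)
    {θ₀' : E0} (hθ : algebraMap E0 E θ₀' = -∑ d, θ d)
    (hG : ∀ g : G, ∃ i, i < p ∧ ∀ x : E, g • x = (σ^[i]) x)
    (hVW : ∀ e : F, algebraMap F E e ∈ W ↔ e ∈ O) (hpL : (p : L) ≠ 0)
    (F0 : Type*) [Field F0] [Algebra R₀ F0] [IsFractionRing R₀ F0] [Algebra F0 E0]
    [IsScalarTower R₀ F0 E0] [FiniteDimensional F0 E0] (hfin : Module.finrank F0 E0 = p)
    -- the Kummer functions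
    {x : Pic0 L F} {fx : F} (hfx : IsKummerRep p x fx) {c : L} (hc : c ≠ 0) {g : E} (hg : g ≠ 0)
    {ft : E0} (hft : ft ≠ 0)
    (hftx : algebraMap E0 E ft = algebraMap F E (algebraMap L F c) * algebraMap F E fx * g ^ p)
    (H : ∀ (c : R₀) (hc : (minpoly R₀ θ₀').eval c ∈ maximalIdeal R₀),
      ∀ π : Embed.Rstar (isIntegral' D hθ) hc, Prime π →
      ¬ Associated π (Embed.inclStar (isIntegral' D hθ) hc (p : R₀)) →
      ∀ f1 f2 : Embed.Rstar (isIntegral' D hθ) hc, f2 ≠ 0 →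
        ft * algebraMap (Embed.Rstar (isIntegral' D hθ) hc) E0 f2 =
          algebraMap (Embed.Rstar (isIntegral' D hθ) hc) E0 f1 →
      ∀ n1 n2 : ℕ, π ^ n1 ∣ f1 → ¬ π ^ (n1 + 1) ∣ f1 → π ^ n2 ∣ f2 → ¬ π ^ (n2 + 1) ∣ f2 →
        (p : ℤ) ∣ (n1 : ℤ) - n2) :
    slopeAt O₁ O₂ O R.res p x P = 0 := by
  have h₀ : IsNode (p : R₀) t₀ := IsNode.of_regPair hmax hpp hpt
  have hpm : (p : R₀) ∈ maximalIdeal R₀ := h₀.z_mem
  have htow : ∀ r : R₀, algebraMap R₀ E r = algebraMap F E (algebraMap R₀ F r) :=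
    fun r => IsScalarTower.algebraMap_apply R₀ F E r
  have htow0 : ∀ r : R₀, algebraMap R₀ E r = algebraMap E0 E (algebraMap R₀ E0 r) :=
    fun r => IsScalarTower.algebraMap_apply R₀ E0 E r
  have hRW : ∀ r : R₀, algebraMap R₀ E r ∈ W := fun r => by
    rw [htow, hVW]; exact hR₀O r
  have hpW : (p : E) ∈ W.nonunits := by
    rw [ValuationSubring.mem_nonunits_iff]
    have h1 : (p : E) = algebraMap F E (algebraMap R₀ F (p : R₀)) := by
      rw [map_natCast, map_natCast]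
    rw [h1, val_lt_one_iff hVW]
    exact hpO
  set W0 : ValuationSubring E0 := W.comap (algebraMap E0 E) with hW0
  have hRW0 : ∀ r : R₀, algebraMap R₀ E0 r ∈ W0 := fun r => by
    rw [hW0, ValuationSubring.mem_comap, ← htow0]; exact hRW r
  obtain ⟨c', hc', hle⟩ := exists_le' D hθ W0 hRW0
  haveI : UniqueFactorizationMonoid (Embed.Rstar (isIntegral' D hθ) hc') := ufm' D hpm hθ h₀ hc'
  haveI : IsFractionRing (Embed.Rstar (isIntegral' D hθ) hc') E0 :=
    isFractionRing' D hpm hθ hc' F0 hfin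
  have hN := isNode' D hpm hθ h₀ hc'
  have hcoe : ∀ r : R₀, algebraMap E0 E
      (algebraMap (Embed.Rstar (isIntegral' D hθ) hc') E0
        (Embed.inclStar (isIntegral' D hθ) hc' r)) = algebraMap F E (algebraMap R₀ F r) := by
    intro r
    have h1 : algebraMap (Embed.Rstar (isIntegral' D hθ) hc') E0
        (Embed.inclStar (isIntegral' D hθ) hc' r) = algebraMap R₀ E0 r :=
      Embed.coe_inclStar (isIntegral' D hθ) hc' r
    rw [h1, ← htow0, htow]
  have hθ0 : algebraMap E0 E (algebraMap (Embed.Rstar (isIntegral' D hθ) hc') E0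
      ⟨θ₀', Embed.theta_mem_Rstar (isIntegral' D hθ) hc'⟩) = -∑ d, θ d := hθ
  refine smooth_slope_nodeOrd (G := G) R P hS h₀.max_eq h₀.prime_z h₀.not_dvd (algebraMap R₀ F)
    hdense hn3 hVW (algebraMap E0 E) hN.max_eq hN.prime_z hN.not_dvd
    (fun r => ?_) ?_ ?_ (Embed.inclStar (isIntegral' D hθ) hc') rfl rfl (fun r => (hcoe r).symm)
    (θn := ⟨θ₀', Embed.theta_mem_Rstar (isIntegral' D hθ) hc'⟩) ?_ ?_ (c₀ := (p : L))
    hpL ?_ hfx hc hg hft hftx (H c' hc')
  · have := hle r.2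
    exact this
  · rw [hcoe, val_lt_one_iff hVW]; exact hpO
  · rw [hcoe, val_eq_one_iff hVW]; exact ht₀O
  · intro g
    obtain ⟨i, -, hi⟩ := hG g
    rw [hθ0, hi]
    exact D.iterate_mem W hRW i
  · intro g g' hgg'
    obtain ⟨i, hip, hi⟩ := hG g
    obtain ⟨j, hjp, hj⟩ := hG g'
    have hij : i ≠ j := by
      rintro rfl
      apply hgg'
      apply eq_of_smul_eq_smul (α := E)
      intro x
      rw [hi, hj]
    rw [hθ0, hi, hj]
    exact D.valuation_iterate_sub_iterate W hRW hpW hip hjp hij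
  · rw [hcoe, map_natCast, map_natCast, map_natCast, map_natCast]

end ET

end Fermat.Agent.S40x.NodeRing
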